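import Fermat.Agent.RT.GammaH.Cores
import Mathlib.GroupTheory.GroupAction.Basic

/-!
# The kernel of corestriction when `ST` acts freely

The kernel of corestriction is spanned by the differences `ψ ∘ conj σᵢ - ψ` as soon as `2` is
invertible and the cosets carry weights with sum one along the orbits of `ST`: constant weights
when `3` is invertible, the indicator of a section when `ST` has no fixed point.
-/

set_option autoImplicit false

noncomputable section

namespace Fermat.Agent.RT.Lift.LowerSq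

open Fermat.Agent.RT.GammaH Gamma0
open scoped MatrixGroups

variable {Γ' Γ : Subgroup SL(2, ℤ)} {ι : Type*} [Fintype ι] {σ : ι → SL(2, ℤ)} {A : Type*}
  [AddCommGroup A] {R : Type*} [CommRing R] [Module R A]

/-- Weights with sum one along the orbits of `ST`. -/
def IsSTWeight (Γ : Subgroup SL(2, ℤ)) (wt : SL(2, ℤ) ⧸ Γ → R) : Prop :=
  ∀ x, wt x + wt (Gamma0.ST • x) + wt (Gamma0.ST • Gamma0.ST • x) = 1

theorem isSTWeight_const {b : R} (hb : 3 * b = 1) : IsSTWeight Γ fun _ => b := fun _ => by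
  linear_combination hb

theorem exists_weight_of_free (hneg : -1 ∈ Γ) (hfree : ∀ x : SL(2, ℤ) ⧸ Γ, Gamma0.ST • x ≠ x) :
    ∃ wt : SL(2, ℤ) ⧸ Γ → R, IsSTWeight Γ wt := by
  classical
  set T : SL(2, ℤ) ⧸ Γ → SL(2, ℤ) ⧸ Γ := fun x => Gamma0.ST • x
  have h3 : ∀ x, T (T (T x)) = x := fun x => by
    show Gamma0.ST • Gamma0.ST • Gamma0.ST • x = x
    rw [← mul_smul, ← mul_smul, ← pow_two, ← pow_succ, ST_pow_three, neg_one_smul_coset hneg]
  have hT1 : ∀ x, T x ≠ x := hfree
  have hT2 : ∀ x, T (T x) ≠ x := fun x h => hfree x (by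
    have := congrArg T h
    rw [h3] at this
    exact this.symm)
  let s : Setoid (SL(2, ℤ) ⧸ Γ) :=
    { r := fun x y => y = x ∨ y = T x ∨ y = T (T x)
      iseqv :=
        { refl := fun x => Or.inl rfl
          symm := by
            rintro x y (rfl | rfl | rfl)
            · exact Or.inl rfl
            · exact Or.inr (Or.inr (h3 x).symm)
            · exact Or.inr (Or.inl (h3 x).symm)
          trans := by
            rintro x y z (rfl | rfl | rfl) (rfl | rfl | rfl) <;> simp [h3] } }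
  let rep : SL(2, ℤ) ⧸ Γ → SL(2, ℤ) ⧸ Γ := fun x => (Quotient.mk s x).out
  have hrep : ∀ x, rep x = x ∨ rep x = T x ∨ rep x = T (T x) := fun x => by
    have := Setoid.symm' s (Quotient.mk_out (s := s) x)
    exact this
  have hinv : ∀ x, rep (T x) = rep x := fun x => by
    show (Quotient.mk s (T x)).out = (Quotient.mk s x).out
    rw [show Quotient.mk s (T x) = Quotient.mk s x from
      Quotient.sound (Or.inr (Or.inr (h3 x).symm))]
  refine ⟨fun x => if rep x = x then 1 else 0, fun x => ?_⟩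
  show (if rep x = x then (1 : R) else 0) + (if rep (T x) = T x then 1 else 0) +
    (if rep (T (T x)) = T (T x) then 1 else 0) = 1
  rw [hinv, hinv, hinv]
  rcases hrep x with h | h | h <;> rw [h]
  · simp [(hT1 x).symm, (hT2 x).symm]
  · have h' : T x ≠ T (T x) := fun e => hT1 x (by
      have := congrArg T (congrArg T e)
      simp only [h3] at this
      exact this.symm)
    simp [hT1 x, h']
  · have h' : T (T x) ≠ T x := fun e => hT1 x (by
      have := congrArg T (congrArg T e)
      simp only [h3] at this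
      exact this)
    simp [hT2 x, h']

variable (h : IsCoreps Γ' Γ σ)

/-- A relation function with vanishing fibre sums is a combination of differences of relation
functions. -/
theorem exists_relR {wt : SL(2, ℤ) ⧸ Γ → R} (hwt : IsSTWeight Γ wt) (hneg : -1 ∈ Γ')
    {f : SL(2, ℤ) ⧸ Γ' → A}
    (hf : ∀ y, f y + f (Gamma0.ST • y) + f (Gamma0.ST • Gamma0.ST • y) = 0)
    (hsum : ∀ x, h.fibreSum f x = 0) :
    ∃ v : ι → SL(2, ℤ) ⧸ Γ' → A,
      (∀ i y, v i y + v i (Gamma0.ST • y) + v i (Gamma0.ST • Gamma0.ST • y) = 0) ∧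
      ∀ y, f y = ∑ i, (v i (h.rightMul i y) - v i y) := by
  have h3 : ∀ y : SL(2, ℤ) ⧸ Γ', Gamma0.ST • Gamma0.ST • Gamma0.ST • y = y := fun y => by
    rw [← mul_smul, ← mul_smul, ← pow_two, ← pow_succ, ST_pow_three, neg_one_smul_coset hneg]
  set w : SL(2, ℤ) ⧸ Γ' → A := fun y =>
    wt (h.proj y) • f y - wt (Gamma0.ST • h.proj y) • f (Gamma0.ST • Gamma0.ST • y) with hw
  have hwsum : ∀ x, h.fibreSum w x = 0 := fun x => by
    obtain ⟨y, rfl⟩ := h.proj_surjective x
    rw [h.fibreSum_eq rfl]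
    simp only [hw, h.proj_rightMul, Finset.sum_sub_distrib, ← Finset.smul_sum]
    have e : ∑ i, f (Gamma0.ST • Gamma0.ST • h.rightMul i y) = 0 := by
      simp only [← h.rightMul_smul]
      exact (h.fibreSum_eq rfl f).symm.trans (hsum _)
    rw [show ∑ i, f (h.rightMul i y) = 0 from (h.fibreSum_eq rfl f).symm.trans (hsum _), e,
      smul_zero, smul_zero, sub_zero]
  obtain ⟨u, hu⟩ := h.exists_eq_sum_rightMul hwsum
  refine ⟨fun i y => u i y - u i (Gamma0.ST • y), fun i y => ?_, fun y => ?_⟩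
  · simp only [h3]
    abel
  · have e : f y = w y - w (Gamma0.ST • y) := by
      simp only [hw, h.proj_smul, h3]
      have h' := eq_neg_of_add_eq_zero_right (hf y)
      rw [h', ← one_smul R (f y)]
      conv_lhs => rw [← hwt (h.proj y)]
      module
    rw [e, hu, hu, ← Finset.sum_sub_distrib]
    refine Finset.sum_congr rfl fun i _ => ?_
    simp only [h.rightMul_smul]
    abel

include h in
/-- The kernel of corestriction. -/
theorem exists_eq_sum_conjOp (h2 : IsUnit (2 : R)) {wt : SL(2, ℤ) ⧸ Γ → R}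
    (hwt : IsSTWeight Γ wt) (hneg : -1 ∈ Γ') {φ : Additive Γ' →+ A} (hφ : h.cores R φ = 0) :
    ∃ ψ : ι → (Additive Γ' →+ A), φ = ∑ i, (h.conjOp R i (ψ i) - ψ i) := by
  obtain ⟨c, hc, hrel, rfl⟩ :=
    exists_cocycle_toHom hneg φ (IsCoreps.apply_neg_one h2 hneg φ)
  obtain ⟨a, ha⟩ : ∃ a : R, ∀ x : A, a • (x + x) = x := by
    obtain ⟨u, hu⟩ := h2
    exact ⟨(u⁻¹ : Rˣ), fun x => by
      rw [← two_nsmul, ← Nat.cast_smul_eq_nsmul R, Nat.cast_ofNat, ← hu, ← Units.smul_def,
        ← Units.smul_def, inv_smul_smul]⟩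
  rw [h.cores_toHom hc] at hφ
  obtain ⟨f, hf⟩ := ((h.isCocycle_fibreSum hc).toHom_eq_zero_iff).1 hφ
  obtain ⟨f', hf'⟩ := h.fibreSum_surjective f
  set c' : SL(2, ℤ) → SL(2, ℤ) ⧸ Γ' → A := fun g y => c g y - (f' (g • y) - f' y) with hc'def
  have hc' : IsCocycle c' := fun g k y => by
    simp only [hc'def]
    rw [hc, mul_smul]
    abel
  have hsum : ∀ g x, h.fibreSum (c' g) x = 0 := fun g x => by
    rw [show c' g = c g - ((fun y => f' (g • y)) - f') from rfl, h.fibreSum_sub, h.fibreSum_sub,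
      h.fibreSum_comp_smul, hf', hf', hf g x, sub_self]
  have htoHom : hc.toHom = hc'.toHom := AddMonoidHom.ext fun x => by
    obtain ⟨γ, rfl⟩ := Additive.ofMul.surjective x
    rw [IsCocycle.toHom_apply, IsCocycle.toHom_apply]
    show _ = c _ _ - _
    have hfix : (γ : SL(2, ℤ)) • (QuotientGroup.mk 1 : SL(2, ℤ) ⧸ Γ') = QuotientGroup.mk 1 := by
      rw [MulAction.Quotient.smul_coe, smul_eq_mul, mul_one, QuotientGroup.eq]
      simp
    rw [hfix, sub_self, sub_zero]
  have hrelS : ∀ y, c' ModularGroup.S (ModularGroup.S • y) = -c' ModularGroup.S y := fun y => by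
    refine eq_neg_of_add_eq_zero_right ?_
    simp only [hc'def, ← mul_smul ModularGroup.S ModularGroup.S, S_mul_S,
      neg_one_smul_coset hneg]
    rw [← hrel.1 y]
    abel
  have hrelR : ∀ y, c' Gamma0.ST y + c' Gamma0.ST (Gamma0.ST • y) +
      c' Gamma0.ST (Gamma0.ST • Gamma0.ST • y) = 0 := fun y => by
    simp only [hc'def]
    rw [show Gamma0.ST • Gamma0.ST • Gamma0.ST • y = y by rw [← mul_smul, ← mul_smul, ← pow_two, ← pow_succ, ST_pow_three,
      neg_one_smul_coset hneg], ← hrel.2 y]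
    abel
  obtain ⟨u, hu⟩ := h.exists_eq_sum_rightMul (hsum ModularGroup.S)
  obtain ⟨v, hv, hvs⟩ := exists_relR h hwt hneg hrelR (hsum Gamma0.ST)
  have hrp : ∀ i, IsRelPair (IsCoreps.projS R a (u i)) (v i) := fun i =>
    ⟨(IsCoreps.isRelPair_proj hneg a a (u i) (u i)).1, hv i⟩
  choose d hd hdS hdR using fun i => exists_cocycle hneg (hrp i)
  refine ⟨fun i => (hd i).toHom, ?_⟩
  set e : SL(2, ℤ) → SL(2, ℤ) ⧸ Γ' → A :=
    fun g y => ∑ i, (d i g (h.rightMul i y) - d i g y) with hedef
  have he : IsCocycle e := fun g k y => by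
    simp only [hedef, ← Finset.sum_add_distrib]
    refine Finset.sum_congr rfl fun i _ => ?_
    rw [hd i g k, hd i g k, h.rightMul_smul]
    abel
  have hce : c' = e := by
    refine hc'.ext_of_eq he (funext fun y => ?_) (funext fun y => ?_)
    · conv_lhs => rw [← ha (c' ModularGroup.S y)]
      rw [← sub_neg_eq_add, ← hrelS, hu, hu, ← Finset.sum_sub_distrib, Finset.smul_sum]
      refine Finset.sum_congr rfl fun i _ => ?_
      simp only [hdS, IsCoreps.projS, Pi.smul_apply, Pi.sub_apply, h.rightMul_smul, ← smul_sub]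
      congr 1
      abel
    · rw [hvs]
      simp only [hedef, hdR]
  rw [htoHom]
  refine AddMonoidHom.ext fun x => ?_
  obtain ⟨γ, rfl⟩ := Additive.ofMul.surjective x
  rw [AddMonoidHom.finsetSum_apply, IsCocycle.toHom_apply, hce]
  refine Finset.sum_congr rfl fun i _ => ?_
  rw [AddMonoidHom.sub_apply, h.conjOp_toHom (hd i) i]
  rfl

end Fermat.Agent.RT.Lift.LowerSq

end
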