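import Fermat.Agent.RT.MazurP.EigenSpace
import Fermat.Agent.HeckeDuality.DeligneSerre
import Fermat.Agent.IntegralStructure.Main
import Fermat.Prelude.Def_FLTPrelim_ModularRep

/-!
# A torsion class with the eigenvalues of `W` gives residual modularity

A nonzero `p`-torsion class of `J₀(N)` on which the good Hecke operators act by the eigenvalues of
`W` lies in a proper ideal of the Hecke algebra, hence is congruent to an eigenform of level `N`.
-/

set_option autoImplicit false
set_option synthInstance.maxHeartbeats 400000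

noncomputable section

namespace Fermat.Agent.RT.Lift.LowerSq

open ModularCurve AlgebraicCurve Fermat.Agent.GaloisReps
open scoped Matrix

variable {N p : ℕ} [NeZero N] [Fact p.Prime]

omit [NeZero N] in
/-- A proper ideal over `p` containing the kernel of a map to a finite ring lies in a maximal ideal
with finite quotient of characteristic `p`. -/
theorem exists_maximal_finite {T : Type} [CommRing T] {R : Type} [Ring R] [Finite R] (Φ : T →+* R)
    {I : Ideal T} (hI : I ≠ ⊤) (hker : RingHom.ker Φ ≤ I) (hp : ((p : ℕ) : T) ∈ I) :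
    ∃ m : Ideal T, m.IsMaximal ∧ I ≤ m ∧ Finite (T ⧸ m) ∧ CharP (T ⧸ m) p := by
  obtain ⟨m, hm, hIm⟩ := Ideal.exists_le_maximal I hI
  have : Finite (T ⧸ RingHom.ker Φ) := Finite.of_injective _ (RingHom.kerLift_injective Φ)
  refine ⟨m, hm, hIm, Finite.of_surjective _ (Ideal.Quotient.factor_surjective (hker.trans hIm)),
    ringChar.of_eq (CharP.ringChar_of_prime_eq_zero Fact.out ?_)⟩
  rw [← map_natCast (Ideal.Quotient.mk m), Ideal.Quotient.eq_zero_iff_mem]
  exact hIm hp

set_option maxHeartbeats 800000 in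
/-- **Residual modularity from a torsion class.** -/
theorem isResiduallyModular_of_eigen {W : WeierstrassCurve ℤ} {y : JZero N} (hy0 : y ≠ 0)
    (hy : p • y = 0)
    (h : MazurP.IsEigen N (fun l => W.IsGoodPrimeFor l ∧ l ≠ p ∧ ¬ l ∣ N) W.apOfModel y) :
    W.IsResiduallyModularOfLevel p N := by
  classical
  have : NeZero (p ^ 1) := ⟨pow_ne_zero 1 (Fact.out : p.Prime).ne_zero⟩
  let E := torsionIso N p (conjProperty N)
  let x : JTors N p 1 := ⟨y, by rw [Pic0.mem_torsion, pow_one, natCast_zsmul]; exact hy⟩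
  set v := E.psi 1 x with hv
  set Φ := matIn (latticeMat N) (ZMod (p ^ 1))
  let I : Ideal (FullHecke N) :=
    { carrier := {t | Φ t *ᵥ v = 0}
      zero_mem' := by simp [Matrix.zero_mulVec]
      add_mem' := fun {a b} ha hb => by
        show Φ (a + b) *ᵥ v = 0
        rw [map_add, Matrix.add_mulVec, show Φ a *ᵥ v = 0 from ha, show Φ b *ᵥ v = 0 from hb,
          add_zero]
      smul_mem' := fun c t ht => by
        show Φ (c * t) *ᵥ v = 0
        rw [map_mul, ← Matrix.mulVec_mulVec, show Φ t *ᵥ v = 0 from ht, Matrix.mulVec_zero] }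
  have hI : I ≠ ⊤ := fun e => by
    have h1 : Φ 1 *ᵥ v = 0 := show (1 : FullHecke N) ∈ I from e ▸ Submodule.mem_top
    rw [map_one, Matrix.one_mulVec, hv, EmbeddingLike.map_eq_zero_iff] at h1
    exact hy0 (congrArg Subtype.val h1)
  obtain ⟨m, hm, hIm, hfin, hchar⟩ := exists_maximal_finite (p := p) Φ hI (fun t ht => by
    show Φ t *ᵥ v = 0
    rw [RingHom.mem_ker.mp ht, Matrix.zero_mulVec]) (by
    show Φ _ *ᵥ v = 0
    rw [map_natCast, Matrix.natCast_mulVec]
    funext i
    show ((p : ℕ) : ZMod (p ^ 1)) * v i = 0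
    rw [show ((p : ℕ) : ZMod (p ^ 1)) = 0 from (ZMod.natCast_eq_zero_iff _ _).2
      (dvd_of_eq (pow_one p)), zero_mul])
  let _ : Field (FullHecke N ⧸ m) := Ideal.Quotient.field m
  obtain ⟨f, hf, 𝔪, h𝔪, hp𝔪, hcong⟩ := HeckeDuality.exists_eigenform_lifting (p := p)
    (IntegralStructure.hasIntegralStructure N 2) (Ideal.Quotient.mk m)
  refine ⟨f, 𝔪, hf, h𝔪, hp𝔪, fun l hl hgood hlN hlp => hcong l hl _ ?_⟩
  rw [← map_intCast (Ideal.Quotient.mk m), Ideal.Quotient.mk_eq_mk_iff_sub_mem]
  refine hIm ?_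
  show Φ _ *ᵥ v = 0
  rw [map_sub, map_intCast, Matrix.sub_mulVec, sub_eq_zero]
  have hx : heckeTors 1 ⟨l, hl⟩ x = W.apOfModel l • x := Subtype.ext (h l hl ⟨hgood, hlp, hlN⟩)
  have he : Φ (HeckeDuality.heckeOp N 2 l hl) *ᵥ v = E.psi 1 (heckeTors 1 ⟨l, hl⟩ x) := by
    simp only [Φ, hv]
    rw [matIn_apply, latticeMat_heckeOp, ← E.mat_heckeTors, E.mat_mulVec]
  rw [he, hx, map_zsmul]
  ext i
  simp [Matrix.intCast_apply, Matrix.mulVec, dotProduct, hv]

end Fermat.Agent.RT.Lift.LowerSq

end
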