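import Fermat.Agent.Arith.Chebotarev.Main
import Fermat.Agent.Arith.Chebotarev.Crossing
import Fermat.Agent.EC.Rep.TWHypothesis
import Fermat.Agent.Deform.Burnside
import Fermat.Agent.ConductorLevel.TwoDimensional
import Fermat.Agent.ConductorLevel.Compare
import Fermat.Agent.GaloisReps.Results
import Fermat.Agent.Semistable.General
import Fermat.Agent.EichlerShimura.Equivariance
import Fermat.Agent.RT.MazurP.Basic

/-!
# Two uses of Chebotarev for lowering at a squared prime

A prime `l = 1` modulo `m` with `a_l ≠ 2` modulo `p`, and the passage from eigenclasses for the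
primes which are squares modulo `q` to eigenclasses for all good primes.
-/

set_option autoImplicit false

noncomputable section

open WeierstrassCurve ModularCurve
open Fermat.Agent.Arith Fermat.Agent.EC.Rep
open scoped WeierstrassCurve.Affine

namespace Fermat.Agent.RT.Lift.LowerSq

/-- If the matrices of a group span, some commutator does not have trace two. -/
theorem exists_commutator_trace_ne_two {k : Type*} [Field k] {G : Type*} [Group G]
    (r : G →* Matrix (Fin 2) (Fin 2) k) (hspan : Submodule.span k (Set.range r) = ⊤) :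
    ∃ g h : G, (r (g * h * g⁻¹ * h⁻¹)).trace ≠ 2 := by
  by_contra hall
  push Not at hall
  have hdet : ∀ g : G, (r g).det ≠ 0 := fun g h0 => by
    have e := congrArg Matrix.det (show r g * r g⁻¹ = 1 by rw [← map_mul, mul_inv_cancel, map_one])
    rw [Matrix.det_mul, h0, zero_mul, Matrix.det_one] at e
    exact zero_ne_one e
  have hcomm : ∀ g h : G, r g * r h = r h * r g := by
    intro g h
    set c := g * h * g⁻¹ * h⁻¹ with hc
    have hdc : (r c).det = 1 := by
      have h1 : (r g).det * (r g⁻¹).det = 1 := by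
        rw [← Matrix.det_mul, ← map_mul, mul_inv_cancel, map_one, Matrix.det_one]
      have h2 : (r h).det * (r h⁻¹).det = 1 := by
        rw [← Matrix.det_mul, ← map_mul, mul_inv_cancel, map_one, Matrix.det_one]
      rw [hc, map_mul, map_mul, map_mul, Matrix.det_mul, Matrix.det_mul, Matrix.det_mul]
      linear_combination (r g⁻¹).det * (r g).det * h2 + h1
    set N := r c - 1 with hN
    have htr : N.trace = 0 := by
      rw [hN, Matrix.trace_sub, hall g h, Matrix.trace_one]
      simp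
    have hN2 : N 0 0 * N 0 0 + N 0 1 * N 1 0 = 0 := by
      have e := hall g h
      rw [← hc, Matrix.trace_fin_two] at e
      rw [Matrix.det_fin_two] at hdc
      simp [hN]
      linear_combination (r c 0 0) * e - hdc
    have h11 : N 1 1 = -N 0 0 := by
      rw [Matrix.trace_fin_two] at htr
      exact eq_neg_of_add_eq_zero_right htr
    have hzero : ∀ x : G, (N * r x).trace = 0 := by
      intro x
      have hinv : (r x).det • r x⁻¹ = (r x).trace • (1 : Matrix (Fin 2) (Fin 2) k) - r x := by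
        have e1 : r x⁻¹ * r x = 1 := by rw [← map_mul, inv_mul_cancel, map_one]
        have e2 : r x * ((r x).trace • (1 : Matrix (Fin 2) (Fin 2) k) - r x) = (r x).det • 1 := by
          ext i j
          fin_cases i <;> fin_cases j <;>
            simp [Matrix.mul_apply, Fin.sum_univ_two, Matrix.trace_fin_two, Matrix.det_fin_two] <;>
            ring
        calc (r x).det • r x⁻¹ = r x⁻¹ * ((r x).det • 1) := by rw [mul_smul_comm, mul_one]
          _ = _ := by rw [← e2, ← mul_assoc, e1, one_mul]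
      have hcx : r (c * x * c⁻¹ * x⁻¹) = (1 + N) * r x * (1 - N) * r x⁻¹ := by
        have e : r c⁻¹ = 1 - N := by
          have e1 : (1 + N) * (1 - N) = 1 := by
            ext i j
            fin_cases i <;> fin_cases j <;> simp [Matrix.mul_apply, Fin.sum_univ_two, h11]
            · linear_combination -hN2
            · ring
            · ring
            · linear_combination -hN2
          calc r c⁻¹ = r c⁻¹ * ((1 + N) * (1 - N)) := by rw [e1, mul_one]
            _ = 1 - N := by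
              rw [← mul_assoc, hN, add_sub_cancel, ← map_mul, inv_mul_cancel, map_one, one_mul]
        rw [map_mul, map_mul, map_mul, e, hN, add_sub_cancel]
      have key := hall c x
      rw [hcx] at key
      have e : (r x).det * ((1 + N) * r x * (1 - N) * r x⁻¹).trace =
          2 * (r x).det + (N * r x).trace ^ 2 := by
        rw [← smul_eq_mul, ← Matrix.trace_smul, ← mul_smul_comm, hinv]
        simp [Matrix.trace_fin_two, Matrix.mul_apply, Fin.sum_univ_two, Matrix.det_fin_two, h11]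
        linear_combination -(r x 0 0 ^ 2 + 2 * r x 0 1 * r x 1 0 + r x 1 1 ^ 2) * hN2
      rw [key] at e
      exact (pow_eq_zero_iff two_ne_zero).mp (by linear_combination -e)
    have hN0 : N = 0 := by
      have hall' : ∀ X, (N * X).trace = 0 := fun X => by
        have hX : X ∈ Submodule.span k (Set.range r) := hspan ▸ Submodule.mem_top
        induction hX using Submodule.span_induction with
        | mem X hX => obtain ⟨x, rfl⟩ := hX; exact hzero x
        | zero => simp
        | add a b _ _ ha hb => rw [mul_add, Matrix.trace_add, ha, hb, add_zero]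
        | smul a b _ hb => rw [mul_smul_comm, Matrix.trace_smul, hb, smul_zero]
      ext i j
      have e := hall' (Matrix.single j i 1)
      fin_cases i <;> fin_cases j <;>
        simpa [Matrix.trace_fin_two, Matrix.mul_apply, Fin.sum_univ_two, Matrix.single] using e
    have e : r c = 1 := sub_eq_zero.mp hN0
    rw [← map_mul, ← map_mul, show g * h = c * (h * g) by rw [hc]; group, map_mul, e, one_mul]
  have hcomm' : ∀ X Y : Matrix (Fin 2) (Fin 2) k, X * Y = Y * X := fun X Y => by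
    have hX : X ∈ Submodule.span k (Set.range r) := hspan ▸ Submodule.mem_top
    induction hX using Submodule.span_induction with
    | mem X hX =>
      obtain ⟨x, rfl⟩ := hX
      have hY : Y ∈ Submodule.span k (Set.range r) := hspan ▸ Submodule.mem_top
      induction hY using Submodule.span_induction with
      | mem Y hY => obtain ⟨y, rfl⟩ := hY; exact hcomm x y
      | zero => simp
      | add a b _ _ ha hb => rw [mul_add, add_mul, ha, hb]
      | smul a b _ hb => rw [mul_smul_comm, smul_mul_assoc, hb]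
    | zero => simp
    | add a b _ _ ha hb => rw [add_mul, mul_add, ha, hb]
    | smul a b _ hb => rw [mul_smul_comm, smul_mul_assoc, hb]
  have := congrFun (congrFun (hcomm' (Matrix.single 0 1 1) (Matrix.single 1 0 1)) 0) 0
  simp [Matrix.mul_apply, Matrix.single] at this

/-- Powers of a unipotent element of order two of nilpotence. -/
theorem pow_eq_one_add_nsmul {R : Type*} [Ring R] {x : R} (h : (x - 1) ^ 2 = 0) :
    ∀ k : ℕ, x ^ k = 1 + k • (x - 1) := by
  intro k
  induction k with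
  | zero => simp
  | succ k ih =>
    have h' : x * (x - 1) = x - 1 := by
      rw [← sub_eq_zero, ← h, sq, sub_mul, one_mul]
    rw [pow_succ', ih, mul_add, mul_one, mul_smul_comm, h', succ_nsmul]
    abel

variable {p : ℕ} [Fact p.Prime] {W : WeierstrassCurve ℤ}

/-- A good prime `l = 1` modulo `m` with `a_l ≠ 2` modulo `p`. -/
theorem exists_prime_one_trace_ne_two (hΔ : W.Δ ≠ 0) (hp2 : p ≠ 2)
    (hirr : W.ModRepIsIrreducible p) (m : ℕ) [NeZero m] (S : Finset ℕ) :
    ∃ l : ℕ, l.Prime ∧ l ∉ S ∧ W.IsGoodPrimeFor l ∧ l ≠ p ∧ (l : ZMod m) = 1 ∧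
      (W.apOfModel l : ZMod p) ≠ 2 := by
  classical
  set ρ := residualRep W p hΔ with hρ
  let b := Module.finBasisOfFinrankEq (ZMod p) ρ.V ρ.finrank_eq
  obtain ⟨g, h, hgh⟩ := exists_commutator_trace_ne_two
    ((LinearMap.toMatrixAlgEquiv b).toMonoidHom.comp ρ.ρ)
    (Deform.span_matrix_eq_top ρ (isAbsolutelyIrreducible_residualRep hΔ hp2 hirr) b)
  obtain ⟨ζ, hζ⟩ := HasEnoughRootsOfUnity.exists_primitiveRoot QBar m
  obtain ⟨L, hL, hLρ⟩ := ρ.factorsThroughFiniteLevel
  have := IntermediateField.adjoin.finiteDimensional (Algebra.IsIntegral.isIntegral (R := ℚ) ζ)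
  set χ : GQ →* (ZMod m)ˣ := hζ.autToPow ℚ
  set c := g * h * g⁻¹ * h⁻¹
  obtain ⟨l, hl, hlS, A, hA, σ, hσ, he⟩ := Arith.Chebotarev.exists_frobenius_eq (ρ.ρ.prod χ)
    (L ⊔ IntermediateField.adjoin ℚ {ζ}) (fun τ hτ => Prod.ext
      (hLρ τ fun x hx => hτ x ((le_sup_left : L ≤ L ⊔ _) hx))
      (Units.ext (by
        rw [MonoidHom.prod_apply, Prod.snd_one, Units.val_one, ← Nat.cast_one]
        exact Arith.Chebotarev.autToPow_eq hζ (by
          rw [pow_one]
          exact hτ ζ ((le_sup_right : IntermediateField.adjoin ℚ {ζ} ≤ L ⊔ _)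
            (IntermediateField.mem_adjoin_simple_self ℚ ζ)))))) c
    (insert p (S ∪ W.Δ.natAbs.primeFactors ∪ m.primeFactors))
  simp only [Finset.mem_insert, Finset.mem_union, not_or] at hlS
  obtain ⟨hlp, ⟨hlS, hlΔ⟩, hlm⟩ := hlS
  have hgood : W.IsGoodPrimeFor l := fun hd => hlΔ
    (Nat.mem_primeFactors.mpr ⟨hl, Int.natCast_dvd.mp hd, Int.natAbs_ne_zero.mpr hΔ⟩)
  obtain ⟨he1, he2⟩ := Prod.ext_iff.mp he
  simp only [MonoidHom.prod_apply] at he1 he2
  refine ⟨l, hl, hlS, hgood, hlp, ?_, fun e => hgh ?_⟩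
  · rw [← Arith.Chebotarev.autToPow_frobenius hζ hA hl hσ
      fun hd => hlm (Nat.mem_primeFactors.mpr ⟨hl, hd, NeZero.ne m⟩)]
    have : χ c = 1 := by
      simp only [c, map_mul, map_inv]
      rw [mul_comm (χ g) (χ h), mul_inv_cancel_right, mul_inv_cancel]
    show ((χ σ : (ZMod m)ˣ) : ZMod m) = 1
    rw [he2, this, Units.val_one]
  · show (LinearMap.toMatrixAlgEquiv b (ρ.ρ c)).trace = 2
    rw [← he1, ← e, ← (ConductorLevel.trace_det_of_charpoly ρ.finrank_eq
      (charpoly_residualRep_frobenius hΔ hl hgood hlp hA hσ)).1]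
    exact (LinearMap.trace_eq_matrix_trace (ZMod p) b _).symm

/-- Eigenclasses for the good primes which are squares modulo `q ∥ N` are eigenclasses for all
good primes. -/
theorem isEigen_of_isSquare {N : ℕ} [NeZero N] (hΔ : W.Δ ≠ 0) (hW : W.IsSemistableModel)
    (hp2 : p ≠ 2) (hES : GaloisReps.CongruenceProperty N p) {q : ℕ} (hq : q.Prime) (hqp : q ≠ p)
    (hqN : q ∣ N) (hq2 : ¬ q ^ 2 ∣ N) {y : ModularCurve.JZero N} (hy : p • y = 0)
    (h : MazurP.IsEigen N (fun l => W.IsGoodPrimeFor l ∧ l ≠ p ∧ ¬ l ∣ N ∧ IsSquare (l : ZMod q))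
      W.apOfModel y) :
    MazurP.IsEigen N (fun l => W.IsGoodPrimeFor l ∧ l ≠ p ∧ ¬ l ∣ N) W.apOfModel y := by
  classical
  have hp : p.Prime := Fact.out
  rintro l hl ⟨hgood, hlp, hlN⟩
  by_cases hsq : IsSquare (l : ZMod q)
  · exact h l hl ⟨hgood, hlp, hlN, hsq⟩
  have : Fact q.Prime := ⟨hq⟩
  have hlq : ¬ q ∣ l := fun hd => hlN ((Nat.prime_dvd_prime_iff_eq hq hl).mp hd ▸ hqN)
  set u : (ZMod q)ˣ :=
    Units.mk0 (l : ZMod q) (fun h0 => hlq ((ZMod.natCast_eq_zero_iff _ _).mp h0))
  -- inertia at `q` moves `μ_q` and, after a `p`-th power, fixes the `p`-torsion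
  obtain ⟨A, hA⟩ := exists_liesOverPrime hq
  obtain ⟨τ₀, hτ₀, hχτ⟩ := exists_mem_inertia_cyclotomicHom_eq hA u
  set E := GaloisReps.torsionIso N p (GaloisReps.conjProperty N)
  have G := GaloisReps.torsionGalois N p hES
  have hρτ : (residualRep W p hΔ).ρ (τ₀ ^ p) = 1 := by
    rw [map_pow, pow_eq_one_add_nsmul (LinearMap.ext fun v => ?_), ← Nat.cast_smul_eq_nsmul
      (ZMod p), ZMod.natCast_self, zero_smul, add_zero]
    rw [sq, Module.End.mul_apply]
    show (residualRep W p hΔ).ρ τ₀ ((residualRep W p hΔ).ρ τ₀ v - v) -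
      ((residualRep W p hΔ).ρ τ₀ v - v) = 0
    rw [residualRep_unipotent hΔ hW hq hqp hA hτ₀ v, sub_self]
  obtain ⟨e, he, huni⟩ := Semistable.torsionUnipotentAt hq hqN hq2
  have hfixJ : ∀ z : JZero N, p • z = 0 → (τ₀ ^ p) • z = z := by
    have hpp : ∀ (g : GQ) (k : ℕ) (z : JZero N), g • (k • z) = k • (g • z) := fun g k z =>
      map_nsmul (DistribSMul.toAddMonoidHom (JZero N) g) k z
    have hsub : ∀ (g : GQ) (a b : JZero N), g • (a - b) = g • a - g • b := fun g a b =>
      map_sub (DistribSMul.toAddMonoidHom (JZero N) g) a b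
    have hg0 : ∀ g : GQ, g • (0 : JZero N) = 0 := fun g =>
      map_zero (DistribSMul.toAddMonoidHom (JZero N) g)
    obtain ⟨a, e', he', rfl⟩ := Nat.exists_eq_pow_mul_and_not_dvd he.ne' p hp.ne_one
    have hsq' : ∀ z : JZero N, p • z = 0 → τ₀ • (τ₀ • z - z) = τ₀ • z - z := by
      intro z hz
      obtain ⟨w, hw⟩ := EichlerShimura.exists_nsmul_eq_JZero (p ^ a) (Nat.pow_pos hp.pos) z
      have hw' := huni (p ^ (a + 1)) (pow_ne_zero _ hp.ne_zero)
        (fun hd => hqp ((Nat.prime_dvd_prime_iff_eq hq hp).mp (hq.dvd_of_dvd_pow hd))) A hA τ₀ hτ₀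
        w (by rw [pow_succ', mul_nsmul', hw, hz])
      set d := τ₀ • (τ₀ • z - z) - (τ₀ • z - z) with hd
      have h1 : e' • d = 0 := by
        rw [hd, ← hw]
        simp only [hpp, ← nsmul_sub, ← mul_nsmul', mul_comm e']
        exact hw'
      have h2 : p • d = 0 := by
        rw [hd]
        simp only [nsmul_sub, ← hpp, hz, hg0, sub_self]
      obtain ⟨x, y, hxy⟩ := Int.isCoprime_iff_nat_coprime.mpr
        (show (Int.natAbs (e' : ℤ)).Coprime (Int.natAbs (p : ℤ)) from by
          simpa using ((hp.coprime_iff_not_dvd).mpr he').symm)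
      refine sub_eq_zero.mp ?_
      rw [← hd, ← one_zsmul d, ← hxy, add_zsmul, mul_zsmul, mul_zsmul, natCast_zsmul,
        natCast_zsmul, h1, h2, smul_zero, smul_zero, add_zero]
    have hpow : ∀ (k : ℕ) (z : JZero N), p • z = 0 →
        (τ₀ ^ k) • z = z + k • (τ₀ • z - z) := by
      intro k z hz
      induction k with
      | zero => simp
      | succ k ih =>
        rw [pow_succ', mul_smul, ih, smul_add, hpp, hsq' z hz, succ_nsmul]
        abel
    intro z hz
    rw [hpow p z hz, nsmul_sub, ← hpp, hz, hg0, sub_zero, add_zero]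
  -- Chebotarev
  obtain ⟨B, hB⟩ := exists_liesOverPrime hl
  obtain ⟨σ, hσ⟩ := exists_isFrobeniusAt hB hl
  obtain ⟨L₁, hL₁, hL₁'⟩ := E.gal_continuous G 1
  obtain ⟨L₂, hL₂, hL₂'⟩ := (residualRep W p hΔ).factorsThroughFiniteLevel
  obtain ⟨L₃, hL₃, hL₃'⟩ := cyclotomicHom_factors (p := q)
  obtain ⟨l', hl', hl'S, B', hB', σ', hσ', heq⟩ := Arith.Chebotarev.exists_frobenius_eq
    ((E.galLvl 1).prod ((residualRep W p hΔ).ρ.prod (cyclotomicHom q))) (L₁ ⊔ (L₂ ⊔ L₃))
    (fun g hg => Prod.ext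
      ((E.map_gal 1 g).symm.trans (hL₁' g fun x hx =>
        hg x ((le_sup_left : L₁ ≤ L₁ ⊔ (L₂ ⊔ L₃)) hx)))
      (Prod.ext (hL₂' g fun x hx => hg x ((le_sup_right : L₂ ⊔ L₃ ≤ L₁ ⊔ (L₂ ⊔ L₃))
          ((le_sup_left : L₂ ≤ L₂ ⊔ L₃) hx)))
        (hL₃' g fun x hx => hg x ((le_sup_right : L₂ ⊔ L₃ ≤ L₁ ⊔ (L₂ ⊔ L₃))
          ((le_sup_right : L₃ ≤ L₂ ⊔ L₃) hx)))))
    (σ * τ₀ ^ p) (insert p (N.primeFactors ∪ W.Δ.natAbs.primeFactors))
  simp only [Finset.mem_insert, Finset.mem_union, not_or] at hl'S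
  obtain ⟨hl'p, hl'N', hl'Δ⟩ := hl'S
  have hl'N : ¬ l' ∣ N := fun hd => hl'N' (Nat.mem_primeFactors.mpr ⟨hl', hd, NeZero.ne N⟩)
  have hgood' : W.IsGoodPrimeFor l' := fun hd => hl'Δ
    (Nat.mem_primeFactors.mpr ⟨hl', Int.natCast_dvd.mp hd, Int.natAbs_ne_zero.mpr hΔ⟩)
  simp only [MonoidHom.prod_apply, Prod.mk.injEq] at heq
  obtain ⟨heJ, heρ, heχ⟩ := heq
  have hsq' : IsSquare (l' : ZMod q) := by
    have hfrob : ∀ (r : ℕ) (C : ValuationSubring QBar) (s : GQ), r.Prime → C.LiesOverPrime r →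
        C.IsFrobeniusAt s r → ¬ r ∣ q → ((cyclotomicHom q s : (ZMod q)ˣ) : ZMod q) = r :=
      fun r C s hr hC hs hrq => by
        rw [cyclotomicHom_apply]
        exact modularCyclotomicCharacter_frobenius hC hr hs _ hrq
    rw [← hfrob l' B' σ' hl' hB' hσ' (fun hd => hl'N
      ((Nat.prime_dvd_prime_iff_eq hl' hq).mp hd ▸ hqN)), heχ, map_mul, map_pow, hχτ,
      Units.val_mul, Units.val_pow_eq_pow_val, hfrob l B σ hl hB hσ (fun hd => hlN
        ((Nat.prime_dvd_prime_iff_eq hl hq).mp hd ▸ hqN)), Units.val_mk0, ← pow_succ']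
    exact (hp.odd_of_ne_two hp2).add_one.isSquare_pow _
  have hρ : (residualRep W p hΔ).ρ σ' = (residualRep W p hΔ).ρ σ := by
    rw [heρ, map_mul, hρτ, mul_one]
  have c := ConductorLevel.trace_det_of_charpoly (residualRep W p hΔ).finrank_eq
    (charpoly_residualRep_frobenius hΔ hl hgood hlp hB hσ)
  have c' := ConductorLevel.trace_det_of_charpoly (residualRep W p hΔ).finrank_eq
    (charpoly_residualRep_frobenius hΔ hl' hgood' hl'p hB' hσ')
  rw [hρ, c.1, c.2] at c'
  have hact : ∀ z : JZero N, p • z = 0 → σ' • z = σ • z := by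
    intro z hz
    let z' : GaloisReps.JTors N p 1 := ⟨z, AlgebraicCurve.Pic0.mem_torsion.mpr (by
      rw [natCast_zsmul, pow_one, hz])⟩
    have e1 : E.psi 1 (GaloisReps.galTors 1 σ' z') =
        E.psi 1 (GaloisReps.galTors 1 (σ * τ₀ ^ p) z') := by
      rw [← E.galLvl_mulVec, ← E.galLvl_mulVec, heJ]
    have e2 : σ' • z = (σ * τ₀ ^ p) • z := congrArg Subtype.val ((E.psi 1).injective e1)
    rw [e2, mul_smul, hfixJ z hz]
  have hcongr : ∀ {a b : ℤ} {z : JZero N}, p • z = 0 → (a : ZMod p) = b → a • z = b • z := by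
    intro a b z hz hab
    obtain ⟨c, hc⟩ := (ZMod.intCast_eq_intCast_iff_dvd_sub a b p).mp hab
    rw [show b = a + c * p by linear_combination hc, add_zsmul, mul_zsmul, natCast_zsmul, hz,
      zsmul_zero, add_zero]
  have hpσ : p • (σ • y) = 0 :=
    ((map_nsmul (DistribSMul.toAddMonoidHom (JZero N) σ) p y).symm.trans
      ((congrArg (σ • ·) hy).trans (map_zero (DistribSMul.toAddMonoidHom (JZero N) σ))))
  have hNp : ∀ {r : ℕ}, r.Prime → r ≠ p → ¬ r ∣ N → ¬ r ∣ N * p := fun hr hrp hrN hd =>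
    (hr.dvd_mul.mp hd).elim hrN fun h => hrp ((Nat.prime_dvd_prime_iff_eq hr hp).mp h)
  let y' : GaloisReps.JTors N p 1 := ⟨y, AlgebraicCurve.Pic0.mem_torsion.mpr (by
    rw [natCast_zsmul, pow_one, hy])⟩
  have r1 := (hES l hl (hNp hl hlp hlN) B hB 1 y').2 σ hσ
  have r2 := (hES l' hl' (hNp hl' hl'p hl'N) B' hB' 1 y').2 σ' hσ'
  simp only [y'] at r1 r2
  rw [hact y hy, hact _ hpσ] at r2
  have hl'l : (l' : ℕ) • y = l • y := by
    rw [← natCast_zsmul, ← natCast_zsmul]
    exact hcongr hy (by push_cast; exact c'.2.symm)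
  rw [hl'l] at r2
  have hT : heckeOperatorBar N ⟨l, hl⟩ (σ • y) = heckeOperatorBar N ⟨l', hl'⟩ (σ • y) := by
    have := r1.trans r2.symm
    simpa using this
  have hT' : σ • heckeOperatorBar N ⟨l, hl⟩ y = σ • heckeOperatorBar N ⟨l', hl'⟩ y :=
    (GaloisReps.galois_heckeOperatorBar N ⟨l, hl⟩ σ y).trans
      (hT.trans (GaloisReps.galois_heckeOperatorBar N ⟨l', hl'⟩ σ y).symm)
  rw [MulAction.injective σ hT', h l' hl' ⟨hgood', hl'p, hl'N, hsq'⟩]
  exact hcongr hy c'.1.symm

end Fermat.Agent.RT.Lift.LowerSq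

end
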