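import Fermat.Agent.RT.GammaH.Boundary
import Fermat.Agent.DeligneSerre.PeriodsOps

/-!
# Hecke operators at primes congruent to one modulo the level, at the parabolic elements

If `ℓ ≡ 1 (mod L)` then `T_ℓ` multiplies the values of every homomorphism at the parabolic elements
of `Γ₀(L)` by `ℓ + 1`. Values at elliptic elements vanish when `6` is invertible, or when `2` is
and there is no element of order three.
-/

set_option autoImplicit false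

noncomputable section

open CongruenceSubgroup Matrix.SpecialLinearGroup
open scoped MatrixGroups

namespace Fermat.Agent.RT.Lift.LowerSq

open Fermat.Agent.RT.GammaH

variable {L ℓ : ℕ} [hℓ : Fact ℓ.Prime] {A : Type*} [AddCommGroup A] (R : Type*) [Semiring R]
  [Module R A]

omit hℓ in
theorem dvd_sq_mul_of_conj_T {g : SL(2, ℤ)} {w : ℤ}
    (h : g * ModularGroup.T ^ w * g⁻¹ ∈ gammaH L (⊤ : Subgroup (ZMod L)ˣ)) :
    (L : ℤ) ∣ g 1 0 * g 1 0 * w := by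
  have h10 := h.1
  rw [ZMod.intCast_zmod_eq_zero_iff_dvd] at h10
  rw [show ((g * ModularGroup.T ^ w * g⁻¹ : SL(2, ℤ)) : Matrix (Fin 2) (Fin 2) ℤ) =
    (g : Matrix (Fin 2) (Fin 2) ℤ) * !![1, w; 0, 1] * !![g 1 1, -g 0 1; -g 1 0, g 0 0] by
      rw [coe_mul, coe_mul, ModularGroup.coe_T_zpow, coe_inv, Matrix.adjugate_fin_two]] at h10
  simp [Matrix.mul_apply, Fin.sum_univ_two] at h10
  have : (L : ℤ) ∣ -(g 1 0 * g 1 0 * w) := by
    convert h10 using 1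
    ring
  simpa using this

/-- A conjugate by `g` of an upper triangular matrix of determinant `ℓ` in the Hecke set. -/
theorem cusp_mem_heckeSet (hℓL : ¬ ℓ ∣ L) {g : SL(2, ℤ)} {a b d : ℤ} (h0 : a * d ≠ 0)
    (hd : a * d = (ℓ : ℤ)) (had : (L : ℤ) ∣ a - d) (hb : (L : ℤ) ∣ g 1 0 * g 1 0 * b) :
    mapGL ℝ g * upperGL a b d h0 * (mapGL ℝ g)⁻¹ ∈
      heckeSet L (⊤ : Subgroup (ZMod L)ˣ) ℓ := by
  set X := (g : Matrix (Fin 2) (Fin 2) ℤ) * !![a, b; 0, d] * !![g 1 1, -g 0 1; -g 1 0, g 0 0]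
  have hX : IsIntMat (mapGL ℝ g * upperGL a b d h0 * (mapGL ℝ g)⁻¹) X :=
    ((isIntMat_mapGL g).mul (isIntMat_upperGL a b d h0)).mul (isIntMat_inv_mapGL g)
  have hdet : X.det = (ℓ : ℤ) := by
    rw [Matrix.det_mul, Matrix.det_mul, Matrix.SpecialLinearGroup.det_coe, Matrix.det_fin_two_of,
      Matrix.det_fin_two_of]
    linear_combination (a * d) * Gamma0.det_eq g + hd
  have h10 : (X 1 0 : ZMod L) = 0 := by
    rw [ZMod.intCast_zmod_eq_zero_iff_dvd]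
    obtain ⟨u, hu⟩ := had
    obtain ⟨v, hv⟩ := hb
    refine ⟨g 1 0 * g 1 1 * u - v, ?_⟩
    simp [X, Matrix.mul_apply, Fin.sum_univ_two]
    linear_combination g 1 0 * g 1 1 * hu - hv
  have hu : IsUnit ((X 0 0 : ℤ) : ZMod L) := by
    have h1 := congrArg (Int.cast : ℤ → ZMod L) hdet
    rw [Matrix.det_fin_two, Int.cast_sub, Int.cast_mul, Int.cast_mul, h10, mul_zero, sub_zero,
      Int.cast_natCast] at h1
    refine isUnit_of_mul_isUnit_left (y := ((X 1 1 : ℤ) : ZMod L)) ?_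
    rw [h1]
    exact (ZMod.isUnit_iff_coprime _ _).2 ((Nat.Prime.coprime_iff_not_dvd hℓ.out).2 hℓL)
  exact ⟨X, hX, hdet, h10, hu.unit, trivial, hu.unit_spec.symm⟩

omit hℓ in
theorem dvd_sub_one_of_cast_eq_one (h : (ℓ : ZMod L) = 1) : (L : ℤ) ∣ (ℓ : ℤ) - 1 :=
  (ZMod.intCast_zmod_eq_zero_iff_dvd _ L).1 (by simp [h])

/-- Conjugates of powers of `T`, of exponent prime to `ℓ`. -/
theorem hecke_conj_T_of_coprime (hℓL : ¬ ℓ ∣ L) (h1 : (ℓ : ZMod L) = 1)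
    (φ : Additive (gammaH L (⊤ : Subgroup (ZMod L)ˣ)) →+ A) {g : SL(2, ℤ)} {w : ℤ}
    (hw : IsCoprime (ℓ : ℤ) w)
    (hX : g * ModularGroup.T ^ w * g⁻¹ ∈ gammaH L (⊤ : Subgroup (ZMod L)ˣ)) :
    hecke L ⊤ ℓ R φ (Additive.ofMul ⟨_, hX⟩) = (ℓ + 1) • φ (Additive.ofMul ⟨_, hX⟩) := by
  have hℓ0 : (ℓ : ℤ) ≠ 0 := Int.natCast_ne_zero.2 hℓ.out.ne_zero
  have hw2 := dvd_sq_mul_of_conj_T hX
  set rep : Option (Fin ℓ) → GLR :=
    fun i => mapGL ℝ g * cuspBeta w 0 0 hℓ0 i * (mapGL ℝ g)⁻¹ with hrep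
  have hmem : ∀ i, rep i ∈ heckeSet L (⊤ : Subgroup (ZMod L)ˣ) ℓ := by
    rintro (_ | j)
    · exact cusp_mem_heckeSet hℓL (by simpa using hℓ0) (mul_one _)
        (dvd_sub_one_of_cast_eq_one h1) (by simp)
    · refine cusp_mem_heckeSet hℓL (by simpa using hℓ0) (one_mul _)
        (dvd_sub_comm.1 (dvd_sub_one_of_cast_eq_one h1)) ?_
      rw [zero_add, mul_comm ((j : ℕ) : ℤ) w, ← mul_assoc]
      exact hw2.mul_right _
  have hinj : ∀ i i', rep i * (rep i')⁻¹ ∈ img (gammaH L (⊤ : Subgroup (ZMod L)ˣ)) → i = i' := by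
    intro i i' hm
    obtain ⟨γ, -, hγ⟩ := hm
    refine cuspBeta_injective (B₀ := (0 : ℤ)) (B₁ := (0 : ℤ)) (hℓ0 := hℓ0) hw
      (H := g⁻¹ * γ * g) ?_
    rw [map_mul, map_mul, map_inv, hγ, hrep]
    group
  have hreps : IsReps (gammaH L ⊤) (heckeSet L ⊤ ℓ) rep :=
    isReps_hRep.of_card hmem hinj (by
      rw [Nat.card_eq_fintype_card, card_hIdx hℓL, Nat.card_eq_fintype_card, Fintype.card_option,
        Fintype.card_fin])
  have hadm : Admissible (gammaH L ⊤) (gammaH L ⊤) rep :=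
    hreps.admissible fun _ hz γ => heckeSet_mul_gammaH hz γ
  set Y : gammaH L (⊤ : Subgroup (ZMod L)ˣ) := ⟨_, hX⟩
  have hval : ∀ i, rep i * mapGL ℝ (Y : SL(2, ℤ)) * (rep (i.map (finRotate ℓ)))⁻¹ =
      mapGL ℝ ((Y ^ cuspEps ℓ i : gammaH L (⊤ : Subgroup (ZMod L)ˣ)) : SL(2, ℤ)) := fun i => by
    have e : ((Y ^ cuspEps ℓ i : gammaH L (⊤ : Subgroup (ZMod L)ˣ)) : SL(2, ℤ)) =
        g * ModularGroup.T ^ (w * cuspEps ℓ i) * g⁻¹ := by
      rw [Subgroup.coe_zpow, show (Y : SL(2, ℤ)) = g * ModularGroup.T ^ w * g⁻¹ from rfl, conj_zpow,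
        zpow_mul]
    rw [e, show (Y : SL(2, ℤ)) = g * ModularGroup.T ^ w * g⁻¹ from rfl]
    simp only [hrep, map_mul, map_inv, mul_assoc, inv_mul_cancel_left, mul_inv_rev, inv_inv]
    rw [← mul_assoc (cuspBeta w 0 0 hℓ0 i), cuspBeta_mul_T]
    simp [mul_assoc]
  have hperm : IsPerm (gammaH L ⊤) rep (mapGL ℝ (Y : SL(2, ℤ))) (fun i => i.map (finRotate ℓ)) :=
    ⟨Finite.injective_iff_bijective.1 (Option.map_injective (finRotate ℓ).injective),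
      fun i => by rw [hval]; exact mapGL_mem_img.2 (SetLike.coe_mem _)⟩
  rw [hecke_eq_opOf R hadm hreps, opOf_apply_of_isPerm hadm φ Y hperm]
  simp only [hval, onImg_mapGL, ofMul_zpow, map_zsmul, ← Finset.sum_smul]
  rw [← natCast_zsmul]
  congr 1
  rw [Fintype.sum_option]
  have hlast : ℓ - 1 < ℓ := Nat.sub_lt hℓ.out.pos one_pos
  rw [Finset.sum_eq_single (⟨ℓ - 1, hlast⟩ : Fin ℓ)]
  · simp [cuspEps, show ℓ - 1 + 1 = ℓ by omega]
  · intro j _ hj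
    have : (j : ℕ) + 1 ≠ ℓ := fun h => hj (Fin.ext (by simp; omega))
    simp [cuspEps, this]
  · simp

/-- Conjugates of powers of `T`. -/
theorem hecke_conj_T [NeZero L] (hℓL : ¬ ℓ ∣ L) (h1 : (ℓ : ZMod L) = 1)
    (φ : Additive (gammaH L (⊤ : Subgroup (ZMod L)ˣ)) →+ A) {g : SL(2, ℤ)} {m : ℤ}
    (hX : g * ModularGroup.T ^ m * g⁻¹ ∈ gammaH L (⊤ : Subgroup (ZMod L)ˣ)) :
    hecke L ⊤ ℓ R φ (Additive.ofMul ⟨_, hX⟩) = (ℓ + 1) • φ (Additive.ofMul ⟨_, hX⟩) := by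
  set w : ℤ := (Int.gcd m L : ℤ)
  have hwL : w ∣ (L : ℤ) := Int.gcd_dvd_right _ _
  have hLmem : g * ModularGroup.T ^ (L : ℤ) * g⁻¹ ∈ gammaH L (⊤ : Subgroup (ZMod L)ˣ) :=
    Gamma_le_gammaH ((Gamma_normal L).conj_mem _ (by
      simpa using ModularGroup_T_pow_mem_Gamma (L : ℤ) L dvd_rfl) g)
  have hw : g * ModularGroup.T ^ w * g⁻¹ ∈ gammaH L (⊤ : Subgroup (ZMod L)ˣ) := by
    rw [show w = m * Int.gcdA m L + (L : ℤ) * Int.gcdB m L from Int.gcd_eq_gcd_ab m L, zpow_add,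
      zpow_mul, zpow_mul, ← conj_mul]
    exact mul_mem (by rw [← conj_zpow]; exact Subgroup.zpow_mem _ hX _)
      (by rw [← conj_zpow]; exact Subgroup.zpow_mem _ hLmem _)
  obtain ⟨k, hk⟩ : w ∣ m := Int.gcd_dvd_left _ _
  have e : (⟨_, hX⟩ : gammaH L (⊤ : Subgroup (ZMod L)ˣ)) = ⟨_, hw⟩ ^ k := Subtype.ext (by
    rw [Subgroup.coe_zpow, conj_zpow, ← zpow_mul, ← hk])
  have hcop : IsCoprime (ℓ : ℤ) w :=
    IsCoprime.of_isCoprime_of_dvd_right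
      (Nat.isCoprime_iff_coprime.2 ((Nat.Prime.coprime_iff_not_dvd hℓ.out).2 hℓL)) hwL
  rw [e, ofMul_zpow, map_zsmul, map_zsmul, hecke_conj_T_of_coprime R hℓL h1 φ hcop hw, smul_comm]

omit hℓ in
theorem apply_neg_one_eq_zero {Γ : Subgroup SL(2, ℤ)} (h2 : ∀ x : A, x + x = 0 → x = 0)
    (hneg : -1 ∈ Γ) (φ : Additive Γ →+ A) : φ (Additive.ofMul ⟨-1, hneg⟩) = 0 := by
  refine h2 _ ?_
  rw [← map_add, ← ofMul_mul]
  convert map_zero φ
  exact congrArg Additive.ofMul (Subtype.ext (by simp))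

omit hℓ in
theorem sq_eq_trace_smul_sub_one (γ : SL(2, ℤ)) :
    ((γ * γ : SL(2, ℤ)) : Matrix (Fin 2) (Fin 2) ℤ) =
      (γ : Matrix (Fin 2) (Fin 2) ℤ).trace • (γ : Matrix (Fin 2) (Fin 2) ℤ) - 1 := by
  have h := Gamma0.det_eq γ
  rw [Matrix.trace_fin_two]
  ext i j
  fin_cases i <;> fin_cases j <;>
    simp [Matrix.mul_apply, Fin.sum_univ_two, -zsmul_eq_mul] <;>
    first
      | linear_combination -h
      | linear_combination h
      | ring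

/-- `T_ℓ - (ℓ + 1)` sends every homomorphism to one killing elliptic and parabolic elements. -/
theorem hecke_sub_mem_ellParHoms [NeZero L] (hℓL : ¬ ℓ ∣ L) (h1 : (ℓ : ZMod L) = 1)
    (h2 : ∀ x : A, x + x = 0 → x = 0)
    (h3 : (∀ x : A, x + x + x = 0 → x = 0) ∨
      ∀ γ ∈ Gamma0 L, (γ 0 0 + γ 1 1) ^ 2 ≠ 1)
    (φ : Additive (gammaH L (⊤ : Subgroup (ZMod L)ˣ)) →+ A) :
    hecke L ⊤ ℓ R φ - (ℓ + 1) • φ ∈ Gamma0.ellParHoms (gammaH L ⊤) A := by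
  set ψ := hecke L ⊤ ℓ R φ - (ℓ + 1) • φ
  have hneg : (-1 : SL(2, ℤ)) ∈ gammaH L (⊤ : Subgroup (ZMod L)ˣ) :=
    neg_one_mem_gammaH (Subgroup.mem_top _)
  have hn1 := apply_neg_one_eq_zero h2 hneg ψ
  intro γ hγ
  rw [Matrix.trace_fin_two] at hγ
  set t := (γ : SL(2, ℤ)) 0 0 + (γ : SL(2, ℤ)) 1 1 with ht
  have hconj : ∀ (δ : SL(2, ℤ)) (m : ℤ)
      (hX : δ * ModularGroup.T ^ m * δ⁻¹ ∈ gammaH L (⊤ : Subgroup (ZMod L)ˣ)),
      ψ (Additive.ofMul ⟨_, hX⟩) = 0 := fun δ m hX => by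
    simp [ψ, AddMonoidHom.sub_apply, hecke_conj_T R hℓL h1 φ hX]
  -- the square and the cube
  have hsq := sq_eq_trace_smul_sub_one (γ : SL(2, ℤ))
  rw [Matrix.trace_fin_two, ← ht] at hsq
  obtain ht' | ht' | ht' | ht' : t = 2 ∨ t = -2 ∨ t = 0 ∨ t ^ 2 = 1 := by
    have : -2 ≤ t ∧ t ≤ 2 := ⟨by nlinarith, by nlinarith⟩
    obtain ⟨h1', h2'⟩ := this
    interval_cases t <;> norm_num
  · obtain ⟨δ, m, hm⟩ := Periods.exists_conj_T _ ht'
    rw [show γ = (⟨_, hm ▸ γ.2⟩ : gammaH L (⊤ : Subgroup (ZMod L)ˣ)) from Subtype.ext hm]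
    exact hconj δ m _
  · obtain ⟨δ, m, hm⟩ := Periods.exists_conj_T (-(γ : SL(2, ℤ))) (by simp at ht' ⊢; omega)
    have hX : δ * ModularGroup.T ^ m * δ⁻¹ ∈ gammaH L (⊤ : Subgroup (ZMod L)ˣ) := by
      rw [← hm, ← neg_one_mul]
      exact mul_mem hneg γ.2
    rw [show γ = (⟨-1, hneg⟩ : gammaH L (⊤ : Subgroup (ZMod L)ˣ)) * ⟨_, hX⟩ from
      Subtype.ext (by simp [← hm]), ofMul_mul, map_add, hn1, hconj, add_zero]
  · refine h2 _ ?_
    rw [← map_add, ← ofMul_mul, show γ * γ = (⟨-1, hneg⟩ : gammaH L (⊤ : Subgroup (ZMod L)ˣ)) from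
      Subtype.ext (Subtype.ext (by rw [Subgroup.coe_mul, hsq, ht', zero_smul, zero_sub]; simp)), hn1]
  · rcases h3 with h3 | h3
    · refine h3 _ ?_
      rw [← map_add, ← map_add, ← ofMul_mul, ← ofMul_mul]
      set z : gammaH L (⊤ : Subgroup (ZMod L)ˣ) := γ * γ * γ
      have hz : (z : SL(2, ℤ)) = 1 ∨ (z : SL(2, ℤ)) = -1 := by
        have hc : ((z : SL(2, ℤ)) : Matrix (Fin 2) (Fin 2) ℤ) = (-t) • 1 := by
          show (((γ : SL(2, ℤ)) * γ * γ : SL(2, ℤ)) : Matrix (Fin 2) (Fin 2) ℤ) = _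
          rw [coe_mul, hsq, sub_mul, smul_mul_assoc, ← coe_mul, hsq, smul_sub, smul_smul, ← sq, ht',
            one_mul, one_smul, sub_right_comm, sub_self, zero_sub, neg_smul]
        rcases sq_eq_one_iff.1 ht' with h | h
        · right; exact Subtype.ext (by rw [hc, h]; simp)
        · left; exact Subtype.ext (by rw [hc, h]; simp)
      rcases hz with h | h
      · rw [show z = 1 from Subtype.ext h]; exact map_zero ψ
      · rw [show z = ⟨-1, hneg⟩ from Subtype.ext h]; exact hn1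
    · exact absurd ht' (h3 _ (gammaH_le_Gamma0 γ.2))

end Fermat.Agent.RT.Lift.LowerSq

end
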