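import Mathlib.LinearAlgebra.Finsupp.LinearCombination
import Mathlib.Algebra.Module.LinearMap.End
import Mathlib.Data.Fintype.Pigeonhole
import Mathlib.Data.Fintype.Pi
import Mathlib.Data.Finite.Prod
import Mathlib.Tactic.Ring
import Mathlib.Data.Finset.Insert
import Mathlib.Data.Set.Finite.Basic

/-!
# An operator killing a finite module without the eigensystem

For commuting operators on a finite module without a simultaneous eigenvector of given eigenvalues
a product of operators `1 - (T - χ) ^ k` is zero. The same product on a larger module fixes the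
eigenvectors and kills the image of the finite module.
-/

set_option autoImplicit false

noncomputable section

namespace Fermat.Agent.RT.Lift.LowerSq

/-- In a finite monoid some positive power is idempotent. -/
theorem exists_pow_mul_self {R : Type*} [Monoid R] [Finite R] (a : R) :
    ∃ k : ℕ, 0 < k ∧ a ^ k * a ^ k = a ^ k := by
  obtain ⟨i, d, hd, h⟩ : ∃ i d : ℕ, 0 < d ∧ a ^ (i + d) = a ^ i := by
    obtain ⟨i, j, hne, hij⟩ := Finite.exists_ne_map_eq_of_infinite (fun i : ℕ => a ^ i)
    rcases Nat.lt_or_gt_of_ne hne with h | h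
    · exact ⟨i, j - i, by omega, by rw [Nat.add_sub_cancel' h.le]; exact hij.symm⟩
    · exact ⟨j, i - j, by omega, by rw [Nat.add_sub_cancel' h.le]; exact hij⟩
  have h' : ∀ m n : ℕ, i ≤ m → a ^ (m + n * d) = a ^ m := fun m n hm => by
    induction n with
    | zero => simp
    | succ n ih =>
      obtain ⟨e, rfl⟩ := Nat.exists_eq_add_of_le hm
      rw [show i + e + (n + 1) * d = i + d + (e + n * d) by ring, pow_add, h, ← pow_add,
        ← add_assoc, ih]
  refine ⟨(i + 1) * d, Nat.mul_pos i.succ_pos hd, ?_⟩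
  rw [← pow_add]
  exact h' _ (i + 1) ((Nat.le_succ i).trans (Nat.le_mul_of_pos_right _ hd))

variable {F : Type*} [CommRing F] {K V : Type*} [AddCommGroup K] [Module F K] [AddCommGroup V]
  [Module F V] {ι : Type*}

/-- An operator killing the image of a finite module, or a simultaneous eigenvector in it. -/
theorem exists_killer_or_eigen [Finite K] (T : ι → Module.End F K)
    (hT : ∀ i j, Commute (T i) (T j)) (U : ι → Module.End F V) (r : K →ₗ[F] V)
    (hr : ∀ i x, U i (r x) = r (T i x)) (χ : ι → F) :
    (∃ v : K, v ≠ 0 ∧ ∀ i, T i v = χ i • v) ∨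
      ∃ t₀ : Module.End F V, (∀ E : Module.End F V, (∀ i, Commute (U i) E) → Commute t₀ E) ∧
        (∀ x, t₀ (r x) = 0) ∧ ∀ s, (∀ i, U i s = χ i • s) → t₀ s = s := by
  classical
  have : Finite (Module.End F K) := Finite.of_injective (fun f => (f : K → K)) DFunLike.coe_injective
  set D : ι → Module.End F K := fun i => T i - χ i • 1 with hD
  set Ud : ι → Module.End F V := fun i => U i - χ i • 1 with hUd
  have hTD : ∀ i j, Commute (T i) (D j) := fun i j =>
    (hT i j).sub_right ((Commute.one_right _).smul_right _)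
  have hDD : ∀ i j, Commute (D i) (D j) := fun i j =>
    (hTD i j).sub_left ((Commute.one_left _).smul_left _)
  have hrD : ∀ i (n : ℕ) x, (Ud i ^ n) (r x) = r ((D i ^ n) x) := fun i n => by
    induction n with
    | zero => simp
    | succ n ih =>
      intro x
      rw [pow_succ', pow_succ', Module.End.mul_apply, Module.End.mul_apply, ih]
      simp [hD, hUd, hr]
  have key : ∀ S : Finset ι, ∃ (π : Module.End F K) (t : Module.End F V),
      (∀ i, Commute (D i) π) ∧ (∀ E, (∀ i, Commute (U i) E) → Commute t E) ∧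
      (∀ x, t (r x) = r (π x)) ∧ (∀ s, (∀ i, U i s = χ i • s) → t s = s) ∧
      ∀ j ∈ S, ∃ n : ℕ, D j ^ n * π = 0 := by
    intro S
    induction S using Finset.induction_on with
    | empty => exact ⟨1, 1, fun i => Commute.one_right _, fun E _ => Commute.one_left _,
        fun x => rfl, fun s _ => rfl, by simp⟩
    | insert a S _ ih =>
      obtain ⟨π, t, hπ, ht, htr, hts, hnil⟩ := ih
      obtain ⟨k, hk0, hk⟩ := exists_pow_mul_self (D a)
      refine ⟨π * (1 - D a ^ k), t * (1 - Ud a ^ k), fun i => ?_, fun E hE => ?_, fun x => ?_,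
        fun s hs => ?_, fun j hj => ?_⟩
      · exact (hπ i).mul_right ((Commute.one_right _).sub_right ((hDD i a).pow_right k))
      · exact (ht E hE).mul_left ((Commute.one_left _).sub_left
          (((hE a).sub_left ((Commute.one_left _).smul_left _)).pow_left k))
      · simp [hrD, htr]
      · have h0 : (Ud a ^ k) s = 0 := by
          obtain ⟨m, rfl⟩ := Nat.exists_eq_add_of_lt hk0
          rw [zero_add, pow_succ, Module.End.mul_apply]
          simp [hUd, hs a]
        simp [h0, hts s hs]
      · rcases Finset.mem_insert.1 hj with rfl | hj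
        · refine ⟨k, ?_⟩
          rw [← mul_assoc, ((hπ j).pow_left k).eq, mul_assoc, mul_sub, mul_one, hk, sub_self,
            mul_zero]
        · obtain ⟨n, hn⟩ := hnil j hj
          exact ⟨n, by rw [← mul_assoc, hn, zero_mul]⟩
  obtain ⟨S, hS⟩ : ∃ S : Finset ι, ∀ i, ∃ j ∈ S, D j = D i := by
    refine ⟨(Set.toFinite (Set.range D)).toFinset.attach.image fun d =>
      ((Set.Finite.mem_toFinset _).1 d.2).choose, fun i => ⟨_, Finset.mem_image.2
        ⟨⟨D i, (Set.Finite.mem_toFinset _).2 ⟨i, rfl⟩⟩, Finset.mem_attach _ _, rfl⟩, ?_⟩⟩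
    exact ((Set.Finite.mem_toFinset _).1
      ((Set.Finite.mem_toFinset (Set.toFinite (Set.range D))).2 ⟨i, rfl⟩)).choose_spec
  obtain ⟨π, t, hπ, ht, htr, hts, hnil⟩ := key S
  by_cases hπ0 : π = 0
  · exact Or.inr ⟨t, ht, fun x => by simp [htr, hπ0], hts⟩
  refine Or.inl ?_
  obtain ⟨x, hx⟩ : ∃ x, π x ≠ 0 := by
    by_contra hc
    simp only [not_exists, not_not] at hc
    exact hπ0 (LinearMap.ext hc)
  have descend : ∀ S' : Finset ι, ∃ w : K, w ≠ 0 ∧ (∀ i ∈ S, ∃ n : ℕ, (D i ^ n) w = 0) ∧
      ∀ j ∈ S', j ∈ S → D j w = 0 := by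
    intro S'
    induction S' using Finset.induction_on with
    | empty => exact ⟨π x, hx, fun i hi => (hnil i hi).imp fun n hn => LinearMap.congr_fun hn x,
        by simp⟩
    | insert a S' _ ih =>
      obtain ⟨w, hw, hwn, hw0⟩ := ih
      by_cases ha : a ∈ S
      swap
      · exact ⟨w, hw, hwn, fun j hj hjS => (Finset.mem_insert.1 hj).elim
          (fun h => absurd (h ▸ hjS) ha) fun hj' => hw0 j hj' hjS⟩
      have hex := hwn a ha
      obtain ⟨m, hm⟩ : ∃ m, Nat.find hex = m + 1 := Nat.exists_eq_succ_of_ne_zero fun h0 => hw (by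
        simpa [h0] using Nat.find_spec hex)
      have hlast : (D a ^ m) w ≠ 0 := Nat.find_min hex (by omega)
      refine ⟨_, hlast, fun i hi => ?_, fun j hj hjS => ?_⟩
      · obtain ⟨n, hn⟩ := hwn i hi
        refine ⟨n, ?_⟩
        rw [← Module.End.mul_apply, (((hDD i a).pow_right m).pow_left n).eq, Module.End.mul_apply,
          hn, map_zero]
      · rcases Finset.mem_insert.1 hj with rfl | hj'
        · rw [← Module.End.mul_apply, ← pow_succ', ← hm]
          exact Nat.find_spec hex
        · rw [← Module.End.mul_apply, ((hDD j a).pow_right m).eq, Module.End.mul_apply,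
            hw0 j hj' hjS, map_zero]
  obtain ⟨w, hw, -, hw0⟩ := descend S
  refine ⟨w, hw, fun i => ?_⟩
  obtain ⟨j, hj, hji⟩ := hS i
  have h0 := hji ▸ hw0 j hj hj
  exact sub_eq_zero.1 (by simpa [hD] using h0)

end Fermat.Agent.RT.Lift.LowerSq

end
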