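import Fermat.Agent.RT.Lift.LowerSq.Classes
import Fermat.Agent.RT.Lift.LowerSq.Lifting
import Fermat.Agent.RT.Lift.LowerSq.Killer
import Fermat.Agent.RT.Lift.LowerSq.Chebotarev
import Fermat.Agent.RT.Lift.LowerSq.Cusp
import Fermat.Agent.GaloisReps.OfInjective
import Fermat.Agent.EichlerShimura.InjectiveProof

/-!
# Lowering at a squared prime different from `p`

Residual modularity of level `q² M` of a curve semistable at `q ≠ p` implies residual modularity of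
level `q M`.
-/

set_option autoImplicit false
set_option synthInstance.maxHeartbeats 400000

noncomputable section

open CongruenceSubgroup Matrix.SpecialLinearGroup AlgebraicCurve
open ModularCurve (JZero)
open Fermat.Agent.Semistable Fermat.Agent.Arith
open scoped MatrixGroups

namespace Fermat.Agent.RT.Lift.LowerSq

open Fermat.Agent.RT.GammaH

/-- On a homomorphism which only sees the upper left entry modulo the level, `T_n` is
multiplication by `n + 1`. -/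
theorem hecke_of_congr {N n : ℕ} [Fact n.Prime] (hnN : ¬ n ∣ N) {A : Type*} [AddCommGroup A]
    (R : Type*) [Semiring R] [Module R A]
    (φ : Additive (gammaH N (⊤ : Subgroup (ZMod N)ˣ)) →+ A)
    (hφ : ∀ γ δ : gammaH N (⊤ : Subgroup (ZMod N)ˣ),
      (((γ : SL(2, ℤ)) 0 0 : ℤ) : ZMod N) = (((δ : SL(2, ℤ)) 0 0 : ℤ) : ZMod N) →
        φ (Additive.ofMul γ) = φ (Additive.ofMul δ)) :
    hecke N ⊤ n R φ = (n + 1) • φ := by
  refine AddMonoidHom.ext fun x => ?_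
  obtain ⟨γ, rfl⟩ := Additive.ofMul.surjective x
  obtain ⟨τ, hτ⟩ := admissible_hRep (M := N) (K := (⊤ : Subgroup (ZMod N)ˣ)) (n := n) γ
  rw [hecke, opOf_apply_of_isPerm _ _ _ hτ, AddMonoidHom.nsmul_apply, ← card_hIdx hnN,
    ← Finset.card_univ, ← Finset.sum_const]
  refine Finset.sum_congr rfl fun i _ => ?_
  obtain ⟨c, hc, hcg⟩ := hτ.2 i
  rw [← hcg, onImg_mapGL φ ⟨c, hc⟩]
  refine hφ _ _ ?_
  obtain ⟨X, hX, -, hX10, u, hu, hX00⟩ :=
    hRep_mem_heckeSet (M := N) (K := (⊥ : Subgroup (ZMod N)ˣ)) i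
  obtain ⟨Y, hY, -, hY10, v, hv, hY00⟩ :=
    hRep_mem_heckeSet (M := N) (K := (⊥ : Subgroup (ZMod N)ˣ)) (τ i)
  rw [Subgroup.mem_bot] at hu hv
  rw [hu, Units.val_one] at hX00
  rw [hv, Units.val_one] at hY00
  have he : hRep N n i * mapGL ℝ (γ : SL(2, ℤ)) = mapGL ℝ c * hRep N n (τ i) := by
    rw [hcg, inv_mul_cancel_right]
  have e := congrArg (Int.cast : ℤ → ZMod N) (congrFun (congrFun
    ((hX.mul (isIntMat_mapGL (γ : SL(2, ℤ)))).unique (he ▸ (isIntMat_mapGL c).mul hY)) 0) 0)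
  simp [Matrix.mul_apply, Fin.sum_univ_two, hX00, hY00, hY10, γ.2.1] at e
  exact e.symm

section Congr

variable {q M : ℕ} [Fact q.Prime] [NeZero M] [hcop : Fact (q.Coprime M)] {A : Type*}
  [AddCommGroup A] (R : Type*) [Semiring R] [Module R A]

omit [NeZero M] in
/-- A homomorphism with vanishing rescaling only sees the upper left entry modulo `q`. -/
theorem eq_of_scale_eq_zero
    {φ : Additive (gammaH (q ^ 2 * M) (⊤ : Subgroup (ZMod (q ^ 2 * M))ˣ)) →+ A}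
    (h : scale R φ = 0) (γ δ : gammaH (q ^ 2 * M) (⊤ : Subgroup (ZMod (q ^ 2 * M))ˣ))
    (hγδ : (((γ : SL(2, ℤ)) 0 0 : ℤ) : ZMod q) = (((δ : SL(2, ℤ)) 0 0 : ℤ) : ZMod q)) :
    φ (Additive.ofMul γ) = φ (Additive.ofMul δ) := by
  set η : gammaH (q ^ 2 * M) (⊤ : Subgroup (ZMod (q ^ 2 * M))ˣ) := γ * δ⁻¹ with hη
  suffices h0 : φ (Additive.ofMul η) = 0 by
    rw [hη, ofMul_mul, ofMul_inv, map_add, map_neg, ← sub_eq_add_neg, sub_eq_zero] at h0
    exact h0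
  have hlow : ∀ x : gammaH (q ^ 2 * M) (⊤ : Subgroup (ZMod (q ^ 2 * M))ˣ),
      (((x : SL(2, ℤ)) 1 0 : ℤ) : ZMod q) = 0 := fun x => by
    rw [← map_intCast (ZMod.castHom ((dvd_pow_self q two_ne_zero).mul_right M) (ZMod q)), x.2.1,
      map_zero]
  obtain ⟨k, hk⟩ := (ZMod.intCast_zmod_eq_zero_iff_dvd _ _).1 η.2.1
  set a := (η : SL(2, ℤ)) 0 0 with ha
  set b := (η : SL(2, ℤ)) 0 1 with hb
  set c := (η : SL(2, ℤ)) 1 0 with hc
  set d := (η : SL(2, ℤ)) 1 1 with hd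
  push_cast at hk
  have hdet : a * d - b * c = 1 := Gamma0.det_eq _
  let g : SL(2, ℤ) := ⟨!![a, (q : ℤ) * b; (q : ℤ) * M * k, d], by
    rw [Matrix.det_fin_two_of]
    linear_combination hdet + b * hk⟩
  have hadet : ((a : ℤ) : ZMod q) * (d : ZMod q) = 1 := by
    have e := congrArg (Int.cast : ℤ → ZMod q) hdet
    push_cast at e
    rwa [show ((c : ℤ) : ZMod q) = 0 from hlow η, mul_zero, sub_zero] at e
  have ha1 : ((a : ℤ) : ZMod q) = 1 := by
    have hδ : (((δ : SL(2, ℤ)) 0 0 : ℤ) : ZMod q) * ((δ : SL(2, ℤ)) 1 1 : ℤ) = 1 := by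
      have e := congrArg (Int.cast : ℤ → ZMod q) (Gamma0.det_eq (δ : SL(2, ℤ)))
      push_cast at e
      rwa [hlow δ, mul_zero, sub_zero] at e
    rw [ha, hη, Subgroup.coe_mul, Subgroup.coe_inv]
    simp [Matrix.mul_apply, Fin.sum_univ_two, Matrix.adjugate_fin_two,
      hlow δ, hγδ, hδ]
  have hd1 : ((d : ℤ) : ZMod q) = 1 := by rwa [ha1, one_mul] at hadet
  have hg : g ∈ pmLevel q M := mem_levelGrp.2 ⟨by
    rw [Gamma0_mem, ZMod.intCast_zmod_eq_zero_iff_dvd]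
    exact ⟨(q : ℤ) * k, by simp [g]; ring⟩, by
    rw [show modQ q g = 1 from Subtype.ext (by
      ext i j
      rw [modQ_apply]
      fin_cases i <;> fin_cases j <;> simp [g, ha1, hd1])]
    exact one_mem _⟩
  have heq : scaleGL q * mapGL ℝ g * (scaleGL q)⁻¹ = mapGL ℝ (η : SL(2, ℤ)) := by
    refine (scale_factor (isIntMat_mapGL g) (b' := b) rfl).ext ?_
    convert isIntMat_mapGL (η : SL(2, ℤ)) using 1
    conv_rhs => rw [Matrix.eta_fin_two ((η : SL(2, ℤ)) : Matrix (Fin 2) (Fin 2) ℤ)]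
    simp [g, ← ha, ← hb, ← hc, ← hd, hk]
    ring
  have hperm : IsPerm (gammaH (q ^ 2 * M) (⊤ : Subgroup (ZMod (q ^ 2 * M))ˣ))
      (fun _ : Unit => scaleGL q) (mapGL ℝ ((⟨g, hg⟩ : pmLevel q M) : SL(2, ℤ))) id :=
    ⟨Function.bijective_id, fun _ => by
      simp only [heq]
      exact mapGL_mem_img.2 η.2⟩
  have := DFunLike.congr_fun h (Additive.ofMul (⟨g, hg⟩ : pmLevel q M))
  rw [scale, opOf_apply_of_isPerm _ _ _ hperm] at this
  simpa [heq, onImg_mapGL] using this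

end Congr

set_option maxHeartbeats 800000 in
/-- **Lowering at a squared prime different from `p`.** -/
theorem lowerSq (p q M : ℕ) [Fact p.Prime] [NeZero M] (hp2 : p ≠ 2) (hq : q.Prime) (hqp : q ≠ p)
    (hqM : ¬ q ∣ M) (W : WeierstrassCurve ℤ) (hΔ : W.Δ ≠ 0) (hW : W.IsSemistableModel)
    (hirr : W.ModRepIsIrreducible p)
    (h3 : p = 3 → ∀ γ ∈ Gamma0 M, (γ 0 0 + γ 1 1) ^ 2 ≠ (1 : ℤ))
    (h : W.IsResiduallyModularOfLevel p (q ^ 2 * M)) :
    W.IsResiduallyModularOfLevel p (q * M) := by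
  classical
  have hp : p.Prime := Fact.out
  have : Fact q.Prime := ⟨hq⟩
  have : NeZero q := ⟨hq.ne_zero⟩
  have : Fact (q.Coprime M) := ⟨hq.coprime_iff_not_dvd.2 hqM⟩
  have : NeZero (q ^ 2 * M) := ⟨mul_ne_zero (pow_ne_zero _ hq.ne_zero) (NeZero.ne M)⟩
  have : NeZero (q * M) := ⟨mul_ne_zero hq.ne_zero (NeZero.ne M)⟩
  have : NeZero (p * q * M) :=
    ⟨mul_ne_zero (mul_ne_zero hp.ne_zero hq.ne_zero) (NeZero.ne M)⟩
  have hES : ∀ (N : ℕ) [NeZero N], GaloisReps.CongruenceProperty N p := fun N _ =>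
    GaloisReps.congruenceProperty_all EichlerShimura.injectiveOnTorsion_all N p
  obtain ⟨A, hA⟩ := exists_liesOverPrime hq
  obtain ⟨x, hx0, hxe, hfix⟩ := exists_fixed_class hΔ hW hp2 hirr (hES _) h hq hqp hA
  -- the auxiliary prime
  obtain ⟨l₀, hl₀, hl₀S, hgood₀, hl₀p, hl₀1, ha₀⟩ :=
    exists_prime_one_trace_ne_two hΔ hp2 hirr (p * q * M) (p * q * M).primeFactors
  have hl₀N : ¬ l₀ ∣ p * q * M := fun hd =>
    hl₀S (Nat.mem_primeFactors.mpr ⟨hl₀, hd, NeZero.ne _⟩)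
  have hl₀m : ∀ {d : ℕ}, d ∣ p * q * M → (l₀ : ZMod d) = 1 := fun {d} hd => by
    rw [← map_natCast (ZMod.castHom hd (ZMod d)), hl₀1, map_one]
  have hl₀qM : ¬ l₀ ∣ q * M := fun hd => hl₀N (by rw [mul_assoc]; exact hd.mul_left p)
  have hdvd : ∀ {l : ℕ}, l.Prime → ¬ l ∣ q * M → ¬ l ∣ q ^ 2 * M := fun {l} hl hn hd => hn
    ((hl.dvd_mul.mp hd).elim (fun h => (hl.dvd_of_dvd_pow h).mul_right M) fun h => h.mul_left q)
  have : Fact l₀.Prime := ⟨hl₀⟩
  have hl₀two : ((l₀ + 1 : ℕ) : ZMod p) = 2 := by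
    rw [Nat.cast_add, hl₀m ((dvd_mul_right p q).mul_right M), Nat.cast_one]
    norm_num
  -- the character
  set φ := classChar (q := q) (M := M) x with hφ
  have hφeig : ∀ (l : ℕ) [Fact l.Prime], l.Prime → W.IsGoodPrimeFor l → l ≠ p →
      ¬ l ∣ q ^ 2 * M → hecke (q ^ 2 * M) ⊤ l (ZMod p) φ = (W.apOfModel l : ZMod p) • φ :=
    fun l _ hl hg hlp hlN => (hecke_toTop_torsionEquiv x hl hlN).1 (hxe l hl ⟨hg, hlp, hlN⟩)
  have hφ0 : φ ≠ 0 := fun e => by
    have e' : (JacTorsion.torsionEquiv (q ^ 2 * M) p x).1 = 0 :=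
      (toTop (ZMod p) (q ^ 2 * M) (A := ZMod p)).map_eq_zero_iff.1 e
    refine hx0 (congrArg Subtype.val ((JacTorsion.torsionEquiv (q ^ 2 * M) p).map_eq_zero_iff.1
      (Subtype.ext e') : x = 0))
  have hne : scale (ZMod p) φ ≠ 0 := fun e => by
    have hc := hecke_of_congr (n := l₀) (hdvd hl₀ hl₀qM) (ZMod p) φ fun γ δ hγδ =>
      eq_of_scale_eq_zero (ZMod p) e γ δ (by
        have := congrArg (ZMod.castHom ((dvd_pow_self q two_ne_zero).mul_right M) (ZMod q)) hγδ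
        rwa [map_intCast, map_intCast] at this)
    rw [hφeig l₀ hl₀ hgood₀ hl₀p (hdvd hl₀ hl₀qM), ← Nat.cast_smul_eq_nsmul (ZMod p), hl₀two,
      ← sub_eq_zero, ← sub_smul, smul_eq_zero, sub_eq_zero] at hc
    exact hc.elim ha₀ hφ0
  obtain ⟨s, hs, hs0, hskill⟩ := exists_killed (p := p) (Ne.symm hqp) hA x hfix hne
  -- the operators
  let ι := {P : SqPrime q M // W.IsGoodPrimeFor P.l ∧ P.l ≠ p}
  let χ : ι → ZMod p := fun P => (W.apOfModel P.1.l : ZMod p)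
  have heig : ∀ P : ι, uOp P.1 (ZMod p) (pmGrp q) s = χ P • s := fun P => by
    clear hs0 hskill
    induction hs using Submodule.span_induction with
    | mem v hv =>
      obtain ⟨g, rfl⟩ := hv
      rw [uOp_smul, uOp_scale, ← hφ,
        hφeig P.1.l P.1.prime P.2.1 P.2.2 (hdvd P.1.prime P.1.not_dvd), map_smul, smul_comm g]
    | zero => simp
    | add v w _ _ hv hw => rw [map_add, hv, hw, smul_add]
    | smul c v _ hv => rw [map_smul, hv, smul_comm c]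
  let P₀ : ι := ⟨⟨l₀, hl₀, hl₀qM, 1, by
    rw [Units.val_one, one_pow, hl₀m ((dvd_mul_left q p).mul_right M)]⟩, hgood₀, hl₀p⟩
  have hc₀ : χ P₀ - 2 ≠ 0 := sub_ne_zero.2 ha₀
  let K := Additive (gammaH (q * M) (⊤ : Subgroup (ZMod (q * M))ˣ)) →+ ZMod p
  have : Finite K := finite_hom_of_finiteIndex _ _
  let T : ι → Module.End (ZMod p) K := fun P => hecke (q * M) ⊤ P.1.l (ZMod p)
  let U : ι → Module.End (ZMod p) (LevelHom q M (ZMod p)) :=
    fun P => uOp P.1 (ZMod p) (pmGrp q)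
  let r : K →ₗ[ZMod p] LevelHom q M (ZMod p) :=
    (res (ZMod p) (levelGrp_mono pmGrp_le_borel)).comp (res (ZMod p) levelGrp_borel.le)
  rcases exists_killer_or_eigen T (fun P Q => LinearMap.ext fun v => hecke_comm (ZMod p) P.1.l v) U r
      (fun P v => by
        simp only [U, T, r, LinearMap.comp_apply]
        rw [uOp_res P.1 (ZMod p) (levelGrp_mono pmGrp_le_borel), uOp_res_borel]) χ with
    ⟨v, hv0, hv⟩ | ⟨t₀, ht₀, hkill, hfixed⟩
  swap
  · refine absurd (eq_zero_of_killed P₀.1 hp2 h3 (hl₀m ((dvd_mul_right p q).mul_right M)) t₀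
      (fun g v => ?_) (fun ω => ?_) hc₀ ?_ one_ne_zero ?_ hskill) hs0
    · exact LinearMap.congr_fun (ht₀ (DistribSMul.toLinearMap (ZMod p) _ g) fun P =>
        LinearMap.ext fun w => uOp_smul P.1 (ZMod p) g w).eq v
    · exact hkill (res (ZMod p) levelGrp_borel.ge ω)
    · rw [tOp_apply, heig P₀, sub_smul, two_smul]
    · rw [one_smul]
      exact hfixed s heig
  -- the eigenvector
  have hl₀L : (l₀ : ZMod (q * M)) = 1 := hl₀m (by rw [mul_assoc]; exact dvd_mul_left _ p)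
  have h2 : ∀ z : ZMod p, z + z = 0 → z = 0 := fun z hz =>
    (mul_eq_zero.1 (show (2 : ZMod p) * z = 0 by rw [two_mul, hz])).resolve_left
      (EC.Rep.two_ne_zero_zmod hp2)
  have h3' : (∀ z : ZMod p, z + z + z = 0 → z = 0) ∨
      ∀ γ ∈ Gamma0 (q * M), (γ 0 0 + γ 1 1) ^ 2 ≠ (1 : ℤ) := by
    rcases ne_or_eq p 3 with h' | h'
    · refine Or.inl fun z hz => (mul_eq_zero.1 (show (3 : ZMod p) * z = 0 by
        linear_combination hz)).resolve_left fun h0 => h' ?_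
      exact (Nat.prime_dvd_prime_iff_eq hp Nat.prime_three).1
        ((ZMod.natCast_eq_zero_iff 3 p).1 (by exact_mod_cast h0))
    · exact Or.inr fun γ hγ => h3 h' γ (Gamma0.Gamma0_le_of_dvd (dvd_mul_left M q) hγ)
  have hmem := hecke_sub_mem_ellParHoms (ZMod p) (ℓ := l₀) hl₀qM hl₀L h2 h3' v
  rw [show hecke (q * M) ⊤ l₀ (ZMod p) v = χ P₀ • v from hv P₀,
    ← Nat.cast_smul_eq_nsmul (ZMod p), hl₀two, ← sub_smul] at hmem
  have hvmem : v ∈ Gamma0.ellParHoms (gammaH (q * M) ⊤) (ZMod p) := by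
    have := ZMod.smul_mem hmem (χ P₀ - 2)⁻¹
    rwa [smul_smul, inv_mul_cancel₀ hc₀, one_smul] at this
  set φ₀ := (toTop (ZMod p) (q * M) (A := ZMod p)).symm v with hφ₀
  have hφ₀mem : φ₀ ∈ Gamma0.ellParHoms (Gamma0 (q * M)) (ZMod p) :=
    fun γ hγ => hvmem ⟨γ, gammaH_top.ge γ.2⟩ hγ
  set y := (JacTorsion.torsionEquiv (q * M) p).symm ⟨φ₀, hφ₀mem⟩ with hy
  have hyv : toTop (ZMod p) (q * M) (JacTorsion.torsionEquiv (q * M) p y).1 = v := by
    rw [hy, AddEquiv.apply_symm_apply]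
    exact LinearEquiv.apply_symm_apply _ v
  have hy0 : (y : JZero (q * M)) ≠ 0 := fun e => hv0 (by
    rw [← hyv, show y = 0 from Subtype.ext e, map_zero]
    exact map_zero _)
  have hpy : p • (y : JZero (q * M)) = 0 := by
    rw [← natCast_zsmul]
    exact Pic0.mem_torsion.mp y.2
  refine isResiduallyModular_of_eigen hy0 hpy (isEigen_of_isSquare hΔ hW hp2 (hES _) hq hqp
    (dvd_mul_right q M) (fun hd => hqM (by rw [sq] at hd; exact Nat.dvd_of_mul_dvd_mul_left hq.pos hd))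
    hpy ?_)
  rintro l hl ⟨hgood, hlp, hlN, ρ, hρ⟩
  have : Fact l.Prime := ⟨hl⟩
  have hρ0 : ρ ≠ 0 := fun e => hlN (by
    rw [e, mul_zero, ZMod.natCast_eq_zero_iff] at hρ
    rw [← (Nat.prime_dvd_prime_iff_eq hq hl).1 hρ]
    exact dvd_mul_right q M)
  refine (hecke_toTop_torsionEquiv y hl hlN).2 ?_
  rw [hyv]
  exact hv ⟨⟨l, hl, hlN, Units.mk0 ρ hρ0, by rw [Units.val_mk0, sq, hρ]⟩, hgood, hlp⟩

end Fermat.Agent.RT.Lift.LowerSq

end
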