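import Mathlib.Algebra.MonoidAlgebra.Basic
import Mathlib.Algebra.Field.ZMod
import Mathlib.LinearAlgebra.Matrix.ToLin
import Mathlib.LinearAlgebra.Basis.VectorSpace
import Mathlib.RingTheory.Filtration
import Mathlib.Algebra.CharP.Algebra
import Mathlib.Algebra.CharP.Lemmas
import Mathlib.RingTheory.Finiteness.Finsupp
import Mathlib.GroupTheory.GroupAction.Basic
import Mathlib.Algebra.Module.ZMod
import Mathlib.Algebra.Module.BigOperators

/-!
# Vectors killed by the annihilator of a permutation module

For a finite group acting on a finite set, an element of the group algebra over `ZMod p` which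
kills the functions on the set lifts, after taking a power, to an integral element killing the
integral functions. A vector killed by all elements killing the functions on a set, in a relatively
injective module, comes from vectors fixed by the stabilisers of the points.
-/

set_option autoImplicit false

noncomputable section

namespace Fermat.Agent.RT.Lift.LowerSq

variable (R : Type*) [CommRing R] {G : Type*} [Group G] (X : Type*) [MulAction G X]

/-- The functions on `X` as a representation. -/
def permRep : MonoidAlgebra R G →ₐ[R] Module.End R (X → R) :=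
  MonoidAlgebra.lift R (Module.End R (X → R)) G
    { toFun := fun g => LinearMap.funLeft R R fun x => g⁻¹ • x
      map_one' := LinearMap.ext fun F => funext fun x => by simp
      map_mul' := fun g g' => LinearMap.ext fun F => funext fun x => by simp [mul_smul] }

variable {R X}

theorem permRep_single (g : G) (c : R) (F : X → R) (x : X) :
    permRep R X (MonoidAlgebra.single g c) F x = c * F (g⁻¹ • x) := by
  simp [permRep, LinearMap.funLeft]

theorem permRep_apply [Fintype G] (a : MonoidAlgebra R G) (F : X → R) (x : X) :
    permRep R X a F x = ∑ g, a.coeff g * F (g⁻¹ • x) := by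
  classical
  induction a using MonoidAlgebra.induction_linear with
  | zero => simp
  | add a b ha hb => simp [ha, hb, add_mul, Finset.sum_add_distrib]
  | single g c =>
    rw [permRep_single, Finset.sum_eq_single g]
    · simp
    · intro h _ hh
      simp [Finsupp.single_eq_of_ne hh]
    · simp

/-- An element killing the functions kills the functions with values in any group. -/
theorem sum_smul_eq_zero [Fintype G] [Fintype X] {a : MonoidAlgebra ℤ G}
    (ha : permRep ℤ X a = 0) {M : Type*} [AddCommGroup M] (F : X → M) (x : X) :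
    ∑ g, a.coeff g • F (g⁻¹ • x) = 0 := by
  classical
  have key : ∀ y : X, ∑ g : G, (if g⁻¹ • x = y then a.coeff g else 0) = 0 := fun y => by
    have h := congrFun (LinearMap.congr_fun ha fun z => if z = y then (1 : ℤ) else 0) x
    rw [permRep_apply] at h
    simpa using h
  calc ∑ g, a.coeff g • F (g⁻¹ • x)
      = ∑ g, ∑ y, (if g⁻¹ • x = y then a.coeff g else 0) • F y := by
        refine Finset.sum_congr rfl fun g _ => ?_
        simp [ite_smul]
    _ = 0 := by
        rw [Finset.sum_comm]
        refine Finset.sum_eq_zero fun y _ => ?_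
        refine Eq.trans ?_ ((congrArg (· • F y) (key y)).trans (zero_smul ℤ _))
        rw [Finset.sum_smul]

/-- The constant functions see the sum of the coefficients. -/
theorem sum_coeff_eq_zero [Fintype G] [Nonempty X] {y : MonoidAlgebra R G}
    (hy : permRep R X y = 0) : ∑ g, y.coeff g = 0 := by
  have h := congrFun (LinearMap.congr_fun hy fun _ => (1 : R)) (Classical.arbitrary X)
  rw [permRep_apply] at h
  simpa using h

section Lift

variable (p : ℕ)

/-- Reduction of the coefficients modulo `p`. -/
def redMod : MonoidAlgebra ℤ G →+* MonoidAlgebra (ZMod p) G :=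
  MonoidAlgebra.mapRingHom G (Int.castRingHom (ZMod p))

theorem redMod_coeff (a : MonoidAlgebra ℤ G) (g : G) :
    (redMod p a).coeff g = (a.coeff g : ZMod p) := by
  simp [redMod]

theorem redMod_surjective [Fintype G] : Function.Surjective (redMod (G := G) p) := by
  intro y
  classical
  refine ⟨∑ g, MonoidAlgebra.single g (ZMod.cast (y.coeff g) : ℤ), ?_⟩
  ext g
  rw [redMod_coeff]
  simp [Finsupp.finsetSum_apply, Finsupp.single_apply]

variable [Fintype G] [Fintype X] [Fact p.Prime]

/-- A power of an element killing the functions modulo `p` lifts to one killing the integral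
functions. -/
theorem exists_lift_annihilator {y : MonoidAlgebra (ZMod p) G}
    (hy : permRep (ZMod p) X y = 0) :
    ∃ (N : ℕ) (a : MonoidAlgebra ℤ G), permRep ℤ X a = 0 ∧ redMod p a = y ^ (N + 1) := by
  classical
  obtain ⟨b, rfl⟩ := redMod_surjective p y
  have hdvd : ∀ F x, (p : ℤ) ∣ permRep ℤ X b F x := fun F x => by
    rw [← ZMod.intCast_zmod_eq_zero_iff_dvd, permRep_apply, Int.cast_sum]
    have h := congrFun (LinearMap.congr_fun hy fun z => (F z : ZMod p)) x
    rw [permRep_apply] at h
    simpa [redMod_coeff] using h
  choose E₀ hE₀ using fun F : X → ℤ => fun x => hdvd F x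
  have hp0 : (p : ℤ) ≠ 0 := Int.natCast_ne_zero.2 (Fact.out : p.Prime).ne_zero
  let E : Module.End ℤ (X → ℤ) :=
    { toFun := E₀
      map_add' := fun F F' => funext fun x => mul_left_cancel₀ hp0 (by
        rw [Pi.add_apply, mul_add, ← hE₀, ← hE₀, ← hE₀, map_add]; rfl)
      map_smul' := fun c F => funext fun x => mul_left_cancel₀ hp0 (by
        show (p : ℤ) * E₀ (c • F) x = p * (c * E₀ F x)
        rw [← hE₀, mul_left_comm, ← hE₀, map_smul]; rfl) }
  have hE : permRep ℤ X b = (p : ℤ) • E :=
    LinearMap.ext fun F => funext fun x => hE₀ F x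
  let B := LinearMap.range (permRep ℤ X : MonoidAlgebra ℤ G →ₐ[ℤ] _).toLinearMap
  obtain ⟨k, hk⟩ := Ideal.exists_pow_inf_eq_pow_smul (Ideal.span {(p : ℤ)}) B
  have hmem : permRep ℤ X (b ^ (k + 1)) ∈
      Ideal.span {(p : ℤ)} ^ (k + 1) • (⊤ : Submodule ℤ (Module.End ℤ (X → ℤ))) ⊓ B := by
    refine ⟨?_, ⟨_, rfl⟩⟩
    rw [map_pow, hE, smul_pow]
    exact Submodule.smul_mem_smul (Ideal.pow_mem_pow (Ideal.mem_span_singleton_self _) _) trivial
  rw [hk (k + 1) k.le_succ, Nat.add_sub_cancel_left, pow_one] at hmem
  have hmem' : permRep ℤ X (b ^ (k + 1)) ∈ Ideal.span {(p : ℤ)} • B :=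
    Submodule.smul_mono le_rfl inf_le_right hmem
  rw [Submodule.ideal_span_singleton_smul, Submodule.mem_smul_pointwise_iff_exists] at hmem'
  obtain ⟨_, ⟨c, rfl⟩, hc⟩ := hmem'
  refine ⟨k, b ^ (k + 1) - (p : ℤ) • c, ?_, ?_⟩
  · rw [map_sub, map_smul]
    exact sub_eq_zero.2 hc.symm
  · rw [map_sub, map_pow, sub_eq_self, map_zsmul]
    have hp : (p : MonoidAlgebra (ZMod p) G) = 0 := by
      rw [← map_natCast (algebraMap (ZMod p) (MonoidAlgebra (ZMod p) G)), ZMod.natCast_self,
        map_zero]
    rw [zsmul_eq_mul, Int.cast_natCast, hp, zero_mul]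

end Lift

section Centre

variable {p : ℕ} [Fact p.Prime]

/-- Passing from a set to its quotient by a central element of order `k d`, `k` a power of `p`. -/
theorem exists_annihilator_cover {Y : Type*} [MulAction G Y] (π : X → Y)
    (hsurj : Function.Surjective π) (hπ : ∀ (g : G) x, π (g • x) = g • π x) (c : G)
    (hc : ∀ g, c * g = g * c) (hfib : ∀ x x', π x = π x' → ∃ j : ℕ, c ^ j • x = x')
    {a d : ℕ} (hcd : c ^ (p ^ a * d) = 1) {y : MonoidAlgebra (ZMod p) G}
    (hy : permRep (ZMod p) Y y = 0) :
    permRep (ZMod p) X (y ^ (p ^ a) * ∑ j ∈ Finset.range d,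
      MonoidAlgebra.single (c ^ (p ^ a * j)) 1) = 0 := by
  classical
  set P := p ^ a
  set C : MonoidAlgebra (ZMod p) G := MonoidAlgebra.single c 1
  set ν : MonoidAlgebra (ZMod p) G :=
    ∑ j ∈ Finset.range d, MonoidAlgebra.single (c ^ (P * j)) 1
  have hcomm : Commute C y := by
    clear hy
    induction y using MonoidAlgebra.induction_linear with
    | zero => exact Commute.zero_right _
    | add u v hu hv => exact hu.add_right hv
    | single g r =>
      show C * _ = _ * C
      simp [C, MonoidAlgebra.single_mul_single, hc g]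
  -- invariant functions come from the quotient
  have hinv : ∀ F : X → ZMod p, permRep (ZMod p) X (C - 1) F = 0 →
      permRep (ZMod p) X y F = 0 := by
    intro F hF
    have h1 : ∀ x, F (c • x) = F x := fun x => by
      have := congrFun hF (c • x)
      simp [C, permRep_single] at this
      exact (sub_eq_zero.1 this).symm
    have hj : ∀ (j : ℕ) x, F (c ^ j • x) = F x := fun j => by
      induction j with
      | zero => simp
      | succ j ih => intro x; rw [pow_succ', mul_smul, h1, ih]
    have hFπ : ∀ x, F x = (fun z => F (Function.surjInv hsurj z)) (π x) := fun x => by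
      obtain ⟨j, hj'⟩ := hfib x (Function.surjInv hsurj (π x))
        (Function.surjInv_eq hsurj (π x)).symm
      show F x = F _
      rw [← hj', hj]
    funext x
    have h := congrFun (LinearMap.congr_fun hy fun z => F (Function.surjInv hsurj z)) (π x)
    have hcoe : ∀ z : MonoidAlgebra (ZMod p) G, permRep (ZMod p) X z F x =
        permRep (ZMod p) Y z (fun z => F (Function.surjInv hsurj z)) (π x) := fun z => by
      induction z using MonoidAlgebra.induction_linear with
      | zero => simp
      | add u v hu hv => simp [hu, hv]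
      | single g r => rw [permRep_single, permRep_single, hFπ, hπ]
    rw [hcoe, h]
    rfl
  -- `y` lowers the order of unipotence of `c`
  have hdown : ∀ (i : ℕ) (F : X → ZMod p), permRep (ZMod p) X ((C - 1) ^ i) F = 0 →
      permRep (ZMod p) X (y ^ i) F = 0 := by
    intro i
    induction i with
    | zero => exact fun F hF => by simpa using hF
    | succ i ih =>
      intro F hF
      rw [pow_succ, map_mul, Module.End.mul_apply]
      refine ih _ ?_
      rw [← Module.End.mul_apply, ← map_mul, ((hcomm.sub_left (Commute.one_left y)).pow_left i).eq,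
        map_mul, Module.End.mul_apply]
      refine hinv _ ?_
      rwa [← Module.End.mul_apply, ← map_mul, ← pow_succ']
  refine LinearMap.ext fun F => ?_
  rw [map_mul, Module.End.mul_apply]
  refine hdown _ _ ?_
  rw [← Module.End.mul_apply, ← map_mul]
  suffices h : (C - 1) ^ P * ν = 0 by rw [h, map_zero]; rfl
  have : CharP (MonoidAlgebra (ZMod p) G) p :=
    charP_of_injective_algebraMap (algebraMap (ZMod p) _).injective p
  rw [sub_pow_char_pow_of_commute p a (Commute.one_right C), one_pow, sub_mul, one_mul, sub_eq_zero]
  have hCP : C ^ P = MonoidAlgebra.single (c ^ P) 1 := by simp [C, MonoidAlgebra.single_pow]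
  rw [hCP, Finset.mul_sum]
  simp only [ν, MonoidAlgebra.single_mul_single, one_mul, ← pow_add]
  rw [Finset.sum_congr rfl fun j _ => by rw [show P + P * j = P * (j + 1) by ring]]
  refine add_right_cancel (b := MonoidAlgebra.single (c ^ (P * 0)) (1 : ZMod p)) ?_
  rw [← Finset.sum_range_succ' (fun j => MonoidAlgebra.single (c ^ (P * j)) (1 : ZMod p)),
    Finset.sum_range_succ]
  congr 1
  rw [hcd, mul_zero, pow_zero]

end Centre

section Module

variable {V : Type*} [AddCommGroup V] [Module R V] [DistribMulAction G V] [SMulCommClass G R V]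

variable (R V) in
/-- The group algebra acting on a module. -/
def ev : MonoidAlgebra R G →ₐ[R] Module.End R V :=
  MonoidAlgebra.lift R (Module.End R V) G (DistribMulAction.toModuleEnd R V)

theorem ev_single (g : G) (c : R) (v : V) :
    ev R V (MonoidAlgebra.single g c) v = c • g • v := by
  simp [ev]

theorem ev_apply [Fintype G] (a : MonoidAlgebra R G) (v : V) :
    ev R V a v = ∑ g, a.coeff g • g • v := by
  classical
  induction a using MonoidAlgebra.induction_linear with
  | zero => simp
  | add a b ha hb => simp [ha, hb, add_smul, Finset.sum_add_distrib]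
  | single g c =>
    rw [ev_single, Finset.sum_eq_single g]
    · simp
    · intro h _ hh
      simp [Finsupp.single_eq_of_ne hh]
    · simp

end Module

section Injective

variable {p : ℕ} [Fact p.Prime] {V : Type*} [AddCommGroup V] [Module (ZMod p) V]
  [DistribMulAction G V] [SMulCommClass G (ZMod p) V] [Fintype G] {Y : Type*} [MulAction G Y]
  [Fintype Y]

/-- A vector killed by what kills the functions on `Y` is made of vectors fixed by stabilisers. -/
theorem map_eq_zero_of_killed (h : V →ₗ[ZMod p] V)
    {M : Type*} [AddCommGroup M] (t : V →+ M)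
    (ht : ∀ (x : Y) (v : V), (∀ g : G, g • x = x → g • v = v) → t v = 0) {s : V}
    (hh : ∑ g : G, g • h (g⁻¹ • s) = s) (hs : ∀ y, permRep (ZMod p) Y y = 0 → ev (G := G) (ZMod p) V y s = 0) : t s = 0 := by
  classical
  let φ : MonoidAlgebra (ZMod p) G →ₗ[ZMod p] V :=
    (LinearMap.applyₗ s).comp (ev (ZMod p) V).toLinearMap
  let j := (permRep (ZMod p) Y : MonoidAlgebra (ZMod p) G →ₐ[ZMod p] _).toLinearMap
  obtain ⟨L, hL⟩ := LinearMap.exists_extend
    (((LinearMap.ker j).liftQ φ fun y hy => hs y hy).comp j.quotKerEquivRange.symm.toLinearMap)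
  replace hL : ∀ y, L (j y) = φ y := fun y => by
    have := LinearMap.congr_fun hL ⟨j y, LinearMap.mem_range_self j y⟩
    simp only [LinearMap.comp_apply, Submodule.subtype_apply, LinearEquiv.coe_coe,
      LinearMap.quotKerEquivRange_symm_apply_image] at this
    exact this
  let g1 : G → MonoidAlgebra (ZMod p) G := fun g => MonoidAlgebra.single g 1
  let ψ : Module.End (ZMod p) (Y → ZMod p) →ₗ[ZMod p] V :=
    ∑ g : G, ((ev (ZMod p) V (g1 g)).comp h).comp (L.comp (LinearMap.mulLeft (ZMod p) (j (g1 g⁻¹))))
  have hψ : ∀ E, ψ E = ∑ g : G, g • h (L (j (g1 g⁻¹) * E)) := fun E => by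
    simp [ψ, ev_single, g1]
  have h1 : ψ 1 = s := by
    rw [hψ]
    refine (Finset.sum_congr rfl fun g _ => ?_).trans hh
    rw [mul_one, hL]
    simp [φ, ev_single, g1]
  have hequiv : ∀ (k : G) E, ψ (j (g1 k) * E) = k • ψ E := fun k E => by
    rw [hψ, hψ, Finset.smul_sum]
    refine Fintype.sum_equiv (Equiv.mulLeft k⁻¹) _ _ fun g => ?_
    simp only [Equiv.coe_mulLeft, smul_smul, mul_inv_cancel_left]
    congr 3
    rw [← mul_assoc]
    congr 1
    show permRep (ZMod p) Y _ * permRep (ZMod p) Y _ = permRep (ZMod p) Y _
    simp [g1, ← map_mul, MonoidAlgebra.single_mul_single]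
  -- the identity is the sum of the projections to the points
  let e : Y → Module.End (ZMod p) (Y → ZMod p) := fun x =>
    (LinearMap.single (ZMod p) (fun _ => ZMod p) x).comp (LinearMap.proj x)
  have he : (1 : Module.End (ZMod p) (Y → ZMod p)) = ∑ x, e x := by
    refine LinearMap.ext fun F => funext fun z => ?_
    simp [e, Finset.sum_apply, Pi.single_apply]
  rw [← h1, he, map_sum, map_sum]
  refine Finset.sum_eq_zero fun x _ => ht x _ fun g hg => ?_
  rw [← hequiv]
  congr 1
  refine LinearMap.ext fun F => funext fun z => ?_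
  simp only [j, g1, AlgHom.toLinearMap_apply, Module.End.mul_apply, permRep_single, one_mul]
  simp only [e, LinearMap.comp_apply, LinearMap.proj_apply, LinearMap.coe_single, Pi.single_apply,
    inv_smul_eq_iff, hg]

end Injective

end Fermat.Agent.RT.Lift.LowerSq

end
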