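import Mathlib.GroupTheory.PGroup
import Mathlib.GroupTheory.Sylow
import Mathlib.GroupTheory.Coset.Basic
import Mathlib.Algebra.Field.ZMod
import Mathlib.Algebra.Module.ZMod
import Mathlib.LinearAlgebra.Basis.VectorSpace
import Mathlib.LinearAlgebra.Dual.Basis
import Mathlib.RingTheory.Artinian.Module

/-!
# Relative injectivity from vanishing of one cohomology group

A module over `ZMod p` of a finite `p`-group in which the kernel of the norm is spanned by the
differences is free, hence relatively injective; relative injectivity passes from a subgroup of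
index prime to `p` to the group.
-/

set_option autoImplicit false

noncomputable section

namespace Fermat.Agent.RT.Lift.LowerSq

variable {p : ℕ} [Fact p.Prime] {G : Type*} [Group G] {V : Type*} [AddCommGroup V]
  [Module (ZMod p) V] [DistribMulAction G V] [SMulCommClass G (ZMod p) V]

variable (p G V) in
/-- The span of the differences. -/
def diffSpan : Submodule (ZMod p) V :=
  Submodule.span (ZMod p) (Set.range fun x : G × V => x.1 • x.2 - x.2)

/-- A module of a `p`-group in which the kernel of the norm is spanned by differences is relatively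
injective. -/
theorem exists_splitting_of_pGroup [Fintype G] [Finite V] (hG : IsPGroup p G)
    (hker : ∀ v : V, ∑ g : G, g • v = 0 → v ∈ diffSpan p G V) :
    ∃ h : V →ₗ[ZMod p] V, ∀ v, ∑ g : G, g • h (g⁻¹ • v) = v := by
  classical
  obtain ⟨U, hU⟩ := Submodule.exists_isCompl (diffSpan p G V)
  let Θ : (G → U) →ₗ[ZMod p] V :=
    { toFun := fun f => ∑ g, g • (f g : V)
      map_add' := fun f f' => by
        simp [smul_add, Finset.sum_add_distrib]
      map_smul' := fun c f => by
        simp [Finset.smul_sum, smul_comm _ c] }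
  have hdiag : ∀ (d : G) f, Θ (fun g => f (d⁻¹ * g)) = d • Θ f := fun d f => by
    show ∑ g, g • (f (d⁻¹ * g) : V) = d • ∑ g, g • (f g : V)
    rw [Finset.smul_sum]
    exact Fintype.sum_equiv (Equiv.mulLeft d⁻¹) _ _ fun g => by
      rw [Equiv.coe_mulLeft, smul_smul, mul_inv_cancel_left]
  have hfun : Finite (G → U) := inferInstance
  -- injective
  have hinj : Function.Injective Θ := by
    rw [← LinearMap.ker_eq_bot]
    by_contra hne
    obtain ⟨f, hf, hf0⟩ := Submodule.exists_mem_ne_zero_of_ne_bot hne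
    let : MulAction G (LinearMap.ker Θ) :=
      { smul := fun d f => ⟨fun g => f.1 (d⁻¹ * g), by
          rw [LinearMap.mem_ker, hdiag, show Θ f.1 = 0 from f.2, smul_zero]⟩
        one_smul := fun f => Subtype.ext (funext fun g => by
          show f.1 ((1 : G)⁻¹ * g) = f.1 g
          simp)
        mul_smul := fun d e f => Subtype.ext (funext fun g => by
          show f.1 ((d * e)⁻¹ * g) = f.1 (e⁻¹ * (d⁻¹ * g))
          rw [mul_inv_rev, mul_assoc]) }
    have hp : p ∣ Nat.card (LinearMap.ker Θ) := by
      have h1 : addOrderOf (⟨f, hf⟩ : LinearMap.ker Θ) = p := by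
        refine addOrderOf_eq_prime ?_ fun h => hf0 (congrArg Subtype.val h)
        rw [← Nat.cast_smul_eq_nsmul (ZMod p), ZMod.natCast_self, zero_smul]
      have h2 := addOrderOf_dvd_natCard (⟨f, hf⟩ : LinearMap.ker Θ)
      rwa [h1] at h2
    obtain ⟨u, hu, hu0⟩ := hG.exists_fixed_point_of_prime_dvd_card_of_fixed_point
      (LinearMap.ker Θ) hp (a := 0) (fun d => Subtype.ext (funext fun _ => rfl))
    have hconst : ∀ g, u.1 g = u.1 1 := fun g => by
      have := congrFun (congrArg Subtype.val (hu g)) g
      change u.1 (g⁻¹ * g) = u.1 g at this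
      rw [inv_mul_cancel] at this
      exact this.symm
    have hmem : (u.1 1 : V) ∈ diffSpan p G V := hker _ (by
      have := u.2
      rw [LinearMap.mem_ker] at this
      refine (Finset.sum_congr rfl fun g _ => ?_).trans this
      rw [hconst g])
    have h0 : u.1 1 = 0 :=
      Subtype.ext (Submodule.disjoint_def.1 hU.disjoint _ hmem (u.1 1).2)
    exact hu0 (Subtype.ext (funext fun g => ((hconst g).trans h0).symm))
  -- surjective
  have hsurj : Function.Surjective Θ := by
    rw [← LinearMap.range_eq_top]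
    by_contra hne
    have hUR : U ≤ LinearMap.range Θ := fun u hu => ⟨Pi.single 1 ⟨u, hu⟩, by
      show ∑ g, g • ((Pi.single (M := fun _ : G => U) 1 ⟨u, hu⟩ g : U) : V) = u
      rw [Finset.sum_eq_single 1 (fun g _ hg => by simp [Pi.single_eq_of_ne hg]) (by simp)]
      simp⟩
    obtain ⟨l₀, hl₀0, hl₀'⟩ := Submodule.exists_le_ker_of_lt_top _ (lt_top_iff_ne_top.2 hne)
    have hl₀ : l₀ ∈ (LinearMap.range Θ).dualAnnihilator :=
      (Submodule.mem_dualAnnihilator _).2 fun v hv => hl₀' hv
    have hst : ∀ (d : G) (v : V), v ∈ LinearMap.range Θ → d • v ∈ LinearMap.range Θ := by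
      rintro d _ ⟨f, rfl⟩
      exact ⟨_, hdiag d f⟩
    let A := (LinearMap.range Θ).dualAnnihilator
    have : Finite A := Finite.of_injective (fun l : A => (l.1 : V → ZMod p))
      (fun l l' h => Subtype.ext (DFunLike.coe_injective h))
    let : MulAction G A :=
      { smul := fun d l => ⟨l.1.comp (DistribSMul.toLinearMap (ZMod p) V d⁻¹), by
          rw [Submodule.mem_dualAnnihilator]
          intro v hv
          exact (Submodule.mem_dualAnnihilator _).1 l.2 _ (hst _ _ hv)⟩
        one_smul := fun l => Subtype.ext (LinearMap.ext fun v => by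
          show l.1 ((1 : G)⁻¹ • v) = l.1 v
          simp)
        mul_smul := fun d e l => Subtype.ext (LinearMap.ext fun v => by
          show l.1 ((d * e)⁻¹ • v) = l.1 (e⁻¹ • d⁻¹ • v)
          rw [mul_inv_rev, mul_smul]) }
    have hp : p ∣ Nat.card A := by
      have h1 : addOrderOf (⟨l₀, hl₀⟩ : A) = p := by
        refine addOrderOf_eq_prime ?_ fun h => hl₀0 (congrArg Subtype.val h)
        rw [← Nat.cast_smul_eq_nsmul (ZMod p), ZMod.natCast_self, zero_smul]
      have h2 := addOrderOf_dvd_natCard (⟨l₀, hl₀⟩ : A)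
      rwa [h1] at h2
    obtain ⟨l, hl, hl0⟩ := hG.exists_fixed_point_of_prime_dvd_card_of_fixed_point
      A hp (a := 0) (fun d => Subtype.ext (LinearMap.ext fun _ => rfl))
    have hI : diffSpan p G V ≤ LinearMap.ker l.1 := by
      refine Submodule.span_le.2 ?_
      rintro _ ⟨⟨d, v⟩, rfl⟩
      have := LinearMap.congr_fun (congrArg Subtype.val (hl d)) (d • v)
      change l.1 (d⁻¹ • d • v) = l.1 (d • v) at this
      rw [inv_smul_smul] at this
      show l.1 (d • v - v) = 0
      rw [map_sub, this, sub_self]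
    have hU' : U ≤ LinearMap.ker l.1 := fun v hv =>
      (Submodule.mem_dualAnnihilator _).1 l.2 _ (hUR hv)
    have htop : LinearMap.ker l.1 = ⊤ := top_le_iff.1 (hU.sup_eq_top ▸ sup_le hI hU')
    exact hl0 (Subtype.ext (LinearMap.ker_eq_top.1 htop).symm)
  let e := LinearEquiv.ofBijective Θ ⟨hinj, hsurj⟩
  refine ⟨U.subtype.comp ((LinearMap.proj (1 : G)).comp e.symm.toLinearMap), fun v => ?_⟩
  have hcomp : ∀ g, e.symm (g⁻¹ • v) 1 = e.symm v g := fun g => by
    have : e.symm (g⁻¹ • v) = fun x => e.symm v (g * x) := by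
      rw [LinearEquiv.symm_apply_eq]
      show g⁻¹ • v = Θ _
      have h := hdiag g⁻¹ (e.symm v)
      simp only [inv_inv] at h
      rw [h]
      exact congrArg _ (e.apply_symm_apply v).symm
    rw [this]
    exact congrArg _ (mul_one g)
  refine (Finset.sum_congr rfl fun g _ => ?_).trans (e.apply_symm_apply v)
  show g • ((e.symm (g⁻¹ • v) 1 : U) : V) = g • _
  rw [hcomp]

/-- From a subgroup of index prime to `p` to the group. -/
theorem exists_splitting_of_index [Fintype G] (H : Subgroup G) [Fintype H]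
    (hH : ¬ p ∣ H.index) (h : V →ₗ[ZMod p] V)
    (hh : ∀ v, ∑ c : H, (c : G) • h ((c : G)⁻¹ • v) = v) :
    ∃ k : V →ₗ[ZMod p] V, ∀ v, ∑ g : G, g • k (g⁻¹ • v) = v := by
  classical
  refine ⟨(H.index : ZMod p)⁻¹ • h, fun v => ?_⟩
  have hi : (H.index : ZMod p) ≠ 0 := fun e => hH ((ZMod.natCast_eq_zero_iff _ p).1 e)
  let e : (G ⧸ H) × H ≃ G :=
    { toFun := fun x => x.1.out * x.2
      invFun := fun g => ((g : G ⧸ H), ⟨(g : G ⧸ H).out⁻¹ * g,
        QuotientGroup.eq.1 (QuotientGroup.out_eq' (g : G ⧸ H))⟩)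
      left_inv := fun x => by
        have : ((x.1.out * (x.2 : G) : G) : G ⧸ H) = x.1 := by
          rw [QuotientGroup.mk_mul_of_mem _ x.2.2, QuotientGroup.out_eq']
        exact Prod.ext this (Subtype.ext (by simp [this]))
      right_inv := fun g => mul_inv_cancel_left _ _ }
  rw [← Fintype.sum_equiv e (fun x => e x • ((H.index : ZMod p)⁻¹ • h) ((e x)⁻¹ • v)) _
    (fun x => rfl), Fintype.sum_prod_type]
  have : ∀ a : G ⧸ H, ∑ c : H, (a.out * (c : G)) •
      ((H.index : ZMod p)⁻¹ • h) ((a.out * (c : G))⁻¹ • v) = (H.index : ZMod p)⁻¹ • v := by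
    intro a
    simp only [LinearMap.smul_apply, mul_smul, mul_inv_rev, smul_comm _ (H.index : ZMod p)⁻¹,
      ← Finset.smul_sum]
    rw [hh, smul_inv_smul]
  simp only [e, Equiv.coe_fn_mk, this, Finset.sum_const, Finset.card_univ, ← Nat.card_eq_fintype_card,
    ← Subgroup.index_eq_card, ← Nat.cast_smul_eq_nsmul (ZMod p)]
  rw [smul_inv_smul₀ hi]

/-- The splitting on the part where an equivariant operator killing the obstruction is
invertible. -/
theorem exists_splitting [Fintype G] [Finite V] (H : Sylow p G) [Fintype H]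
    (t : Module.End (ZMod p) V) (ht : ∀ (g : G) v, t (g • v) = g • t v)
    (hker : ∀ v : V, ∑ c : H, (c : G) • v = 0 → t v ∈ diffSpan p H V) :
    ∃ k : V →ₗ[ZMod p] V, ∀ s, (∀ n : ℕ, s ∈ LinearMap.range (t ^ n)) →
      ∑ g : G, g • k (g⁻¹ • s) = s := by
  classical
  obtain ⟨n₀, hn₀⟩ := Filter.eventually_atTop.1 (t.eventually_isCompl_ker_pow_range_pow)
  set n := n₀ + 1 with hndef
  have hn := hn₀ n (by omega)
  have htn : ∀ (g : G) v, (t ^ n) (g • v) = g • (t ^ n) v := by
    intro g
    clear hn hndef
    induction n with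
    | zero => intro v; rfl
    | succ n ih => intro v; rw [pow_succ', Module.End.mul_apply, ih, ht, Module.End.mul_apply]
  let W := LinearMap.range (t ^ n)
  have hW : ∀ (g : G) (w : V), w ∈ W → g • w ∈ W := by
    rintro g _ ⟨v, rfl⟩
    exact ⟨g • v, htn g v⟩
  let : DistribMulAction G W :=
    { smul := fun g w => ⟨g • (w : V), hW g _ w.2⟩
      one_smul := fun w => Subtype.ext (one_smul G (w : V))
      mul_smul := fun g g' w => Subtype.ext (mul_smul g g' (w : V))
      smul_zero := fun g => Subtype.ext (smul_zero g)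
      smul_add := fun g w w' => Subtype.ext (smul_add g (w : V) (w' : V)) }
  have : SMulCommClass G (ZMod p) W := ⟨fun g c w => Subtype.ext (smul_comm g c (w : V))⟩
  have hcoe : ∀ (g : G) (w : W), ((g • w : W) : V) = g • (w : V) := fun _ _ => rfl
  let π : V →ₗ[ZMod p] W := W.projectionOnto _ hn.symm
  have hπfix : ∀ w : W, π (w : V) = w := fun w => Submodule.projectionOnto_apply_left hn.symm w
  have hkerst : ∀ (g : G) v, v ∈ LinearMap.ker (t ^ n) → g • v ∈ LinearMap.ker (t ^ n) :=
    fun g v hv => by
      rw [LinearMap.mem_ker] at hv ⊢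
      rw [htn, hv, smul_zero]
  have hπ : ∀ (g : G) v, π (g • v) = g • π v := fun g v => by
    have hd : g • v - g • (π v : V) ∈ LinearMap.ker (t ^ n) := by
      rw [← smul_sub]
      refine hkerst g _ ((Submodule.projectionOnto_apply_eq_zero_iff hn.symm).1 ?_)
      show π (v - (π v : V)) = 0
      rw [map_sub, hπfix, sub_self]
    have := (Submodule.projectionOnto_apply_eq_zero_iff hn.symm).2 hd
    change π (g • v - g • (π v : V)) = 0 at this
    rwa [map_sub, ← hcoe, hπfix, sub_eq_zero] at this
  have hdiff : ∀ w : V, w ∈ diffSpan p H V → π w ∈ diffSpan p H W := fun w hw => by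
    refine (Submodule.span_le (p := (diffSpan p H W).comap π)).2 ?_ hw
    rintro _ ⟨⟨d, v⟩, rfl⟩
    refine Submodule.mem_comap.2 ?_
    show π ((d : G) • v - v) ∈ _
    rw [map_sub, hπ]
    exact Submodule.subset_span ⟨(d, π v), rfl⟩
  have hker' : ∀ w : W, ∑ c : H, c • w = 0 → w ∈ diffSpan p H W := by
    intro w hw
    -- `w = t w'` with `w'` in the stable part
    have hsucc : ∀ x : V, (t ^ n) x = 0 → (t ^ (n + 1)) x = 0 := fun x hx => by
      rw [pow_succ', Module.End.mul_apply, hx, map_zero]
    have hmaps : ∀ x : W, t (x : V) ∈ W := by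
      rintro ⟨_, v, rfl⟩
      exact ⟨t v, by rw [← Module.End.mul_apply, ← pow_succ, pow_succ', Module.End.mul_apply]⟩
    have hbij : Function.Injective (t.restrict fun x hx => hmaps ⟨x, hx⟩ : W →ₗ[ZMod p] W) := by
      intro x y hxy
      have h1 : t ((x : V) - y) = 0 := by
        rw [map_sub, sub_eq_zero]; exact congrArg Subtype.val hxy
      have h2 : (x : V) - y ∈ LinearMap.ker (t ^ n) := by
        rw [LinearMap.mem_ker, hndef, pow_succ, Module.End.mul_apply, h1, map_zero]
      exact Subtype.ext (sub_eq_zero.1 (Submodule.disjoint_def.1 hn.disjoint _ h2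
        (sub_mem x.2 y.2)))
    obtain ⟨w', hw'⟩ := (Finite.injective_iff_surjective.1 hbij) w
    have hw'0 : ∑ c : H, c • w' = 0 := hbij (by
      rw [map_zero, map_sum, ← hw]
      refine Finset.sum_congr rfl fun c _ => ?_
      rw [← hw']
      exact Subtype.ext (ht (c : G) (w' : V)))
    have := hdiff _ (hker (w' : V) (by
      have := congrArg Subtype.val hw'0
      rw [Submodule.coe_sum, Submodule.coe_zero] at this
      exact this))
    rw [show t (w' : V) = (w : V) from congrArg Subtype.val hw', hπfix] at this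
    exact this
  obtain ⟨h, hh⟩ := exists_splitting_of_pGroup (G := H) (V := W) H.2 hker'
  obtain ⟨k, hk⟩ := exists_splitting_of_index (V := W) (H : Subgroup G)
    H.not_dvd_index h (fun v => hh v)
  refine ⟨W.subtype.comp (k.comp π), fun s hs => ?_⟩
  have hsW : π s = ⟨s, hs n⟩ := hπfix ⟨s, hs n⟩
  have := congrArg Subtype.val (hk (π s))
  rw [Submodule.coe_sum, hsW] at this
  refine (Finset.sum_congr rfl fun g _ => ?_).trans this
  show g • ((k (π (g⁻¹ • s)) : W) : V) = _
  rw [hπ, hsW]
  rfl

end Fermat.Agent.RT.Lift.LowerSq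

end
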