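import Fermat.Agent.RT.Lift.LowerSq.Transfer
import Fermat.Agent.RT.Lift.LowerSq.RelInj
import Fermat.Agent.RT.Lift.LowerSq.FreeCores
import Fermat.Agent.RT.Lift.LowerSq.GroupAlg
import Mathlib.GroupTheory.Schreier
import Mathlib.RingTheory.Artinian.Module

/-!
# Relative injectivity at the level `±(Γ(q) ∩ Γ₀(M))`

With `l` a square modulo `q` and `l ≡ 1 (mod p)`, the operator `U_l - 2` kills the obstruction to
relative injectivity. Hence a vector on which it is invertible and which is killed by the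
annihilator of the functions on the projective line is killed by every equivariant operator
killing the restrictions from level `q M`.
-/

set_option autoImplicit false

noncomputable section

open CongruenceSubgroup Matrix.SpecialLinearGroup
open scoped MatrixGroups

namespace Fermat.Agent.RT.Lift.LowerSq

open Fermat.Agent.RT.GammaH

/-- Homomorphisms of a subgroup of finite index to a finite group are finite in number. -/
theorem finite_hom_of_finiteIndex (Γ : Subgroup SL(2, ℤ)) [Γ.FiniteIndex] (A : Type*)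
    [AddCommGroup A] [Finite A] : Finite (Additive Γ →+ A) := by
  have : Group.FG SL(2, ℤ) := Group.fg_iff.2
    ⟨{ModularGroup.S, ModularGroup.T}, SpecialLinearGroup.SL2Z_generators, Set.toFinite _⟩
  have hfg : Group.FG Γ := Subgroup.fg_of_index_ne_zero Γ
  obtain ⟨S, hS, hfin⟩ := Group.fg_iff.1 hfg
  have : Finite S := hfin.to_subtype
  refine Finite.of_injective (fun (φ : Additive Γ →+ A) (s : S) => φ (Additive.ofMul (s : Γ)))
    fun φ ψ h => AddMonoidHom.ext fun x => ?_
  obtain ⟨γ, rfl⟩ := Additive.ofMul.surjective x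
  have hγ : γ ∈ Subgroup.closure S := hS ▸ Subgroup.mem_top γ
  induction hγ using Subgroup.closure_induction with
  | mem s hs => exact congrFun h ⟨s, hs⟩
  | one => simp
  | mul a b _ _ ha hb => rw [ofMul_mul, map_add, map_add, ha, hb]
  | inv a _ ha => rw [ofMul_inv, map_neg, map_neg, ha]

variable {q M : ℕ}

/-- `C` with signs. -/
def signed (C : Subgroup SL(2, ZMod q)) : Subgroup SL(2, ZMod q) where
  carrier := {g | g ∈ C ∨ -g ∈ C}
  one_mem' := Or.inl (one_mem C)
  mul_mem' := by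
    rintro a b (ha | ha) (hb | hb)
    · exact Or.inl (mul_mem ha hb)
    · exact Or.inr (by simpa using mul_mem ha hb)
    · exact Or.inr (by simpa using mul_mem ha hb)
    · exact Or.inl (by simpa using mul_mem ha hb)
  inv_mem' := by
    rintro a (ha | ha)
    · exact Or.inl (inv_mem ha)
    · exact Or.inr (by simpa [inv_neg] using inv_mem ha)

theorem pmGrp_le_signed (C : Subgroup SL(2, ZMod q)) : pmGrp q ≤ signed C := fun g hg => by
  rcases mem_pmGrp.1 hg with rfl | rfl
  · exact one_mem _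
  · exact Or.inr (by simp)

variable {p : ℕ} [Fact p.Prime] [NeZero q] [NeZero M] [hcop : Fact (q.Coprime M)]

omit hcop in
instance finite_levelHom : Finite (LevelHom q M (ZMod p)) :=
  haveI := levelGrp_finiteIndex (M := M) (le_refl (pmGrp q))
  finite_hom_of_finiteIndex _ _

omit [Fact p.Prime] [NeZero q] in
/-- An element of odd order prime to two is not minus one. -/
theorem eq_one_of_mul_inv_mem_pmGrp (hp : Odd p) {C : Subgroup SL(2, ZMod q)} (hC : IsPGroup p C)
    {c d : SL(2, ZMod q)} (hc : c ∈ C) (hd : d ∈ C) (h : c * d⁻¹ ∈ pmGrp q) : c = d := by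
  rcases mem_pmGrp.1 h with h | h
  · exact eq_of_mul_inv_eq_one h
  obtain ⟨k, hk⟩ := hC ⟨_, mul_mem hc (inv_mem hd)⟩
  have hk' : (c * d⁻¹) ^ p ^ k = 1 := congrArg Subtype.val hk
  rw [h, (hp.pow).neg_one_pow] at hk'
  exact eq_of_mul_inv_eq_one (h.trans hk')

omit [Fact p.Prime] in
theorem isCoreps_liftQ (hp : Odd p) {C : Subgroup SL(2, ZMod q)} (hC : IsPGroup p C) :
    IsCoreps (pmLevel q M) (levelGrp q M (signed C)) fun c : C => liftQ M (c : SL(2, ZMod q)) where
  le := levelGrp_mono (pmGrp_le_signed C)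
  mem c := mem_levelGrp.2 ⟨liftQ_mem _, by rw [modQ_liftQ]; exact Or.inl c.2⟩
  conj c γ := ⟨fun h => conj_mem_pmLevel (liftQ_mem _) γ h, fun h => by
    have := conj_mem_pmLevel (inv_mem (liftQ_mem (M := M) (c : SL(2, ZMod q)))) _ h
    simpa [mul_assoc] using this⟩
  inj c d h := by
    have := (mem_levelGrp.1 h).2
    rw [map_mul, map_inv, modQ_liftQ, modQ_liftQ] at this
    exact Subtype.ext (eq_one_of_mul_inv_mem_pmGrp hp hC c.2 d.2 this)
  surj g hg := by
    obtain ⟨hgM, hg' | hg'⟩ := mem_levelGrp.1 hg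
    · exact ⟨⟨_, hg'⟩, mul_inv_mem_levelGrp hgM (liftQ_mem _) (modQ_liftQ _).symm⟩
    · refine ⟨⟨_, hg'⟩, mem_levelGrp.2 ⟨mul_mem hgM (inv_mem (liftQ_mem _)), ?_⟩⟩
      rw [map_mul, map_inv, modQ_liftQ, inv_neg, mul_neg, mul_inv_cancel]
      exact neg_one_mem_pmGrp

omit [NeZero q] [NeZero M] hcop in
theorem trace_conj_ST (g : SL(2, ℤ)) :
    (g⁻¹ * Gamma0.ST * g) 0 0 + (g⁻¹ * Gamma0.ST * g) 1 1 = 1 := by
  rw [← Matrix.trace_fin_two, coe_mul, Matrix.trace_mul_comm, ← coe_mul, ← mul_assoc,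
    mul_inv_cancel, one_mul, Matrix.trace_fin_two]
  simp [Gamma0.ST, ModularGroup.coe_S, ModularGroup.coe_T]

variable (P : SqPrime q M)

/-- `U_l - 2`. -/
def tOp (p : ℕ) : Module.End (ZMod p) (LevelHom q M (ZMod p)) :=
  uOp P (ZMod p) (pmGrp q) - 2

theorem tOp_apply (φ : LevelHom q M (ZMod p)) :
    tOp P p φ = uOp P (ZMod p) (pmGrp q) φ - (φ + φ) := by
  show uOp P (ZMod p) (pmGrp q) φ - (2 : Module.End (ZMod p) (LevelHom q M (ZMod p))) φ = _
  congr 1
  show (2 : Module.End (ZMod p) (LevelHom q M (ZMod p))) φ = φ + φ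
  exact (Module.End.natCast_apply 2 φ).trans (two_nsmul φ)

theorem tOp_smul (g : SL(2, ZMod q)) (φ : LevelHom q M (ZMod p)) :
    tOp P p (g • φ) = g • tOp P p φ := by
  rw [tOp_apply, tOp_apply, uOp_smul, smul_sub, smul_add]

/-- The splitting. -/
theorem exists_splitting_level (hp2 : p ≠ 2)
    (h3 : p = 3 → ∀ γ ∈ Gamma0 M, (γ 0 0 + γ 1 1) ^ 2 ≠ (1 : ℤ))
    (hl : (P.l : ZMod p) = 1) :
    ∃ k : LevelHom q M (ZMod p) →ₗ[ZMod p] LevelHom q M (ZMod p),
      ∀ s, (∀ n : ℕ, s ∈ LinearMap.range (tOp P p ^ n)) →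
        ∑ g : SL(2, ZMod q), g • k (g⁻¹ • s) = s := by
  classical
  have hp : p.Prime := Fact.out
  have hodd : Odd p := hp.odd_of_ne_two hp2
  obtain ⟨C⟩ : Nonempty (Sylow p SL(2, ZMod q)) := inferInstance
  have : Fintype C := Fintype.ofFinite _
  refine exists_splitting C (tOp P p) (tOp_smul P) fun v hv => ?_
  have h := isCoreps_liftQ (M := M) hodd C.2
  have hneg : (-1 : SL(2, ℤ)) ∈ pmLevel q M := neg_one_mem_levelGrp le_rfl
  have h2 : IsUnit (2 : ZMod p) := (Ne.isUnit fun h0 => hp2 ((Nat.prime_dvd_prime_iff_eq hp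
    Nat.prime_two).1 ((ZMod.natCast_eq_zero_iff 2 p).1 (by exact_mod_cast h0))))
  have hconj : ∀ (c : (C : Subgroup SL(2, ZMod q))) (ψ : LevelHom q M (ZMod p)),
      h.conjOp (ZMod p) c ψ = (c : SL(2, ZMod q))⁻¹ • ψ := fun c ψ => by
    refine AddMonoidHom.ext fun x => ?_
    obtain ⟨γ, rfl⟩ := Additive.ofMul.surjective x
    rw [IsCoreps.conjOp_apply,
      smul_apply_of_lift (liftQ_mem (M := M) (c : SL(2, ZMod q))) (by rw [modQ_liftQ, inv_inv])]
  have hres : res (ZMod p) h.le (h.cores (ZMod p) v) = 0 := by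
    rw [h.res_cores]
    simp only [hconj]
    refine Eq.trans ?_ hv
    exact Fintype.sum_equiv (Equiv.inv _) _ _ fun c => rfl
  have hcongr : ∀ γ δ : levelGrp q M (signed (C : Subgroup SL(2, ZMod q))),
      modQ q γ = modQ q δ →
      h.cores (ZMod p) v (Additive.ofMul γ) = h.cores (ZMod p) v (Additive.ofMul δ) := by
    intro γ δ hγδ
    have hmem : (γ : SL(2, ℤ)) * (δ : SL(2, ℤ))⁻¹ ∈ pmLevel q M :=
      mul_inv_mem_levelGrp (mem_levelGrp.1 γ.2).1 (mem_levelGrp.1 δ.2).1 hγδ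
    have h0 := DFunLike.congr_fun hres (Additive.ofMul (⟨_, hmem⟩ : pmLevel q M))
    rw [res_apply, show Subgroup.inclusion h.le ⟨_, hmem⟩ = γ * δ⁻¹ from Subtype.ext rfl, ofMul_mul,
      ofMul_inv, map_add, map_neg, AddMonoidHom.zero_apply] at h0
    exact eq_of_sub_eq_zero ((sub_eq_add_neg _ _).trans h0)
  have hcores : h.cores (ZMod p) (tOp P p v) = 0 := by
    rw [tOp_apply, map_sub, map_add]
    unfold IsCoreps.cores
    rw [← uOp_comm P (ZMod p) (fun c => liftQ_mem (M := M) _) h.admissible]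
    show uOp P (ZMod p) _ (h.cores (ZMod p) v) - _ = 0
    rw [uOp_of_congr P (ZMod p) _ hcongr, ← Nat.cast_smul_eq_nsmul (ZMod p), Nat.cast_add,
      Nat.cast_one, hl, add_smul, one_smul]
    exact sub_self _
  obtain ⟨wt, hwt⟩ : ∃ wt : SL(2, ℤ) ⧸ levelGrp q M (signed (C : Subgroup SL(2, ZMod q))) → ZMod p,
      IsSTWeight _ wt := by
    rcases ne_or_eq p 3 with h' | h'
    · have h30 : (3 : ZMod p) ≠ 0 := fun h0 => h' ((Nat.prime_dvd_prime_iff_eq hp
        Nat.prime_three).1 ((ZMod.natCast_eq_zero_iff 3 p).1 (by exact_mod_cast h0)))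
      exact ⟨_, isSTWeight_const (mul_inv_cancel₀ h30)⟩
    · refine exists_weight_of_free (neg_one_mem_levelGrp (pmGrp_le_signed _)) fun x => ?_
      induction x using QuotientGroup.induction_on with | _ g => ?_
      intro hx
      rw [MulAction.Quotient.smul_coe, smul_eq_mul, QuotientGroup.eq] at hx
      have hx' := inv_mem hx
      rw [mul_inv_rev, inv_inv, ← mul_assoc] at hx'
      exact h3 h' _ (mem_levelGrp.1 hx').1 (by rw [trace_conj_ST, one_pow])
  obtain ⟨ψ, hψ⟩ := exists_eq_sum_conjOp h h2 hwt hneg hcores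
  rw [hψ]
  refine Submodule.sum_mem _ fun c _ => ?_
  rw [hconj]
  exact Submodule.subset_span ⟨(c⁻¹, ψ c), rfl⟩

/-- A split vector fixed by the upper triangular elements is a restriction. -/
theorem exists_res_eq_of_fixed (k : LevelHom q M (ZMod p) →ₗ[ZMod p] LevelHom q M (ZMod p))
    {w : LevelHom q M (ZMod p)} (hk : ∑ g : SL(2, ZMod q), g • k (g⁻¹ • w) = w)
    (hfix : ∀ b ∈ borel q, b • w = w) :
    ∃ ω, res (ZMod p) (levelGrp_mono pmGrp_le_borel) ω = w := by
  classical
  set B : Subgroup SL(2, ZMod q) := borel q with hB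
  have : Fintype B := Fintype.ofFinite _
  have : Fintype (SL(2, ZMod q) ⧸ B) := Fintype.ofFinite _
  let e : (SL(2, ZMod q) ⧸ B) × B ≃ SL(2, ZMod q) :=
    { toFun := fun x => ((x.1.out : SL(2, ZMod q)) * x.2)⁻¹
      invFun := fun g => ((g⁻¹ : SL(2, ZMod q)), ⟨((g⁻¹ : SL(2, ZMod q)) : SL(2, ZMod q) ⧸ B).out⁻¹ * g⁻¹,
        QuotientGroup.eq.1 (QuotientGroup.out_eq' _)⟩)
      left_inv := fun x => by
        have : (((x.1.out * (x.2 : SL(2, ZMod q)))⁻¹⁻¹ : SL(2, ZMod q)) : SL(2, ZMod q) ⧸ B) = x.1 := by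
          rw [inv_inv, QuotientGroup.mk_mul_of_mem _ x.2.2, QuotientGroup.out_eq']
        refine Prod.ext this (Subtype.ext ?_)
        simp only [this]
        simp
      right_inv := fun g => by simp }
  set u : LevelHom q M (ZMod p) := ∑ a : SL(2, ZMod q) ⧸ B,
    (a.out : SL(2, ZMod q))⁻¹ • k ((a.out : SL(2, ZMod q)) • w) with hu
  have hadm : Admissible (pmLevel q M) (levelGrp q M (borel q))
      fun b : B => mapGL ℝ (liftQ M (b : SL(2, ZMod q))) := fun γ => by
    obtain ⟨hγM, hγ⟩ := mem_levelGrp.1 γ.2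
    refine ⟨fun b => b * ⟨_, hγ⟩, Group.mulRight_bijective _, fun b => ?_⟩
    rw [← map_inv, ← map_mul, ← map_mul]
    exact mapGL_mem_img.2 (mul_inv_mem_levelGrp (mul_mem (liftQ_mem _) hγM) (liftQ_mem _)
      (by rw [map_mul, modQ_liftQ, modQ_liftQ, Subgroup.coe_mul]))
  refine ⟨opOf hadm (ZMod p) u, ?_⟩
  have hres : res (ZMod p) (levelGrp_mono pmGrp_le_borel) (opOf hadm (ZMod p) u) =
      ∑ b : B, (b : SL(2, ZMod q))⁻¹ • u := by
    refine AddMonoidHom.ext fun x => ?_
    obtain ⟨γ, rfl⟩ := Additive.ofMul.surjective x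
    have hperm : IsPerm (pmLevel q M) (fun b : B => mapGL ℝ (liftQ M (b : SL(2, ZMod q))))
        (mapGL ℝ ((Subgroup.inclusion (levelGrp_mono pmGrp_le_borel) γ :
          levelGrp q M (borel q)) : SL(2, ℤ))) id :=
      ⟨Function.bijective_id, fun b => by
        simp only [id, Subgroup.coe_inclusion, ← map_inv, ← map_mul]
        exact mapGL_mem_img.2 (conj_mem_pmLevel (liftQ_mem _) _ γ.2)⟩
    rw [res_apply, opOf_apply_of_isPerm _ _ _ hperm, AddMonoidHom.finsetSum_apply]
    refine Finset.sum_congr rfl fun b _ => ?_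
    rw [smul_apply_of_lift (liftQ_mem (M := M) (b : SL(2, ZMod q))) (by rw [modQ_liftQ, inv_inv]),
      ← onImg_mapGL u]
    simp
  rw [hres, hu]
  simp only [Finset.smul_sum]
  refine Eq.trans ?_ hk
  rw [Finset.sum_comm, ← Fintype.sum_prod_type']
  refine Fintype.sum_equiv e _ _ fun x => ?_
  show (x.2 : SL(2, ZMod q))⁻¹ • (x.1.out : SL(2, ZMod q))⁻¹ • k ((x.1.out : SL(2, ZMod q)) • w) = _
  rw [smul_smul, ← mul_inv_rev]
  show _ = e x • k ((e x)⁻¹ • w)
  simp only [e, Equiv.coe_fn_mk, inv_inv, mul_smul, hfix _ x.2.2]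

/-- A vector killed by the annihilator of the functions on the projective line is killed by an
operator killing the restrictions from level `q M`. -/
theorem eq_zero_of_killed (hp2 : p ≠ 2)
    (h3 : p = 3 → ∀ γ ∈ Gamma0 M, (γ 0 0 + γ 1 1) ^ 2 ≠ (1 : ℤ))
    (hl : (P.l : ZMod p) = 1) (t₀ : Module.End (ZMod p) (LevelHom q M (ZMod p)))
    (ht₀ : ∀ (g : SL(2, ZMod q)) v, t₀ (g • v) = g • t₀ v)
    (hkill : ∀ ω, t₀ (res (ZMod p) (levelGrp_mono pmGrp_le_borel) ω) = 0)
    {s : LevelHom q M (ZMod p)} {c e : ZMod p} (hc : c ≠ 0) (hts : tOp P p s = c • s)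
    (he : e ≠ 0) (hes : t₀ s = e • s)
    (hs : ∀ y, permRep (ZMod p) (SL(2, ZMod q) ⧸ borel q) y = 0 →
      ev (G := SL(2, ZMod q)) (ZMod p) (LevelHom q M (ZMod p)) y s = 0) : s = 0 := by
  classical
  have : Fintype (SL(2, ZMod q) ⧸ borel q) := Fintype.ofFinite _
  obtain ⟨k, hk⟩ := exists_splitting_level P hp2 h3 hl
  set t := tOp P p
  obtain ⟨N, hN⟩ := IsArtinian.monotone_stabilizes t.iterateRange
  have hstab : ∀ (n : ℕ) v, (t ^ N) v ∈ LinearMap.range (t ^ n) := fun n v => by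
    rcases le_total n N with h | h
    · obtain ⟨d, rfl⟩ := Nat.exists_eq_add_of_le h
      exact ⟨(t ^ d) v, by rw [← Module.End.mul_apply, ← pow_add]⟩
    · have := hN n h
      have h' : LinearMap.range (t ^ N) = LinearMap.range (t ^ n) := this
      exact h' ▸ LinearMap.mem_range_self _ v
  have hpow : ∀ (n : ℕ), (t ^ n) s = c ^ n • s := fun n => by
    induction n with
    | zero => simp
    | succ n ih => rw [pow_succ', Module.End.mul_apply, ih, map_smul, hts, smul_smul, pow_succ]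
  have hcomm : ∀ (n : ℕ) (g : SL(2, ZMod q)) v, (t ^ n) (g • v) = g • (t ^ n) v := by
    intro n
    induction n with
    | zero => intro g v; rfl
    | succ n ih =>
      intro g v
      rw [pow_succ', Module.End.mul_apply, ih, tOp_smul, Module.End.mul_apply]
  have hrange : ∀ n : ℕ, s ∈ LinearMap.range (t ^ n) := fun n =>
    ⟨(c ^ n)⁻¹ • s, by rw [map_smul, hpow, smul_smul, inv_mul_cancel₀ (pow_ne_zero n hc), one_smul]⟩
  have h0 := map_eq_zero_of_killed (Y := SL(2, ZMod q) ⧸ borel q) k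
    (t₀ * t ^ N).toAddMonoidHom (fun x v hx => ?_) (hk s hrange) hs
  · simp only [LinearMap.toAddMonoidHom_coe, Module.End.mul_apply, hpow, map_smul, hes,
      smul_smul] at h0
    exact (smul_eq_zero.1 h0).resolve_left (mul_ne_zero (pow_ne_zero _ hc) he)
  induction x using QuotientGroup.induction_on with | _ g => ?_
  set w := (t ^ N) (g⁻¹ • v)
  obtain ⟨ω, hω⟩ := exists_res_eq_of_fixed k (hk w fun n => hstab n _) fun b hb => by
    have hfix : (g * b * g⁻¹) • v = v := hx _ (by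
      rw [MulAction.Quotient.smul_coe, smul_eq_mul, inv_mul_cancel_right, QuotientGroup.eq,
        mul_inv_rev, inv_mul_cancel_right]
      exact inv_mem hb)
    rw [← hcomm, ← mul_smul]
    congr 1
    conv_rhs => rw [← hfix, ← mul_smul]
    congr 1
    group
  show t₀ ((t ^ N) v) = 0
  have : (t ^ N) v = g • w := by rw [← hcomm, smul_inv_smul]
  rw [this, ht₀, ← hω, hkill, smul_zero]

end Fermat.Agent.RT.Lift.LowerSq

end
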