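import Fermat.Agent.RT.Lift.LowerSq.Study
import Fermat.Agent.RT.Lift.LowerSq.Split

/-!
# A vector killed by the annihilator of the functions on the projective line

In the span of the translates of the rescaled character of a class fixed by inertia some nonzero
vector is killed by all elements killing the functions on the projective line.
-/

set_option autoImplicit false

noncomputable section

open CongruenceSubgroup Matrix.SpecialLinearGroup
open ModularCurve (JZero)
open Fermat.Agent.Semistable Fermat.Agent.Arith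
open scoped MatrixGroups

namespace Fermat.Agent.RT.Lift.LowerSq

open Fermat.Agent.RT.GammaH

variable {q M p : ℕ} [Fact q.Prime] [Fact p.Prime] [NeZero M] [hcop : Fact (q.Coprime M)]
  [NeZero (q ^ 2 * M)]

/-- The character on `Γ_⊤(q² M)` of a torsion class. -/
def classChar (x : AlgebraicCurve.Pic0.torsion QBar (FB (q ^ 2 * M)) p) :
    Additive (gammaH (q ^ 2 * M) (⊤ : Subgroup (ZMod (q ^ 2 * M))ˣ)) →+ ZMod p :=
  res (ZMod p) (gammaH_top (M := q ^ 2 * M)).le (JacTorsion.torsionEquiv (q ^ 2 * M) p x).1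

variable {n : ℕ} [NeZero (q * n)] [hcn : Fact (q.Coprime n)]

omit [NeZero M] hcop [NeZero (q ^ 2 * M)] in
theorem Gamma_le_Gamma0 {n : ℕ} (hM : M ∣ n) {l : SL(2, ℤ)} (hl : l ∈ Gamma n) : l ∈ Gamma0 M := by
  rw [Gamma0_mem, ZMod.intCast_zmod_eq_zero_iff_dvd]
  exact (Int.natCast_dvd_natCast.mpr hM).trans (InertiaTW.entry_mem_Gamma hl).2.2.1

omit [NeZero (q ^ 2 * M)] in
/-- Restriction to `Γ(qn)` is equivariant. -/
theorem res_smul (hM : M ∣ n) (g : SL(2, ZMod q)) (v : LevelHom q M (ZMod p)) :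
    res (ZMod p) (Gamma_le_pmLevel hM) (g • v) =
      g • res (ZMod p) (Gamma_le_pmLevel hM) v := by
  refine AddMonoidHom.ext fun x => ?_
  obtain ⟨γ, rfl⟩ := Additive.ofMul.surjective x
  rw [InertiaTW.smul_apply_eq, res_apply, res_apply,
    smul_apply_of_lift (Gamma_le_Gamma0 hM (InertiaTW.liftSL_mem (n := n) g⁻¹))
      (InertiaTW.map_liftSL (n := n) g⁻¹)]
  rfl

omit [NeZero (q ^ 2 * M)] in
/-- What dies on `Γ(qn)` is fixed by `SL₂(𝔽_q)`. -/
theorem smul_eq_of_res_eq_zero (hM : M ∣ n) {v : LevelHom q M (ZMod p)}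
    (h : res (ZMod p) (Gamma_le_pmLevel hM) v = 0) (g : SL(2, ZMod q)) : g • v = v := by
  set l := InertiaTW.liftSL (n := n) g⁻¹
  have hl : l ∈ Gamma n := InertiaTW.liftSL_mem (n := n) g⁻¹
  refine AddMonoidHom.ext fun x => ?_
  obtain ⟨γ, rfl⟩ := Additive.ofMul.surjective x
  rw [smul_apply_of_lift (Gamma_le_Gamma0 hM hl) (InertiaTW.map_liftSL (n := n) g⁻¹)]
  have hmem : l * (γ : SL(2, ℤ)) * l⁻¹ * (γ : SL(2, ℤ))⁻¹ ∈ Gamma (q * n) := by
    refine InertiaTW.mem_Gamma_mul hcn.out ?_ ?_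
    · rw [map_mul, map_mul, map_mul, map_inv, map_inv,
        show Matrix.SpecialLinearGroup.map (Int.castRingHom (ZMod q)) (γ : SL(2, ℤ)) =
          modQ q γ from rfl]
      rcases mem_pmGrp.1 (mem_levelGrp.1 γ.2).2 with h1 | h1 <;> rw [h1] <;> simp
    · rw [mul_assoc, mul_assoc, ← mul_assoc (γ : SL(2, ℤ))]
      exact mul_mem hl ((Gamma_normal n).conj_mem _ (inv_mem hl) _)
  have h0 : v (Additive.ofMul (⟨_, Gamma_le_pmLevel hM hmem⟩ : pmLevel q M)) = 0 :=
    DFunLike.congr_fun h (Additive.ofMul (⟨_, hmem⟩ : Gamma (q * n)))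
  rw [show (⟨l * γ * l⁻¹, conj_mem_pmLevel (Gamma_le_Gamma0 hM hl) _ γ.2⟩ : pmLevel q M) =
    ⟨_, Gamma_le_pmLevel hM hmem⟩ * γ from Subtype.ext (by simp [mul_assoc]), ofMul_mul, map_add,
    h0, zero_add]

omit hcn in
omit [NeZero M] in
/-- The rescaled character restricts to the character of the study. -/
theorem res_scale (hM : M ∣ n) (x : AlgebraicCurve.Pic0.torsion QBar (FB (q ^ 2 * M)) p) :
    res (ZMod p) (Gamma_le_pmLevel hM) (scale (ZMod p) (classChar x)) = studyChar q n hM x := by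
  refine AddMonoidHom.ext fun z => ?_
  obtain ⟨γ, rfl⟩ := Additive.ofMul.surjective z
  set δ : gammaH (q ^ 2 * M) (⊤ : Subgroup (ZMod (q ^ 2 * M))ˣ) :=
    ⟨InertiaTW.rescale q n γ, by
      rw [gammaH_top]; exact InertiaTW.rescale_mem_Gamma0 dvd_rfl hM γ⟩ with hδ
  have hY := scale_factor (q := q) (isIntMat_mapGL (γ : SL(2, ℤ)))
    (b' := (γ : SL(2, ℤ)) 0 1 / (q : ℤ)) (by
      exact (InertiaTW.upper_div_mul γ).symm.trans (mul_comm _ _))
  have heq : scaleGL q * mapGL ℝ (γ : SL(2, ℤ)) * (scaleGL q)⁻¹ = mapGL ℝ (δ : SL(2, ℤ)) := by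
    refine hY.ext ?_
    convert isIntMat_mapGL (δ : SL(2, ℤ)) using 1
    rw [hδ]
    show _ = (InertiaTW.rescale q n γ : Matrix (Fin 2) (Fin 2) ℤ)
    rw [InertiaTW.coe_rescale, mul_comm (q : ℤ)]
  have hperm : IsPerm (gammaH (q ^ 2 * M) (⊤ : Subgroup (ZMod (q ^ 2 * M))ˣ))
      (fun _ : Unit => scaleGL q)
      (mapGL ℝ ((Subgroup.inclusion (Gamma_le_pmLevel (q := q) hM) γ : pmLevel q M) : SL(2, ℤ)))
      id := ⟨Function.bijective_id, fun _ => by
    simp only [Subgroup.coe_inclusion, heq]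
    exact mapGL_mem_img.2 δ.2⟩
  rw [res_apply, scale, opOf_apply_of_isPerm _ _ _ hperm]
  simp only [Subgroup.coe_inclusion, Finset.univ_unique, Finset.sum_singleton, heq]
  rw [onImg_mapGL, classChar, res_apply]
  rfl

/-- **A killed vector.** -/
theorem exists_killed (hpq : p ≠ q) {A : ValuationSubring QBar} (hA : A.LiesOverPrime q)
    (x : AlgebraicCurve.Pic0.torsion QBar (FB (q ^ 2 * M)) p)
    (hfix : ∀ σ ∈ A.inertiaSubgroupIn ℚ, σ • (x : JZero (q ^ 2 * M)) = x)
    (hne : scale (ZMod p) (classChar x) ≠ 0) :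
    ∃ s ∈ Submodule.span (ZMod p)
        (Set.range fun g : SL(2, ZMod q) => g • scale (ZMod p) (classChar x)), s ≠ 0 ∧
      ∀ y, permRep (ZMod p) (SL(2, ZMod q) ⧸ borel q) y = 0 →
        ev (G := SL(2, ZMod q)) (ZMod p) (LevelHom q M (ZMod p)) y s = 0 := by
  classical
  have hq : q.Prime := Fact.out
  obtain ⟨L, hL, hqL⟩ : ∃ L : ℕ, (L = 7 ∨ L = 9) ∧ ¬ q ∣ L := by
    by_cases h : q = 7
    · exact ⟨9, Or.inr rfl, by subst h; norm_num⟩
    · exact ⟨7, Or.inl rfl, fun hd => h ((Nat.prime_dvd_prime_iff_eq hq (by norm_num)).mp hd)⟩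
  set n := M * L
  have : NeZero n := ⟨mul_ne_zero (NeZero.ne M) (by omega)⟩
  have : NeZero (q * n) := ⟨mul_ne_zero hq.ne_zero (NeZero.ne n)⟩
  have hcn : Fact (q.Coprime n) :=
    ⟨Nat.Coprime.mul_right hcop.out (hq.coprime_iff_not_dvd.2 hqL)⟩
  have hM : M ∣ n := dvd_mul_right M L
  set r := res (ZMod p) (A := ZMod p) (Gamma_le_pmLevel (q := q) hM)
  set M₀ := Submodule.span (ZMod p)
    (Set.range fun g : SL(2, ZMod q) => g • scale (ZMod p) (classChar x))
  have hzero : ∀ s ∈ M₀, ∀ y, permRep (ZMod p) (SL(2, ZMod q) ⧸ borel q) y = 0 →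
      ev (G := SL(2, ZMod q)) (ZMod p) (LevelHom q M (ZMod p)) y s = s → s = 0 := by
    intro s hs y hy hys
    have hev : ∀ (w : MonoidAlgebra (ZMod p) SL(2, ZMod q)) v, r (ev (ZMod p) _ w v) =
        ev (ZMod p) _ w (r v) := fun w v => by
      rw [ev_apply, ev_apply, map_sum]
      exact Finset.sum_congr rfl fun g _ => by rw [map_smul, res_smul hM]
    have hr : r s = 0 := by
      refine eq_zero_of_inertiaFixed hM hL (dvd_mul_left L M) hA hpq x hfix hy ?_
        (by rw [← hev, hys])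
      have := Submodule.mem_map_of_mem (f := r) hs
      rw [Submodule.map_span, ← Set.range_comp] at this
      simpa only [Function.comp_def, r, res_smul hM, res_scale hM] using this
    rw [← hys, ev_apply]
    simp only [smul_eq_of_res_eq_zero hM hr, ← Finset.sum_smul]
    rw [sum_coeff_eq_zero hy, zero_smul]
  let Mo : LevelHom q M (ZMod p) → Submodule (ZMod p) (LevelHom q M (ZMod p)) := fun s =>
    Submodule.span (ZMod p) (Set.range fun g : SL(2, ZMod q) => g • s)
  have hle : ∀ s ∈ M₀, Mo s ≤ M₀ := fun s hs => by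
    refine Submodule.span_le.2 ?_
    rintro _ ⟨g, rfl⟩
    refine Submodule.span_induction ?_ ?_ ?_ ?_ hs
    · rintro _ ⟨h, rfl⟩
      exact Submodule.subset_span ⟨g * h, mul_smul _ _ _⟩
    · simp only [smul_zero]; exact zero_mem M₀
    · intro a b _ _ ha hb; simp only [smul_add] at *; exact add_mem ha hb
    · intro c a _ ha; simp only at *; rw [smul_comm g c a]; exact Submodule.smul_mem _ c ha
  have hself : scale (ZMod p) (classChar x) ∈ M₀ := Submodule.subset_span ⟨1, one_smul _ _⟩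
  have := finite_levelHom (q := q) (M := M) (p := p)
  obtain ⟨s, ⟨hs, hs0⟩, hmin⟩ := Set.exists_min_image {s : LevelHom q M (ZMod p) | s ∈ M₀ ∧ s ≠ 0}
    (fun s => Nat.card (Mo s)) (Set.toFinite _) ⟨_, hself, hne⟩
  refine ⟨s, hs, hs0, fun y hy => by_contra fun hys => hs0 ?_⟩
  set t := ev (G := SL(2, ZMod q)) (ZMod p) (LevelHom q M (ZMod p)) y s with ht
  have htMo : t ∈ Mo s := by
    rw [ht, ev_apply]
    exact Submodule.sum_mem _ fun g _ =>
      Submodule.smul_mem _ _ (Submodule.subset_span ⟨g, rfl⟩)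
  have hMo : Mo t ≤ Mo s := by
    refine Submodule.span_le.2 ?_
    rintro _ ⟨g, rfl⟩
    refine Submodule.span_induction ?_ ?_ ?_ ?_ htMo
    · rintro _ ⟨h, rfl⟩
      exact Submodule.subset_span ⟨g * h, mul_smul _ _ _⟩
    · simp only [smul_zero]; exact zero_mem _
    · intro a b _ _ ha hb; simp only [smul_add] at *; exact add_mem ha hb
    · intro c a _ ha; simp only at *; rw [smul_comm g c a]; exact Submodule.smul_mem _ c ha
  have hsMo : s ∈ Mo t := by
    have : Mo t = Mo s := SetLike.coe_injective (Set.eq_of_subset_of_ncard_le hMo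
      (by rw [← Nat.card_coe_set_eq, ← Nat.card_coe_set_eq]; exact hmin t ⟨hle s hs htMo, hys⟩))
    rw [this]
    exact Submodule.subset_span ⟨1, one_smul _ _⟩
  obtain ⟨c, hc⟩ := (Submodule.mem_span_range_iff_exists_fun (ZMod p)).1 hsMo
  refine hzero s hs ((∑ g, MonoidAlgebra.single g (c g)) * y) (by rw [map_mul, hy, mul_zero]) ?_
  rw [map_mul, Module.End.mul_apply, ← ht, map_sum, LinearMap.sum_apply]
  simpa only [ev_single] using hc

end Fermat.Agent.RT.Lift.LowerSq

end
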