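import Fermat.Agent.RT.MazurP.Torsion
import Fermat.Agent.EC.Rep.Local.Unipotent
import Fermat.Agent.ConductorLevel.Compare
import Fermat.Agent.NewformLocal.Toric.Homs
import Fermat.Agent.RT.Lift.LowerSq.Killed
import Fermat.Agent.RT.Lift.Ihara
import Mathlib.GroupTheory.PGroup

/-!
# A class fixed by inertia, and the Hecke action on characters of torsion classes

A congruent eigenform gives a nonzero `p`-torsion class with the eigenvalues of `W`, fixed by
inertia at a semistable prime `q ≠ p`. The character of such a class is an eigenvector for the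
Hecke operators on `Hom(Γ_⊤(N), 𝔽_p)`, and conversely.
-/

set_option autoImplicit false
set_option synthInstance.maxHeartbeats 400000

noncomputable section

namespace Fermat.Agent.RT.Lift.LowerSq

open ModularCurve AlgebraicCurve CongruenceSubgroup Fermat.Agent.Arith
open Fermat.Agent.Semistable

variable {p : ℕ} [Fact p.Prime] {W : WeierstrassCurve ℤ}

/-- Inertia at a semistable prime has trace two and determinant one. -/
theorem trace_det_inertia (hΔ : W.Δ ≠ 0) (hW : W.IsSemistableModel) {q : ℕ} (hq : q.Prime)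
    (hqp : q ≠ p) {A : ValuationSubring QBar} (hA : A.LiesOverPrime q) {σ : GQ}
    (hσ : σ ∈ A.inertiaSubgroupIn ℚ) :
    LinearMap.trace (ZMod p) _ ((EC.Rep.residualRep W p hΔ).ρ σ) = 2 ∧
      LinearMap.det ((EC.Rep.residualRep W p hΔ).ρ σ) = 1 := by
  refine ConductorLevel.trace_det_of_charpoly (EC.Rep.residualRep W p hΔ).finrank_eq
    ((EC.Rep.isUnipotentOnInertiaAt_residualRep hΔ hq hqp
      (fun h => hW q hq h.2 h.1) A hA σ hσ).trans ?_)
  rw [map_ofNat, map_one]
  ring

omit [Fact p.Prime] in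
/-- An automorphism whose square of difference from the identity kills a vector of order `p`. -/
theorem pow_smul_eq_of_quadratic {J : Type*} [AddCommGroup J] [DistribMulAction GQ J] {u : J}
    (hu : p • u = 0) {σ : GQ} (h : σ • σ • u - (2 : ℤ) • σ • u + (1 : ℤ) • u = 0) :
    σ ^ p • u = u := by
  set w := σ • u - u
  have hw : σ • w = w := by
    rw [show σ • w = σ • σ • u - σ • u from smul_sub σ _ _, ← sub_eq_zero]
    rw [← h]
    simp only [w, two_zsmul, one_zsmul]
    abel
  have hpow : ∀ k : ℕ, σ ^ k • u = u + k • w := by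
    intro k
    induction k with
    | zero => simp
    | succ k ih =>
      rw [pow_succ', mul_smul, ih, smul_add,
        show σ • (k • w) = k • σ • w from map_nsmul (DistribSMul.toAddMonoidHom J σ) k w, hw,
        succ_nsmul, show σ • u = u + w by simp [w]]
      abel
  rw [hpow, show p • w = 0 by
    rw [nsmul_sub, hu, sub_zero,
      show p • (σ • u) = σ • (p • u) from (map_nsmul (DistribSMul.toAddMonoidHom J σ) p u).symm, hu,
      smul_zero], add_zero]

/-- A finite stable group of classes of order `p` on which a group acts through elements of order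
dividing `p` has a nonzero fixed element. -/
theorem exists_fixed_ne_zero {J : Type*} [AddCommGroup J] [DistribMulAction GQ J]
    (U : AddSubgroup J) [Finite U] (hpU : ∀ u ∈ U, p • u = 0) (hU : U ≠ ⊥)
    (H : Subgroup GQ) (hst : ∀ g ∈ H, ∀ u ∈ U, g • u ∈ U)
    (hpow : ∀ g ∈ H, ∀ u ∈ U, g ^ p • u = u) :
    ∃ u ∈ U, u ≠ 0 ∧ ∀ g ∈ H, g • u = u := by
  classical
  let act : H →* Equiv.Perm U :=
    { toFun := fun g =>
        { toFun := fun u => ⟨(g : GQ) • u.1, hst _ g.2 _ u.2⟩
          invFun := fun u => ⟨((g : GQ)⁻¹) • u.1, hst _ (inv_mem g.2) _ u.2⟩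
          left_inv := fun u => Subtype.ext (inv_smul_smul _ _)
          right_inv := fun u => Subtype.ext (smul_inv_smul _ _) }
      map_one' := Equiv.ext fun u => Subtype.ext (one_smul GQ u.1)
      map_mul' := fun g h => Equiv.ext fun u => Subtype.ext (mul_smul (g : GQ) (h : GQ) u.1) }
  have hP : IsPGroup p act.range := by
    rintro ⟨_, g, rfl⟩
    refine ⟨1, Subtype.ext ?_⟩
    rw [SubgroupClass.coe_pow, pow_one, ← map_pow, OneMemClass.coe_one]
    exact Equiv.ext fun u => Subtype.ext (hpow _ g.2 _ u.2)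
  have hcard : p ∣ Nat.card U := by
    obtain ⟨v, hv, hv0⟩ : ∃ v ∈ U, v ≠ 0 := by
      by_contra hall
      simp only [not_exists, not_and, not_not] at hall
      exact hU (U.eq_bot_iff_forall.mpr hall)
    have ho : addOrderOf (⟨v, hv⟩ : U) = p :=
      addOrderOf_eq_prime (Subtype.ext (hpU v hv)) fun e => hv0 (congrArg Subtype.val e)
    exact ho ▸ addOrderOf_dvd_natCard _
  obtain ⟨b, hb, hb0⟩ := hP.exists_fixed_point_of_prime_dvd_card_of_fixed_point U hcard
    (a := (0 : U)) (by
      rintro ⟨_, g, rfl⟩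
      exact Subtype.ext (smul_zero (g : GQ)))
  exact ⟨b.1, b.2, fun e => hb0 (Subtype.ext e.symm), fun g hg =>
    congrArg Subtype.val (hb ⟨_, ⟨g, hg⟩, rfl⟩)⟩

variable {N : ℕ} [NeZero N]

/-- **A class fixed by inertia.** -/
theorem exists_fixed_class (hΔ : W.Δ ≠ 0) (hW : W.IsSemistableModel) (hp2 : p ≠ 2)
    (hirr : W.ModRepIsIrreducible p) (hES : GaloisReps.CongruenceProperty N p)
    (h : W.IsResiduallyModularOfLevel p N) {q : ℕ} (hq : q.Prime) (hqp : q ≠ p)
    {A : ValuationSubring QBar} (hA : A.LiesOverPrime q) :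
    ∃ x : Pic0.torsion QBar (FB N) p, (x : JZero N) ≠ 0 ∧
      MazurP.IsEigen N (fun l => W.IsGoodPrimeFor l ∧ l ≠ p ∧ ¬ l ∣ N) W.apOfModel x ∧
      ∀ σ ∈ A.inertiaSubgroupIn ℚ, σ • (x : JZero N) = x := by
  classical
  obtain ⟨f, 𝔪, hf, h𝔪, hp𝔪, hcong⟩ := h
  set G : ℕ → Prop := fun l => W.IsGoodPrimeFor l ∧ l ≠ p ∧ ¬ l ∣ N
  obtain ⟨x, hx0, hpx, hxe⟩ := MazurP.exists_eigen_class (p := p) hf h𝔪.ne_top hp𝔪 G W.apOfModel
    fun l hl hG => hcong l hl hG.1 hG.2.2 hG.2.1
  obtain ⟨U, hUe, hUst, -, hUns, hquad⟩ := MazurP.exists_eigen_subgroup hΔ hp2 hirr hES G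
    (insert p (W.Δ.natAbs.primeFactors ∪ N.primeFactors))
    (fun l hl hS => by
      simp only [Finset.mem_insert, Finset.mem_union, not_or] at hS
      have hgood : W.IsGoodPrimeFor l := fun hd => hS.2.1 (Nat.mem_primeFactors.mpr
        ⟨hl, Int.natCast_dvd.mp hd, Int.natAbs_ne_zero.mpr hΔ⟩)
      exact ⟨⟨hgood, hS.1, fun hd => hS.2.2 (Nat.mem_primeFactors.mpr ⟨hl, hd, NeZero.ne N⟩)⟩,
        hgood⟩) hx0 hpx hxe
  have hτ : ∀ c : ZMod p, (EC.Rep.residualRep W p hΔ).ρ complexConjugation ≠ c • 1 := fun c hc => by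
    have hsq := congrArg (EC.Rep.residualRep W p hΔ).ρ complexConjugation_mul_self
    rw [map_mul, map_one, hc, smul_mul_smul_comm, one_mul] at hsq
    have hdet := EC.Rep.det_residualRep_involution hΔ hp2 complexConjugation_mul_self
      EC.Rep.complexConjugation_ne_one
    rw [hc, LinearMap.det_smul, LinearMap.det.map_one, mul_one,
      (EC.Rep.residualRep W p hΔ).finrank_eq] at hdet
    have : Nontrivial (EC.Rep.residualRep W p hΔ).V :=
      Module.nontrivial_of_finrank_eq_succ (EC.Rep.residualRep W p hΔ).finrank_eq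
    rw [sq] at hdet
    rw [hdet] at hsq
    exact EC.Rep.two_ne_zero_zmod hp2 (by
      have h1 : (-1 : ZMod p) = 1 := smul_left_injective (ZMod p) (one_ne_zero
        (α := Module.End (ZMod p) (EC.Rep.residualRep W p hΔ).V)) (hsq.trans (one_smul _ _).symm)
      linear_combination -h1)
  have hU0 : U ≠ ⊥ := fun e => by
    obtain ⟨u, hu, hne⟩ := hUns complexConjugation hτ 0
    rw [e, AddSubgroup.mem_bot] at hu
    subst hu
    exact hne ((smul_zero (A := JZero N) complexConjugation).trans (zero_zsmul _).symm)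
  have : NeZero (p ^ 1) := ⟨pow_ne_zero 1 (Fact.out : p.Prime).ne_zero⟩
  have hmem : ∀ u ∈ U, u ∈ GaloisReps.JTors N p 1 := fun u hu => by
    rw [Pic0.mem_torsion, pow_one, natCast_zsmul]; exact (hUe u hu).1
  have : Finite (GaloisReps.JTors N p 1) := Finite.of_injective _
    ((GaloisReps.torsionIso N p (GaloisReps.conjProperty N)).psi 1).injective
  have : Finite U := Finite.of_injective (fun v : U => (⟨v, hmem v v.2⟩ : GaloisReps.JTors N p 1))
    fun v w e => Subtype.ext (congrArg Subtype.val e :)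
  obtain ⟨u, hu, hu0, hfix⟩ := exists_fixed_ne_zero U (fun u hu => (hUe u hu).1) hU0
    (A.inertiaSubgroupIn ℚ) (fun g _ => hUst g) fun g hg v hv => by
      obtain ⟨htr, hdet⟩ := trace_det_inertia hΔ hW hq hqp hA hg
      exact pow_smul_eq_of_quadratic (hUe v hv).1
        (hquad g 2 1 (by rw [htr]; norm_num) (by rw [hdet]; norm_num) v hv)
  refine ⟨⟨u, ?_⟩, hu0, (hUe u hu).2, hfix⟩
  rw [Pic0.mem_torsion, natCast_zsmul]
  exact (hUe u hu).1

/-- The character of a class with a Hecke eigenvalue. -/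
theorem homT_torsionEquiv (x : Pic0.torsion QBar (FB N) p) {l : ℕ} (hl : l.Prime) (hlN : ¬ l ∣ N)
    {a : ℤ} :
    heckeOperatorBar N ⟨l, hl⟩ (x : JZero N) = a • (x : JZero N) ↔
      Periods.homT hl hlN (ZMod p) (JacTorsion.torsionEquiv N p x).1 =
        a • (JacTorsion.torsionEquiv N p x).1 := by
  let y : Pic0.torsion QBar (FB N) p := ⟨heckeOperatorBar N ⟨l, hl⟩ (x : JZero N), by
    rw [Pic0.mem_torsion, ← map_zsmul, Pic0.mem_torsion.mp x.2, map_zero]⟩
  have key : (JacTorsion.torsionEquiv N p y).1 =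
      Periods.homT hl hlN (ZMod p) (JacTorsion.torsionEquiv N p x).1 := by
    have h := GaloisReps.atkinHom_torsionEquiv_hecke (m := p) l hl x y rfl
    rw [GaloisReps.homOp, dif_neg hlN] at h
    apply_fun GaloisReps.atkinHom N (ZMod p) at h
    rw [GaloisReps.atkinHom_atkinHom] at h
    rw [h]
    show GaloisReps.atkinHom N (ZMod p) (Periods.homT hl hlN ℤ _) = _
    rw [← NewformLocal.Toric.homT_atkinHom, GaloisReps.atkinHom_atkinHom]
    rfl
  rw [← key]
  constructor
  · intro h
    rw [show y = a • x from Subtype.ext h, map_zsmul]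
    rfl
  · intro h
    have : y = a • x := (JacTorsion.torsionEquiv N p).injective (Subtype.ext (by
      rw [map_zsmul]; exact h))
    exact congrArg Subtype.val this

/-- The same on `Hom(Γ_⊤(N), 𝔽_p)`. -/
theorem hecke_toTop_torsionEquiv (x : Pic0.torsion QBar (FB N) p) {l : ℕ} [Fact l.Prime]
    (hl : l.Prime) (hlN : ¬ l ∣ N) {a : ℤ} :
    heckeOperatorBar N ⟨l, hl⟩ (x : JZero N) = a • (x : JZero N) ↔
      GammaH.hecke N ⊤ l (ZMod p) (toTop (ZMod p) N (JacTorsion.torsionEquiv N p x).1) =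
        (a : ZMod p) • toTop (ZMod p) N (JacTorsion.torsionEquiv N p x).1 := by
  rw [homT_torsionEquiv x hl hlN, hecke_toTop (ZMod p) hl hlN, ← map_smul,
    EmbeddingLike.apply_eq_iff_eq, Int.cast_smul_eq_zsmul]

end Fermat.Agent.RT.Lift.LowerSq

end
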