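import Fermat.Agent.RT.GammaH.Cores
import Fermat.Agent.RT.GammaH.LevelOps
import Fermat.Agent.RT.InertiaTW.LevelAction

/-!
# The levels between `Γ(q) ∩ Γ₀(M)` and `Γ₀(M)`

`levelGrp q M H` consists of the elements of `Γ₀(M)` whose reduction modulo `q` lies in `H`.
`SL₂(𝔽_q)` acts on the homomorphisms of the smallest of these groups containing `-1`.
-/

set_option autoImplicit false

noncomputable section

open CongruenceSubgroup Matrix.SpecialLinearGroup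
open scoped MatrixGroups

namespace Fermat.Agent.RT.Lift.LowerSq

open Fermat.Agent.RT.GammaH

variable {q M : ℕ}

/-- Reduction modulo `q`. -/
def modQ (q : ℕ) : SL(2, ℤ) →* SL(2, ZMod q) := map (Int.castRingHom (ZMod q))

theorem modQ_apply (γ : SL(2, ℤ)) (i j : Fin 2) : modQ q γ i j = ((γ i j : ℤ) : ZMod q) := rfl

/-- The elements of `Γ₀(M)` reducing into `H`. -/
def levelGrp (q M : ℕ) (H : Subgroup SL(2, ZMod q)) : Subgroup SL(2, ℤ) :=
  Gamma0 M ⊓ H.comap (modQ q)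

theorem mem_levelGrp {H : Subgroup SL(2, ZMod q)} {γ : SL(2, ℤ)} :
    γ ∈ levelGrp q M H ↔ γ ∈ Gamma0 M ∧ modQ q γ ∈ H := Iff.rfl

theorem levelGrp_mono {H H' : Subgroup SL(2, ZMod q)} (h : H ≤ H') :
    levelGrp q M H ≤ levelGrp q M H' := fun _ hγ => ⟨hγ.1, h hγ.2⟩

/-- The signs. -/
def pmGrp (q : ℕ) : Subgroup SL(2, ZMod q) := Subgroup.zpowers (-1)

theorem mem_pmGrp {g : SL(2, ZMod q)} : g ∈ pmGrp q ↔ g = 1 ∨ g = -1 := by
  constructor
  · rintro ⟨k, rfl⟩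
    exact (Int.even_or_odd k).imp (fun h => Even.neg_one_zpow h) (fun h => Odd.neg_one_zpow h)
  · rintro (rfl | rfl)
    · exact one_mem _
    · exact Subgroup.mem_zpowers _

theorem neg_one_mem_pmGrp : (-1 : SL(2, ZMod q)) ∈ pmGrp q := Subgroup.mem_zpowers _

theorem modQ_neg_one : modQ q (-1 : SL(2, ℤ)) = -1 := by
  ext i j
  fin_cases i <;> fin_cases j <;> simp [modQ]

/-- `±(Γ(q) ∩ Γ₀(M))`. -/
abbrev pmLevel (q M : ℕ) : Subgroup SL(2, ℤ) := levelGrp q M (pmGrp q)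

theorem neg_one_mem_levelGrp {H : Subgroup SL(2, ZMod q)} (h : pmGrp q ≤ H) :
    (-1 : SL(2, ℤ)) ∈ levelGrp q M H :=
  mem_levelGrp.2 ⟨by simp [Gamma0_mem], by rw [modQ_neg_one]; exact h neg_one_mem_pmGrp⟩

theorem mul_inv_mem_levelGrp {H : Subgroup SL(2, ZMod q)} {δ s : SL(2, ℤ)} (hδ : δ ∈ Gamma0 M)
    (hs : s ∈ Gamma0 M) (h : modQ q δ = modQ q s) : δ * s⁻¹ ∈ levelGrp q M H :=
  mem_levelGrp.2 ⟨mul_mem hδ (inv_mem hs), by
    rw [map_mul, map_inv, h, mul_inv_cancel]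
    exact one_mem H⟩

theorem conj_mem_pmLevel {l : SL(2, ℤ)} (hl : l ∈ Gamma0 M) :
    ∀ γ ∈ pmLevel q M, l * γ * l⁻¹ ∈ pmLevel q M := fun γ hγ => by
  obtain ⟨h0, hq⟩ := mem_levelGrp.1 hγ
  refine mem_levelGrp.2 ⟨mul_mem (mul_mem hl h0) (inv_mem hl), ?_⟩
  rw [map_mul, map_mul, map_inv]
  rcases mem_pmGrp.1 hq with h | h <;> rw [h]
  · rw [mul_one, mul_inv_cancel]
    exact one_mem _
  · rw [mul_neg_one, neg_mul, mul_inv_cancel]
    exact neg_one_mem_pmGrp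

theorem Gamma_le_pmLevel {n : ℕ} (hM : M ∣ n) : Gamma (q * n) ≤ pmLevel q M := fun γ hγ => by
  refine mem_levelGrp.2 ⟨?_, ?_⟩
  · rw [Gamma0_mem, ZMod.intCast_zmod_eq_zero_iff_dvd]
    exact (Int.natCast_dvd_natCast.mpr (hM.trans (dvd_mul_left n q))).trans
      (InertiaTW.entry_mem_Gamma hγ).2.2.1
  · rw [show modQ q γ = 1 from InertiaTW.map_eq_one_of_mem hγ]
    exact one_mem _

theorem levelGrp_finiteIndex [NeZero q] [NeZero M] {H : Subgroup SL(2, ZMod q)}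
    (h : pmGrp q ≤ H) : (levelGrp q M H).FiniteIndex := by
  have : NeZero (q * M) := ⟨mul_ne_zero (NeZero.ne q) (NeZero.ne M)⟩
  exact Subgroup.finiteIndex_of_le
    ((Gamma_le_pmLevel (dvd_refl M)).trans (levelGrp_mono h))

/-! ### Lifts -/

variable [NeZero q] [NeZero M] [hcop : Fact (q.Coprime M)]

theorem exists_liftQ (s : SL(2, ZMod q)) : ∃ γ : SL(2, ℤ), γ ∈ Gamma0 M ∧ modQ q γ = s := by
  have : NeZero (q * M) := ⟨mul_ne_zero (NeZero.ne q) (NeZero.ne M)⟩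
  obtain ⟨γ, hγ, h⟩ := InertiaTW.exists_lift hcop.out s
  exact ⟨γ, Gamma0_mem.2 (Gamma_mem.1 hγ).2.2.1, h⟩

variable (M) in
/-- A lift in `Γ₀(M)`. -/
def liftQ (s : SL(2, ZMod q)) : SL(2, ℤ) := (exists_liftQ (M := M) s).choose

theorem liftQ_mem (s : SL(2, ZMod q)) : liftQ M s ∈ Gamma0 M :=
  (exists_liftQ (M := M) s).choose_spec.1

theorem modQ_liftQ (s : SL(2, ZMod q)) : modQ q (liftQ M s) = s :=
  (exists_liftQ (M := M) s).choose_spec.2

variable {A : Type*} [AddCommGroup A]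

/-- The homomorphisms of `±(Γ(q) ∩ Γ₀(M))`. -/
abbrev LevelHom (q M : ℕ) (A : Type*) [AddCommGroup A] := Additive (pmLevel q M) →+ A

/-- Precomposition with conjugation. -/
def conjL {l : SL(2, ℤ)} (hl : l ∈ Gamma0 M) (φ : LevelHom q M A) : LevelHom q M A :=
  φ.comp (MonoidHom.toAdditive
    (((MulAut.conj l).toMonoidHom.comp (pmLevel q M).subtype).codRestrict (pmLevel q M)
      fun γ => conj_mem_pmLevel hl _ γ.2))

omit [NeZero q] [NeZero M] hcop in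
theorem conjL_apply {l : SL(2, ℤ)} (hl : l ∈ Gamma0 M) (φ : LevelHom q M A) (γ : pmLevel q M) :
    conjL hl φ (Additive.ofMul γ) =
      φ (Additive.ofMul ⟨l * γ * l⁻¹, conj_mem_pmLevel hl _ γ.2⟩) := rfl

omit [NeZero q] [NeZero M] hcop in
theorem conjL_congr {l m : SL(2, ℤ)} (hl : l ∈ Gamma0 M) (hm : m ∈ Gamma0 M)
    (h : modQ q l = modQ q m) (φ : LevelHom q M A) : conjL hl φ = conjL hm φ := by
  refine AddMonoidHom.ext fun x => ?_
  obtain ⟨γ, rfl⟩ := Additive.ofMul.surjective x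
  have hc : l * m⁻¹ ∈ pmLevel q M := mul_inv_mem_levelGrp hl hm h
  rw [conjL_apply, conjL_apply,
    show (⟨l * γ * l⁻¹, conj_mem_pmLevel hl _ γ.2⟩ : pmLevel q M) =
      ⟨l * m⁻¹, hc⟩ * ⟨m * γ * m⁻¹, conj_mem_pmLevel hm _ γ.2⟩ * (⟨l * m⁻¹, hc⟩ : pmLevel q M)⁻¹
      from Subtype.ext (by simp only [Subgroup.coe_mul, Subgroup.coe_inv]; group),
    ofMul_mul, ofMul_mul, ofMul_inv, map_add, map_add, map_neg]
  abel

instance : DistribMulAction SL(2, ZMod q) (LevelHom q M A) where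
  smul s φ := conjL (liftQ_mem (M := M) s⁻¹) φ
  one_smul φ := by
    show conjL (liftQ_mem (M := M) 1⁻¹) φ = φ
    rw [conjL_congr _ (one_mem _) (by rw [modQ_liftQ, inv_one, map_one]) φ]
    refine AddMonoidHom.ext fun x => ?_
    obtain ⟨γ, rfl⟩ := Additive.ofMul.surjective x
    rw [conjL_apply]
    exact congrArg _ (congrArg _ (Subtype.ext (by simp)))
  mul_smul s t φ := by
    show conjL (liftQ_mem (M := M) (s * t)⁻¹) φ =
      conjL (liftQ_mem (M := M) s⁻¹) (conjL (liftQ_mem (M := M) t⁻¹) φ)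
    rw [conjL_congr _ (mul_mem (liftQ_mem t⁻¹) (liftQ_mem s⁻¹))
      (by rw [map_mul, modQ_liftQ, modQ_liftQ, modQ_liftQ, mul_inv_rev]) φ]
    refine AddMonoidHom.ext fun x => ?_
    obtain ⟨γ, rfl⟩ := Additive.ofMul.surjective x
    rw [conjL_apply, conjL_apply, conjL_apply]
    exact congrArg _ (congrArg _ (Subtype.ext (by simp [mul_assoc])))
  smul_zero _ := rfl
  smul_add _ _ _ := rfl

instance {R : Type*} [Semiring R] [Module R A] :
    SMulCommClass SL(2, ZMod q) R (LevelHom q M A) := ⟨fun _ _ _ => rfl⟩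

theorem smul_eq_conjL {s : SL(2, ZMod q)} {l : SL(2, ℤ)} (hl : l ∈ Gamma0 M)
    (h : modQ q l = s⁻¹) (φ : LevelHom q M A) : s • φ = conjL hl φ :=
  conjL_congr _ hl (by rw [modQ_liftQ, h]) φ

theorem smul_apply_of_lift {s : SL(2, ZMod q)} {l : SL(2, ℤ)} (hl : l ∈ Gamma0 M)
    (h : modQ q l = s⁻¹) (φ : LevelHom q M A) (γ : pmLevel q M) :
    (s • φ) (Additive.ofMul γ) =
      φ (Additive.ofMul ⟨l * γ * l⁻¹, conj_mem_pmLevel hl _ γ.2⟩) := by
  rw [smul_eq_conjL hl h, conjL_apply]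

end Fermat.Agent.RT.Lift.LowerSq

end
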