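import Fermat.Agent.RT.Lift.LowerSq.LevelGroup
import Mathlib.Data.Real.Basic

/-!
# Hecke operators at squares modulo `q`

For a prime `l` congruent to `r²` modulo `q` the standard representatives of `T_l` at level `M`
can be chosen congruent to `r` modulo `q`. The operator they define exists at every level between
`±(Γ(q) ∩ Γ₀(M))` and `Γ₀(M)` and commutes with every family of elements of `Γ₀(M)`.
-/

set_option autoImplicit false

noncomputable section

open CongruenceSubgroup Matrix.SpecialLinearGroup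
open scoped MatrixGroups

namespace Fermat.Agent.RT.Lift.LowerSq

open Fermat.Agent.RT.GammaH

variable {q M : ℕ}

/-- A prime with a square root modulo `q`. -/
structure SqPrime (q M : ℕ) where
  /-- The prime. -/
  l : ℕ
  prime : l.Prime
  not_dvd : ¬ l ∣ q * M
  /-- The square root. -/
  r : (ZMod q)ˣ
  sq : (r : ZMod q) ^ 2 = (l : ZMod q)

instance (P : SqPrime q M) : Fact P.l.Prime := ⟨P.prime⟩

theorem SqPrime.not_dvd_level (P : SqPrime q M) : ¬ P.l ∣ M := fun h => P.not_dvd (h.mul_left q)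

variable (P : SqPrime q M)

/-- The matrix of a standard representative. -/
def stdMat (i : HIdx M P.l) : Matrix (Fin 2) (Fin 2) ℤ :=
  (hRep_mem_heckeSet (M := M) (K := ⊤) i).choose

theorem isIntMat_stdMat (i : HIdx M P.l) : IsIntMat (hRep M P.l i) (stdMat P i) :=
  (hRep_mem_heckeSet (M := M) (K := ⊤) i).choose_spec.1

theorem det_stdMat (i : HIdx M P.l) : (stdMat P i).det = (P.l : ℤ) :=
  (hRep_mem_heckeSet (M := M) (K := ⊤) i).choose_spec.2.1

/-- The reduction of a standard representative, divided by the root. -/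
def redStd (i : HIdx M P.l) : SL(2, ZMod q) :=
  ⟨((P.r⁻¹ : (ZMod q)ˣ) : ZMod q) • (stdMat P i).map (Int.castRingHom (ZMod q)), by
    rw [Matrix.det_smul, Fintype.card_fin, ← RingHom.mapMatrix_apply, ← RingHom.map_det,
      det_stdMat, eq_intCast, Int.cast_natCast, ← P.sq, ← mul_pow, Units.inv_mul, one_pow]⟩

variable [NeZero q] [NeZero M] [hcop : Fact (q.Coprime M)]

/-- The correction of a standard representative. -/
def corrStd (i : HIdx M P.l) : SL(2, ℤ) := liftQ M (redStd P i)⁻¹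

/-- The representatives congruent to the root modulo `q`. -/
def uRep (i : HIdx M P.l) : GLR := mapGL ℝ (corrStd P i) * hRep M P.l i

/-- Their matrices. -/
def uMat (i : HIdx M P.l) : Matrix (Fin 2) (Fin 2) ℤ :=
  (corrStd P i : Matrix (Fin 2) (Fin 2) ℤ) * stdMat P i

theorem isIntMat_uRep (i : HIdx M P.l) : IsIntMat (uRep P i) (uMat P i) :=
  (isIntMat_mapGL _).mul (isIntMat_stdMat P i)

theorem uRep_mem (i : HIdx M P.l) : uRep P i ∈ heckeSet M (⊤ : Subgroup (ZMod M)ˣ) P.l :=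
  gammaH_mul_heckeSet (hRep_mem_heckeSet i) (by rw [gammaH_top]; exact liftQ_mem _)

theorem map_uMat (i : HIdx M P.l) :
    (uMat P i).map (Int.castRingHom (ZMod q)) = (P.r : ZMod q) • 1 := by
  have h1 : (corrStd P i : Matrix (Fin 2) (Fin 2) ℤ).map (Int.castRingHom (ZMod q)) =
      (((redStd P i)⁻¹ : SL(2, ZMod q)) : Matrix (Fin 2) (Fin 2) (ZMod q)) :=
    congrArg Subtype.val (modQ_liftQ (M := M) (redStd P i)⁻¹)
  have h2 : (stdMat P i).map (Int.castRingHom (ZMod q)) =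
      (P.r : ZMod q) • (redStd P i : Matrix (Fin 2) (Fin 2) (ZMod q)) := by
    show _ = (P.r : ZMod q) • (((P.r⁻¹ : (ZMod q)ˣ) : ZMod q) • _)
    rw [smul_smul, Units.mul_inv, one_smul]
  rw [uMat, Matrix.map_mul, h1, h2, Matrix.mul_smul, ← coe_mul, inv_mul_cancel, coe_one]

/-- Right multiplication by an element of `Γ₀(M)` permutes the representatives; the left factors
have the reduction of the element. -/
theorem exists_perm {s : SL(2, ℤ)} (hs : s ∈ Gamma0 M) :
    ∃ τ : HIdx M P.l → HIdx M P.l, Function.Bijective τ ∧ ∀ i, ∃ δ : SL(2, ℤ),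
      δ ∈ Gamma0 M ∧ modQ q δ = modQ q s ∧
        uRep P i * mapGL ℝ s = mapGL ℝ δ * uRep P (τ i) := by
  have hs' : s ∈ gammaH M (⊤ : Subgroup (ZMod M)ˣ) := by rwa [gammaH_top]
  obtain ⟨τ, hτ⟩ := admissible_hRep (M := M) (K := ⊤) (n := P.l) ⟨s, hs'⟩
  refine ⟨τ, hτ.1, fun i => ?_⟩
  obtain ⟨c, hc, hcg⟩ := hτ.2 i
  set δ := corrStd P i * c * (corrStd P (τ i))⁻¹ with hδ
  have hcM : c ∈ Gamma0 M := gammaH_le_Gamma0 hc
  have heq : uRep P i * mapGL ℝ s = mapGL ℝ δ * uRep P (τ i) := by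
    simp only [uRep, hδ, map_mul, map_inv, hcg]
    group
  refine ⟨δ, mul_mem (mul_mem (liftQ_mem _) hcM) (inv_mem (liftQ_mem _)), ?_, heq⟩
  have hA := ((isIntMat_uRep P i).mul (isIntMat_mapGL s)).unique
    (heq ▸ (isIntMat_mapGL δ).mul (isIntMat_uRep P (τ i)))
  have hq := congrArg (fun X => X.map (Int.castRingHom (ZMod q))) hA
  simp only [Matrix.map_mul, map_uMat, Matrix.smul_mul, Matrix.mul_smul, Matrix.one_mul,
    Matrix.mul_one] at hq
  have := congrArg (((P.r⁻¹ : (ZMod q)ˣ) : ZMod q) • ·) hq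
  simp only [smul_smul, Units.inv_mul, one_smul] at this
  exact Subtype.ext this.symm

theorem admissible_uRep {H : Subgroup SL(2, ZMod q)} :
    Admissible (levelGrp q M H) (levelGrp q M H) (uRep P) := fun γ => by
  obtain ⟨τ, hτ, h⟩ := exists_perm P (mem_levelGrp.1 γ.2).1
  refine ⟨τ, hτ, fun i => ?_⟩
  obtain ⟨δ, hδ, hδq, he⟩ := h i
  rw [he, mul_inv_cancel_right]
  exact mapGL_mem_img.2 (mem_levelGrp.2 ⟨hδ, hδq ▸ (mem_levelGrp.1 γ.2).2⟩)

variable {A : Type*} [AddCommGroup A] (R : Type*) [Semiring R] [Module R A]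

/-- The operator. -/
def uOp (H : Subgroup SL(2, ZMod q)) : Module.End R (Additive (levelGrp q M H) →+ A) :=
  opOf (admissible_uRep P) R

/-- It commutes with the operator of any family in `Γ₀(M)`. -/
theorem uOp_comm {H₁ H₂ : Subgroup SL(2, ZMod q)} {κ : Type*} [Fintype κ] {σ : κ → SL(2, ℤ)}
    (hσ : ∀ j, σ j ∈ Gamma0 M)
    (hadm : Admissible (levelGrp q M H₁) (levelGrp q M H₂) fun j => mapGL ℝ (σ j))
    (φ : Additive (levelGrp q M H₁) →+ A) :
    uOp P R H₂ (opOf hadm R φ) = opOf hadm R (uOp P R H₁ φ) := by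
  rw [uOp, uOp, opOf_comp, opOf_comp]
  choose τ hτ h using fun j => exists_perm P (hσ j)
  let e : HIdx M P.l × κ ≃ κ × HIdx M P.l := Equiv.ofBijective (fun p => (p.2, τ p.2 p.1))
    ⟨fun p p' hp => by
      obtain ⟨i, j⟩ := p
      obtain ⟨i', j'⟩ := p'
      obtain ⟨rfl, h2⟩ := Prod.ext_iff.1 hp
      exact Prod.ext ((hτ _).1 h2) rfl,
    fun y => ⟨((Equiv.ofBijective _ (hτ y.1)).symm y.2, y.1),
      Prod.ext rfl (Equiv.apply_symm_apply (Equiv.ofBijective _ (hτ y.1)) y.2)⟩⟩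
  refine (LinearMap.congr_fun (opOf_congr _ _ e fun p => ?_) φ).symm
  obtain ⟨δ, hδ, hδq, he⟩ := h p.2 p.1
  show uRep P p.1 * mapGL ℝ (σ p.2) * (mapGL ℝ (σ p.2) * uRep P (τ p.2 p.1))⁻¹ ∈ _
  rw [he, show mapGL ℝ δ * uRep P (τ p.2 p.1) * (mapGL ℝ (σ p.2) * uRep P (τ p.2 p.1))⁻¹ =
    mapGL ℝ (δ * (σ p.2)⁻¹) by rw [map_mul, map_inv]; group]
  exact mapGL_mem_img.2 (mul_inv_mem_levelGrp hδ (hσ _) hδq)

/-- It commutes with restriction. -/
theorem uOp_res {H₁ H₂ : Subgroup SL(2, ZMod q)} (hle : levelGrp q M H₂ ≤ levelGrp q M H₁)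
    (φ : Additive (levelGrp q M H₁) →+ A) :
    uOp P R H₂ (res R hle φ) = res R hle (uOp P R H₁ φ) := by
  have hadm : Admissible (levelGrp q M H₁) (levelGrp q M H₂)
      fun _ : Unit => mapGL ℝ (1 : SL(2, ℤ)) := by
    simpa using admissible_res hle
  have e : res (A := A) R hle = opOf hadm R := by
    rw [res_eq_opOf]
    exact opOf_congr _ _ (Equiv.refl _) fun _ => by simp
  rw [e]
  exact uOp_comm P R (fun _ => one_mem _) hadm φ

/-- It commutes with the action. -/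
theorem uOp_smul (s : SL(2, ZMod q)) (φ : LevelHom q M A) :
    uOp P R (pmGrp q) (s • φ) = s • uOp P R (pmGrp q) φ := by
  have hconj : ∀ ψ : LevelHom q M A, s • ψ =
      opOf (admissible_conj (conj_mem_pmLevel (q := q) (liftQ_mem (M := M) s⁻¹))) R ψ := fun ψ => by
    refine AddMonoidHom.ext fun x => ?_
    obtain ⟨γ, rfl⟩ := Additive.ofMul.surjective x
    rw [opOf_conj_apply, smul_apply_of_lift (liftQ_mem s⁻¹) (modQ_liftQ s⁻¹)]
  rw [hconj, hconj]
  exact uOp_comm P R (fun _ => liftQ_mem _) _ φ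

/-- On a homomorphism which only sees the reduction it is multiplication by `l + 1`. -/
theorem uOp_of_congr {H : Subgroup SL(2, ZMod q)} (φ : Additive (levelGrp q M H) →+ A)
    (hφ : ∀ γ δ : levelGrp q M H, modQ q γ = modQ q δ →
      φ (Additive.ofMul γ) = φ (Additive.ofMul δ)) :
    uOp P R H φ = (P.l + 1) • φ := by
  refine AddMonoidHom.ext fun x => ?_
  obtain ⟨γ, rfl⟩ := Additive.ofMul.surjective x
  obtain ⟨τ, hτ, h⟩ := exists_perm P (mem_levelGrp.1 γ.2).1
  choose δ hδ hδq he using h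
  have hmem : ∀ i, δ i ∈ levelGrp q M H := fun i =>
    mem_levelGrp.2 ⟨hδ i, (hδq i) ▸ (mem_levelGrp.1 γ.2).2⟩
  have hperm : IsPerm (levelGrp q M H) (uRep P) (mapGL ℝ (γ : SL(2, ℤ))) τ :=
    ⟨hτ, fun i => by rw [he, mul_inv_cancel_right]; exact mapGL_mem_img.2 (hmem i)⟩
  rw [uOp, opOf_apply_of_isPerm _ _ _ hperm, AddMonoidHom.nsmul_apply,
    ← card_hIdx (M := M) P.not_dvd_level, ← Finset.card_univ, ← Finset.sum_const]
  refine Finset.sum_congr rfl fun i _ => ?_
  rw [he, mul_inv_cancel_right, onImg_mapGL φ ⟨δ i, hmem i⟩]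
  exact hφ _ _ (hδq i)

end Fermat.Agent.RT.Lift.LowerSq

end
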