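import Fermat.Agent.RT.Lift.LowerSq.StudyComb
import Fermat.Agent.RT.InertiaTW.VanishInertial

/-!
# The integral study applied to a class fixed by inertia

Let `φ` be the character on `Γ(qn)` of a `p`-torsion class of level `q² M` fixed by inertia over
`q`. An element of the span of the translates of `φ` under `SL₂(𝔽_q)` fixed by an element of the
group algebra killing the functions on the projective line is zero.
-/

set_option autoImplicit false
set_option linter.unusedSectionVars false
set_option synthInstance.maxHeartbeats 400000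

noncomputable section

open AlgebraicCurve CongruenceSubgroup
open ModularCurve (JZero coeffMap qExpand)
open Fermat.Agent.Semistable Fermat.Agent.Arith
open Fermat.Agent.Carayol Fermat.Agent.Carayol.Omega
open scoped MatrixGroups

namespace Fermat.Agent.RT.Lift.LowerSq

open Fermat.Agent.RT.InertiaTW

section Core

variable {q n : ℕ} [Fact q.Prime] [NeZero q] [NeZero n] [NeZero (q * n)]
  [hcop : Fact (q.Coprime n)] (E : Setup (q * n) QBar)
  (k : Type) [Field k] [Algebra k QBar] [CharZero k] [IsGalois k QBar]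
  {p : ℕ} [Fact p.Prime]

set_option maxHeartbeats 800000 in
/-- The study: a combination of translates of the monodromy of a unit fixed by the scalars, fixed
by an element killing the functions on the projective line, is zero. -/
theorem eq_zero_of_study [DecidableEq ℂ] [DecidableEq (E.field k)] {L : ℕ} (hL : L = 7 ∨ L = 9)
    (hLn : L ∣ n)
    (hgal : ∀ d : (ZMod q)ˣ, ∃ σ : QBar ≃ₐ[k] QBar, σ (E.ζ ^ q) = E.ζ ^ q ∧
      σ (E.ζ ^ n) = (E.ζ ^ n) ^ (d : ZMod q).val)
    {U : UnramBase k q} {S : SerBase U}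
    (C : CuspEmb (E.tateLevel k hcop.out (Fact.out : q.Prime) L hL hLn hgal) S)
    (hpU : IsUnit (p : U.W)) (u : (E.field k)ˣ)
    {φ : Additive (CongruenceSubgroup.Gamma (q * n)) →+ ZMod p}
    (hu : KumChar E k p (u : E.field k) φ) (hpl : Places k p u)
    (hscal : ∀ c : (ZMod q)ˣ, (E.tateLevel k hcop.out (Fact.out : q.Prime) L hL hLn hgal).transl u
      (dualElt (1, c)) = u)
    {y : MonoidAlgebra (ZMod p) SL(2, ZMod q)}
    (hy : permRep (ZMod p) (SL(2, ZMod q) ⧸ borel q) y = 0)
    {s : Additive (CongruenceSubgroup.Gamma (q * n)) →+ ZMod p}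
    (hs : s ∈ Submodule.span (ZMod p) (Set.range fun g : SL(2, ZMod q) => g • φ))
    (hys : ev (ZMod p) _ y s = s) : s = 0 := by
  classical
  set T := E.tateLevel k hcop.out (Fact.out : q.Prime) L hL hLn hgal
  let act' : GL (Fin 2) (ZMod q) →* (E.field k ≃ₐ[k] E.field k) := T.act
  have hact : ∀ g, E.Moves k (act' g)
      (liftMat hcop.out (g : Matrix (Fin 2) (Fin 2) (ZMod q))) := fun g =>
    (E.exists_moves_lift k hcop.out hgal g).choose_spec
  obtain ⟨c, hc⟩ := (Submodule.mem_span_range_iff_exists_fun (ZMod p)).1 hs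
  set v : MonoidAlgebra (ZMod p) SL(2, ZMod q) := ∑ g, MonoidAlgebra.single g (c g)
  have hv : ev (ZMod p) (Additive (CongruenceSubgroup.Gamma (q * n)) →+ ZMod p) v φ = s := by
    simp [v, ← hc, LinearMap.sum_apply, ev_single]
  obtain ⟨e, a, ha, hza⟩ := exists_lift_borel p hy
  set z := y ^ e
  have hzs : ∀ i : ℕ, ev (ZMod p) (Additive (CongruenceSubgroup.Gamma (q * n)) →+ ZMod p) (z ^ i) s = s := by
    intro i
    rw [← pow_mul]
    induction e * i with
    | zero => simp
    | succ j ih => rw [pow_succ, map_mul, Module.End.mul_apply, hys, ih]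
  have : Finite (MonoidAlgebra (ZMod p) SL(2, ZMod q)) :=
    Finite.of_injective (fun w g => w.coeff g) fun w w' h => MonoidAlgebra.ext
      (Finsupp.ext (congrFun h))
  obtain ⟨i, d, hd, hfix⟩ : ∃ i d : ℕ, d ≠ 0 ∧ z ^ d * (z ^ i * v) = z ^ i * v := by
    obtain ⟨i, j, hne, hij⟩ :=
      Finite.exists_ne_map_eq_of_infinite (fun i : ℕ => z ^ i * v)
    rcases Nat.lt_or_gt_of_ne hne with h | h
    · exact ⟨i, j - i, by omega, by rw [← mul_assoc, ← pow_add, Nat.sub_add_cancel h.le]; exact hij.symm⟩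
    · exact ⟨j, i - j, by omega, by rw [← mul_assoc, ← pow_add, Nat.sub_add_cancel h.le]; exact hij⟩
  set v' := z ^ i * v
  have hv' : ev (ZMod p) (Additive (CongruenceSubgroup.Gamma (q * n)) →+ ZMod p) v' φ = s := by
    rw [map_mul, Module.End.mul_apply, hv, hzs]
  set b := a ^ d
  have hb : permRep ℤ (RowVec q) b = 0 := by rw [map_pow, ha, zero_pow hd]
  let P := MonoidAlgebra.mapDomainRingHom (ZMod p) (MonoidHom.fst SL(2, ZMod q) (ZMod q)ˣ)
  have hPb : P (redMod p b) = z ^ d := by
    rw [map_pow, map_pow]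
    exact congrArg (· ^ d) hza
  -- the translates
  let tr : GL (Fin 2) (ZMod q) → (E.field k)ˣ → (E.field k)ˣ := fun g w => unitAct k (act' g) w
  have htr_mul : ∀ g h w, tr (g * h) w = tr g (tr h w) := fun g h w => by
    simp only [tr, map_mul, unitAct_mul]
  let ω : SL(2, ZMod q) → (E.field k)ˣ := fun g => tr (dualElt (g, 1)) u
  have hscal' : ∀ c, tr (dualElt (1, c)) u = u := hscal
  have hω : ∀ (x : SL(2, ZMod q) × (ZMod q)ˣ) (g : SL(2, ZMod q)),
      tr (dualElt x) (ω g) = ω (x.1 * g) := fun x g => by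
    show tr (dualElt x) (tr (dualElt (g, 1)) u) = tr (dualElt (x.1 * g, 1)) u
    rw [← htr_mul, ← map_mul,
      show x * (g, 1) = (x.1 * g, (1 : (ZMod q)ˣ)) * (1, x.2) from Prod.ext (by simp) (by simp),
      map_mul, htr_mul, hscal']
  have hωK : ∀ g, KumChar E k p (ω g : E.field k) (g • φ) := fun g =>
    kumChar_moves E k (y := (u : E.field k)) hu (hact (dualElt (g, 1))) (fun i j => by
      rw [coe_dualElt]
      simp) rfl
  let Ψ : MonoidAlgebra ℤ SL(2, ZMod q) →+ Additive (E.field k)ˣ :=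
    AddMonoidHom.mk' (fun w => ∑ g, w.coeff g • Additive.ofMul (ω g)) fun w w' => by
      simp [add_zsmul, Finset.sum_add_distrib]
  have hΨ : ∀ g r, Ψ (MonoidAlgebra.single g r) = r • Additive.ofMul (ω g) := fun g r => by
    show ∑ h, (MonoidAlgebra.single g r).coeff h • Additive.ofMul (ω h) = _
    rw [Finset.sum_eq_single g]
    · simp
    · intro h _ hh
      simp [Finsupp.single_eq_of_ne hh]
    · simp
  let vt : SL(2, ZMod q) → ℕ := fun g => (v'.coeff g).val
  let vZ : MonoidAlgebra ℤ SL(2, ZMod q) := ∑ g, MonoidAlgebra.single g (vt g : ℤ)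
  have hvZ : redMod p vZ = v' := by
    ext g
    rw [redMod_coeff]
    simp [vZ, vt, Finsupp.finsetSum_apply, Finsupp.single_apply]
  set F : (E.field k)ˣ := ∏ g, ω g ^ vt g
  have hFK : KumChar E k p (F : E.field k) s := by
    have h1 : ∑ g, vt g • (g • φ) = s := by
      rw [← hv', ev_apply]
      refine Finset.sum_congr rfl fun g _ => ?_
      rw [← Nat.cast_smul_eq_nsmul (ZMod p), ZMod.natCast_zmod_val]
    rw [← h1, Units.coe_prod]
    refine KumChar.prod _ fun g _ => ?_
    rw [Units.val_pow_eq_pow_val]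
    exact (hωK g).pow _
  have hFpl : Places k p F := by
    have hrep : F = ∏ x : Σ g : SL(2, ZMod q), Fin (vt g), ω x.1 := by
      simp [F, Fintype.prod_sigma]
    rw [hrep]
    exact places_prod _ fun x _ => places_unitAct hpl (act' _)
  have htrF : ∀ x : SL(2, ZMod q) × (ZMod q)ˣ, Additive.ofMul (tr (dualElt x) F) =
      Ψ (MonoidAlgebra.single x.1 1 * vZ) := fun x => by
    rw [show tr (dualElt x) F = ∏ g, tr (dualElt x) (ω g) ^ vt g by
      simp only [F, tr, map_prod, map_pow]]
    rw [ofMul_prod, Finset.mul_sum, map_sum]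
    refine Finset.sum_congr rfl fun g _ => ?_
    rw [hω, MonoidAlgebra.single_mul_single, one_mul, hΨ, natCast_zsmul, ofMul_pow]
  set W : MonoidAlgebra ℤ SL(2, ZMod q) :=
    (∑ x : SL(2, ZMod q) × (ZMod q)ˣ, MonoidAlgebra.single x.1 ((1 - b).coeff x)) * vZ
  have hlamW : Additive.ofMul (T.lam (killComb b hb) (T.transl F)) = Ψ W := by
    show ∑ g : GL (Fin 2) (ZMod q), (killComb b hb).coeffs g • Additive.ofMul (tr g F) = _
    rw [killComb_coeffs hb (fun g => Additive.ofMul (tr g F))]
    simp only [W, Finset.sum_mul, map_sum]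
    refine Finset.sum_congr rfl fun x _ => ?_
    rw [htrF, ← map_zsmul, ← smul_mul_assoc, MonoidAlgebra.smul_single, smul_eq_mul, mul_one]
  have hW : redMod p W = 0 := by
    have hrep : (1 - b : MonoidAlgebra ℤ (SL(2, ZMod q) × (ZMod q)ˣ)) =
        ∑ x, MonoidAlgebra.single x ((1 - b).coeff x) := by
      ext x
      simp
    have h1 : redMod p (∑ x : SL(2, ZMod q) × (ZMod q)ˣ,
        MonoidAlgebra.single x.1 ((1 - b).coeff x)) = P (redMod p (1 - b)) := by
      conv_rhs => rw [hrep]
      rw [map_sum, map_sum, map_sum]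
      refine Finset.sum_congr rfl fun x _ => ?_
      generalize (1 - b).coeff x = r
      simp [P, redMod]
    rw [map_mul, h1, map_sub, map_one, map_sub, map_one, hPb, hvZ, sub_mul, one_mul, hfix, sub_self]
  choose w hw using fun g => (ZMod.intCast_zmod_eq_zero_iff_dvd (W.coeff g) p).1
    (by rw [← redMod_coeff, hW]; rfl)
  set γ : Additive (E.field k)ˣ := ∑ g, w g • Additive.ofMul (ω g)
  have hlam : T.lam (killComb b hb) (T.transl F) =
      Units.map (algebraMap k (E.field k)).toMonoidHom (1 : kˣ) * γ.toMul ^ p := by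
    apply Additive.ofMul.injective
    rw [map_one, one_mul, hlamW, ofMul_pow, ofMul_toMul, ← natCast_zsmul]
    simp only [γ]
    show ∑ g, W.coeff g • Additive.ofMul (ω g) = _
    show _ = zsmulAddGroupHom (α := Additive (E.field k)ˣ) (p : ℤ) (∑ g, w g • Additive.ofMul (ω g))
    rw [map_sum]
    refine Finset.sum_congr rfl fun g _ => ?_
    rw [hw, mul_smul]
    rfl
  have hfixF : T.FixedBy (killComb b hb) F := fun t ht => by
    rw [show t = 1 from Subgroup.mem_bot.1 ht]
    exact TateLevel.transl_one F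
  obtain ⟨κ', r, hr⟩ := exists_const_mul_pow C (killComb b hb) hpU (f := F) hfixF hFpl hlam
  have hexp : glueExp (killComb b hb) = 1 := by simp [glueExp, killComb]
  have hrF : F = Units.map (algebraMap k (E.field k)).toMonoidHom κ' * r ^ p :=
    ((pow_one F).symm.trans (congrArg (F ^ ·) hexp.symm)).trans hr
  have hK' : KumChar E k p (F : E.field k) 0 := by
    have h' := (kumChar_const (E := E) (k := k) (m := p) κ'.ne_zero).mul
      (kumChar_pow_self (E := E) (k := k) (m := p) r.ne_zero)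
    rw [add_zero] at h'
    rw [hrF, Units.val_mul, Units.val_pow_eq_pow_val]
    exact h'
  exact hFK.unique hK'

end Core

/-- A torsion class fixed by all automorphisms over `k` has a normalised fixed Kummer function. -/
theorem exists_fixed_kummer_all {N : ℕ} [NeZero N] (k : Type*) [Field k] [Algebra k QBar] {m : ℕ}
    [NeZero m] (x : Pic0.torsion QBar (FB N) m)
    (hx : ∀ σ : QBar ≃ₐ[k] QBar, ratAut k σ • (x : JZero N) = x) :
    ∃ f : JacTorsion.divGrp QBar (FB N) m, JacTorsion.toTorsion (Additive.ofMul f) = x ∧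
      ∀ σ : QBar ≃ₐ[k] QBar,
        coeffMap (σ : QBar →+* QBar) (((f : (FB N)ˣ) : FB N) : LSer) = (((f : (FB N)ˣ) : FB N) : LSer) := by
  obtain ⟨f, hfx, -, hfix⟩ := RT.Mazur.exists_fixed_kummer
    (S := galSemi N k '' Set.univ)
    (P₀ := Mazur.Eisenstein.placeInf N)
    (by rintro _ ⟨σ, -, rfl⟩; exact RT.Mazur.galois_smul_placeInf _)
    (leadFB (N := N))
    (fun c y => by rw [leadFB_mul, leadFB_algebraMap])
    (fun y hy => HahnSeries.leadingCoeff_ne_zero.mpr fun h => hy (Subtype.ext h))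
    (by rintro _ ⟨σ, -, rfl⟩ y; exact leadFB_galSemi k σ y)
    (x := x) (by rintro _ ⟨σ, -, rfl⟩; exact hx σ)
  exact ⟨f, hfx, fun σ => congrArg Subtype.val (hfix _ ⟨σ, trivial, rfl⟩)⟩

variable {q : ℕ} [Fact q.Prime] {p : ℕ} [Fact p.Prime] {M n : ℕ} [NeZero (q ^ 2 * M)]
  [NeZero (q * n)]

variable (q n) in
/-- The character on `Γ(qn)` of a torsion class of level `q² M`. -/
def studyChar (hM : M ∣ n) (x : Pic0.torsion QBar (FB (q ^ 2 * M)) p) :
    Additive (CongruenceSubgroup.Gamma (q * n)) →+ ZMod p :=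
  (JacTorsion.torsionEquiv (q ^ 2 * M) p x).1.comp (MonoidHom.toAdditive
    ((rescale q n).codRestrict (Gamma0 (q ^ 2 * M)) fun γ => rescale_mem_Gamma0 dvd_rfl hM γ))

attribute [local instance 2000] serAlg

set_option maxHeartbeats 1600000 in
/-- **The study for a class fixed by inertia.** -/
theorem eq_zero_of_inertiaFixed [NeZero n] [hcop : Fact (q.Coprime n)] (hM : M ∣ n) {L : ℕ}
    (hL : L = 7 ∨ L = 9) (hLn : L ∣ n) {A : ValuationSubring QBar} (hA : A.LiesOverPrime q)
    (hpq : p ≠ q) (x : Pic0.torsion QBar (FB (q ^ 2 * M)) p)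
    (hfix : ∀ σ ∈ A.inertiaSubgroupIn ℚ, σ • (x : JZero (q ^ 2 * M)) = x)
    {y : MonoidAlgebra (ZMod p) SL(2, ZMod q)}
    (hy : permRep (ZMod p) (SL(2, ZMod q) ⧸ borel q) y = 0)
    {s : Additive (CongruenceSubgroup.Gamma (q * n)) →+ ZMod p}
    (hs : s ∈ Submodule.span (ZMod p)
      (Set.range fun g : SL(2, ZMod q) => g • studyChar q n hM x))
    (hys : ev (ZMod p) _ y s = s) : s = 0 := by
  classical
  have hq : q.Prime := Fact.out
  have : NeZero q := ⟨hq.ne_zero⟩
  have hn : ¬ q ∣ n := fun h => hq.one_lt.ne' (Nat.dvd_one.mp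
    (hcop.out ▸ Nat.dvd_gcd dvd_rfl h))
  obtain ⟨E, hι⟩ := InertiaTW.exists_setup (q * n)
  have : IsGalois (inertiaField A) QBar := IsGalois.tower_top_of_isGalois ℚ _ _
  have hgal := fun d => exists_aut_inertiaField hA hq hn E.isPrimitiveRoot d
  have hord : ∀ i, i • markLabel hcop.out L = 0 ↔ L ∣ i :=
    nsmul_markLabel_eq_zero_iff hcop.out (NeZero.ne n) hLn
  have hPt : GoodPt (markLabel (q := q) hcop.out L) := ⟨fun h => by
    have := Nat.le_of_dvd (by norm_num) ((hord 2).mp h); omega, fun h => by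
    have := Nat.le_of_dvd (by norm_num) ((hord 3).mp h); omega⟩
  have hall : ∀ σ : QBar ≃ₐ[inertiaField A] QBar,
      ratAut (inertiaField A) σ • (x : JZero (q ^ 2 * M)) = x := by
    intro σ
    obtain ⟨L₀, hL₀, hfixL⟩ := GaloisReps.exists_fixing_torsion (q ^ 2 * M) x
    obtain ⟨τ, hτ, hagree⟩ := exists_mem_agree (A.inertiaSubgroupIn ℚ)
      (σ := ratAut (inertiaField A) σ) (fun z hz => σ.commutes ⟨z, hz⟩) L₀
    have h := hfixL (τ⁻¹ * ratAut (inertiaField A) σ) fun z hz => by
      rw [AlgEquiv.mul_apply, ← hagree z hz]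
      exact τ.symm_apply_apply z
    rw [mul_smul, inv_smul_eq_iff] at h
    rw [h, hfix τ hτ]
  obtain ⟨f, hfx, hffix⟩ := exists_fixed_kummer_all (inertiaField A) x hall
  have hmem : ((f : (FB (q ^ 2 * M))ˣ) : FB (q ^ 2 * M)) ∈ qFixed (q ^ 2 * M) E (inertiaField A) :=
    (mem_qFixed _ E (inertiaField A)).2 fun σ _ => hffix σ
  have hN : q ^ 2 * M ∣ q * M * q := dvd_of_eq (by ring)
  refine eq_zero_of_study E (inertiaField A) hL hLn hgal (E.cuspEmb hA hq hcop.out L hL hLn hgal)
    (isUnit_natCast_base (inertialBase hA hq) (Fact.out : p.Prime) hq hpq)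
    (omegaUnit (E := E) (k := inertiaField A) hPt hM hN _ hmem (Units.ne_zero _)) ?_ ?_ ?_ hy hs hys
  · rw [studyChar, ← hfx]
    exact kumChar_toTorsion E hι (inertiaField A) f rfl _
  · exact places_toOmega _ E (inertiaField A) hPt hcop.out hq hM hN f hmem rfl
  · intro c
    set g := dualElt ((1 : SL(2, ZMod q)), c) with hgdef
    have hg : (g : Matrix (Fin 2) (Fin 2) (ZMod q)) =
        ((c⁻¹ : (ZMod q)ˣ) : ZMod q) • (1 : Matrix (Fin 2) (Fin 2) (ZMod q)) := by
      rw [hgdef, coe_dualElt]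
      show ((c⁻¹ : (ZMod q)ˣ) : ZMod q) •
          Matrix.transpose (↑(1 : SL(2, ZMod q))⁻¹ : Matrix (Fin 2) (Fin 2) (ZMod q)) = _
      rw [inv_one]
      exact congrArg _ Matrix.transpose_one
    obtain ⟨σ, -, hσ⟩ := hgal (Matrix.GeneralLinearGroup.det g)
    refine Units.ext (Subtype.ext ?_)
    rw [TateLevel.coe_transl]
    refine (coe_moves_diag_toOmega _ E (inertiaField A) hPt hcop.out hq hM hN (g := g)
      (by rw [hg, Matrix.smul_apply, Matrix.one_apply_ne (by decide), smul_zero])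
      (by rw [hg, Matrix.smul_apply, Matrix.one_apply_ne (by decide), smul_zero])
      (E.exists_moves_lift (inertiaField A) hcop.out hgal g).choose_spec hσ ⟨_, hmem⟩).trans ?_
    show qExpand QBar n (coeffMap (σ : QBar →+* QBar) _) = qExpand QBar n _
    rw [hffix σ]
    rfl

end Fermat.Agent.RT.Lift.LowerSq

end
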