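import Fermat.Agent.RT.Lift.LowerSq.SquareOps

/-!
# The square-class operators at levels `q M` and `q² M`

Restriction from `Γ₀(q M)` and rescaling from `Γ₀(q² M)` to `±(Γ(q) ∩ Γ₀(M))` carry `T_l` to the
operator of the representatives congruent to the root of `l`.
-/

set_option autoImplicit false

noncomputable section

open CongruenceSubgroup Matrix.SpecialLinearGroup
open scoped MatrixGroups

namespace Fermat.Agent.RT.Lift.LowerSq

open Fermat.Agent.RT.GammaH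

variable {q M : ℕ}

/-- The upper triangular elements. -/
def borel (q : ℕ) : Subgroup SL(2, ZMod q) where
  carrier := {g | g 1 0 = 0}
  one_mem' := by simp
  mul_mem' := by
    intro a b (ha : a 1 0 = 0) (hb : b 1 0 = 0)
    show (a * b) 1 0 = 0
    simp [Matrix.mul_apply, Fin.sum_univ_two, ha, hb]
  inv_mem' := by
    intro a (ha : a 1 0 = 0)
    show a⁻¹ 1 0 = 0
    simp [Matrix.adjugate_fin_two, ha]

theorem mem_borel {g : SL(2, ZMod q)} : g ∈ borel q ↔ g 1 0 = 0 := Iff.rfl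

theorem pmGrp_le_borel : pmGrp q ≤ borel q := fun g hg => by
  rcases mem_pmGrp.1 hg with rfl | rfl
  · exact one_mem _
  · simp [mem_borel]

variable [hcop : Fact (q.Coprime M)]

theorem levelGrp_borel : levelGrp q M (borel q) = gammaH (q * M) ⊤ := by
  rw [gammaH_top]
  ext γ
  rw [mem_levelGrp, mem_borel, Gamma0_mem, Gamma0_mem, modQ_apply,
    ZMod.intCast_zmod_eq_zero_iff_dvd, ZMod.intCast_zmod_eq_zero_iff_dvd,
    ZMod.intCast_zmod_eq_zero_iff_dvd, Nat.cast_mul]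
  exact ⟨fun h => IsCoprime.mul_dvd (Nat.isCoprime_iff_coprime.2 hcop.out) h.2 h.1,
    fun h => ⟨(dvd_mul_left _ _).trans h, (dvd_mul_right _ _).trans h⟩⟩

omit hcop in
/-- Membership in a Hecke set from divisibility. -/
theorem mem_heckeSet_of_dvd {N l : ℕ} (hl : l.Coprime N) {g : GLR}
    {X : Matrix (Fin 2) (Fin 2) ℤ} (hX : IsIntMat g X) (hdet : X.det = (l : ℤ))
    (h10 : (N : ℤ) ∣ X 1 0) : g ∈ heckeSet N (⊤ : Subgroup (ZMod N)ˣ) l := by
  rw [← ZMod.intCast_zmod_eq_zero_iff_dvd] at h10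
  have h1 := congrArg (Int.cast : ℤ → ZMod N) hdet
  rw [Matrix.det_fin_two, Int.cast_sub, Int.cast_mul, Int.cast_mul, h10, mul_zero, sub_zero,
    Int.cast_natCast] at h1
  have hu : IsUnit ((X 0 0 : ℤ) : ZMod N) := by
    refine isUnit_of_mul_isUnit_left (y := ((X 1 1 : ℤ) : ZMod N)) ?_
    rw [h1]
    exact (ZMod.isUnit_iff_coprime _ _).2 hl
  exact ⟨X, hX, hdet, h10, hu.unit, trivial, hu.unit_spec.symm⟩

variable (P : SqPrime q M) [NeZero q] [NeZero M]

theorem det_uMat (i : HIdx M P.l) : (uMat P i).det = (P.l : ℤ) := by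
  rw [uMat, Matrix.det_mul, Matrix.SpecialLinearGroup.det_coe, det_stdMat, one_mul]

theorem dvd_uMat {i : HIdx M P.l} {a b : Fin 2} (hab : a ≠ b) : (q : ℤ) ∣ uMat P i a b := by
  have h := congrFun (congrFun (map_uMat P i) a) b
  rw [Matrix.map_apply, Matrix.smul_apply, Matrix.one_apply_ne hab, smul_zero, eq_intCast] at h
  exact (ZMod.intCast_zmod_eq_zero_iff_dvd _ q).1 h

theorem dvd_uMat_lowerLeft (i : HIdx M P.l) : (M : ℤ) ∣ uMat P i 1 0 := by
  obtain ⟨X, hX, -, h10, -⟩ := uRep_mem P i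
  rw [(isIntMat_uRep P i).unique hX, ← ZMod.intCast_zmod_eq_zero_iff_dvd]
  exact h10

/-- The representatives are inequivalent modulo `Γ₀(M)`. -/
theorem uRep_inj (i j : HIdx M P.l) {c : SL(2, ℤ)} (hc : c ∈ Gamma0 M)
    (h : uRep P i * (uRep P j)⁻¹ = mapGL ℝ c) : i = j := by
  refine hRep_injective_mod (Γ := Gamma0 M) i j ⟨(corrStd P i)⁻¹ * c * corrStd P j,
    mul_mem (mul_mem (inv_mem (liftQ_mem _)) hc) (liftQ_mem _), ?_⟩
  rw [map_mul, map_mul, map_inv, ← h, uRep, uRep]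
  group

omit [NeZero q] [NeZero M] hcop in
theorem coprime_l_mul : P.l.Coprime (q * M) :=
  (Nat.Prime.coprime_iff_not_dvd P.prime).2 P.not_dvd

omit [NeZero q] [NeZero M] hcop in
theorem card_hIdx_mul {N : ℕ} (hN : N ∣ q ^ 2 * M) :
    Nat.card (HIdx N P.l) ≤ Nat.card (HIdx M P.l) := by
  have h : ¬ P.l ∣ N := fun h => P.not_dvd (by
    rcases (Nat.Prime.dvd_mul P.prime).1 (h.trans hN) with h' | h'
    · exact (P.prime.dvd_of_dvd_pow h').mul_right M
    · exact h'.mul_left q)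
  rw [Nat.card_eq_fintype_card, Nat.card_eq_fintype_card, card_hIdx h,
    card_hIdx P.not_dvd_level]

variable {A : Type*} [AddCommGroup A] (R : Type*) [Semiring R] [Module R A]

/-- Restriction to the level of the upper triangular elements. -/
theorem uOp_res_borel (φ : Additive (gammaH (q * M) (⊤ : Subgroup (ZMod (q * M))ˣ)) →+ A) :
    uOp P R (borel q) (res R levelGrp_borel.le φ) =
      res R levelGrp_borel.le (hecke (q * M) ⊤ P.l R φ) := by
  have hmem : ∀ i, uRep P i ∈ heckeSet (q * M) (⊤ : Subgroup (ZMod (q * M))ˣ) P.l := fun i =>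
    mem_heckeSet_of_dvd (coprime_l_mul P) (isIntMat_uRep P i) (det_uMat P i) (by
      rw [Nat.cast_mul]
      exact IsCoprime.mul_dvd (Nat.isCoprime_iff_coprime.2 hcop.out)
        (dvd_uMat P (by decide)) (dvd_uMat_lowerLeft P i))
  have hreps : IsReps (gammaH (q * M) ⊤) (heckeSet (q * M) ⊤ P.l) (uRep P) :=
    isReps_hRep.of_card hmem (fun i j hij => by
      obtain ⟨c, hc, hcg⟩ := hij
      refine uRep_inj P i j ?_ hcg.symm
      have hc' := gammaH_le_Gamma0 hc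
      rw [Gamma0_mem, ZMod.intCast_zmod_eq_zero_iff_dvd] at hc' ⊢
      exact (Int.natCast_dvd_natCast.2 (dvd_mul_left M q)).trans hc')
      (card_hIdx_mul P ⟨q, by ring⟩)
  obtain ⟨e, he⟩ := hreps.exists_equiv isReps_hRep
  rw [res_eq_opOf, uOp, opOf_comp, hecke, opOf_comp]
  exact LinearMap.congr_fun (opOf_congr _ _
    ((Equiv.punitProd (HIdx M P.l)).trans (e.trans (Equiv.prodPUnit (HIdx (q * M) P.l)).symm))
    fun p => by simpa using he p.2) φ

/-- The rescaling matrix. -/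
def scaleGL (q : ℕ) : GLR := ModularForm.heckeMatrix q 0

omit [NeZero M] hcop in
omit [NeZero q] in
theorem isIntMat_scaleGL [hq : Fact q.Prime] : IsIntMat (scaleGL q) !![1, 0; 0, (q : ℤ)] := by
  simpa [scaleGL] using isIntMat_heckeMatrix (n := q) 0

section Scale

variable [hq : Fact q.Prime]

omit [NeZero M] hcop in
omit [NeZero q] in
theorem scale_factor {g : GLR} {Y : Matrix (Fin 2) (Fin 2) ℤ} (hY : IsIntMat g Y) {b' : ℤ}
    (hb : Y 0 1 = (q : ℤ) * b') :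
    IsIntMat (scaleGL q * g * (scaleGL q)⁻¹) !![Y 0 0, b'; (q : ℤ) * Y 1 0, Y 1 1] := by
  set X : Matrix (Fin 2) (Fin 2) ℤ := !![Y 0 0, b'; (q : ℤ) * Y 1 0, Y 1 1]
  have h1 : (X * !![1, 0; 0, (q : ℤ)]) = !![1, 0; 0, (q : ℤ)] * Y := by
    ext a b
    fin_cases a <;> fin_cases b <;> simp [X, Matrix.mul_apply, Fin.sum_univ_two, hb, mul_comm]
  have h2 : IsIntMat (scaleGL q * g) (X * !![1, 0; 0, (q : ℤ)]) :=
    h1 ▸ isIntMat_scaleGL.mul hY
  unfold IsIntMat at h2 ⊢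
  rw [Units.val_mul _ ((scaleGL q)⁻¹), h2, Matrix.map_mul, ← (isIntMat_scaleGL (q := q)),
    mul_assoc, Units.mul_inv, mul_one]

omit [NeZero M] in
theorem admissible_scale :
    Admissible (gammaH (q ^ 2 * M) (⊤ : Subgroup (ZMod (q ^ 2 * M))ˣ)) (pmLevel q M)
      fun _ : Unit => scaleGL q := fun γ => by
  refine ⟨id, Function.bijective_id, fun _ => ?_⟩
  obtain ⟨hM, hq'⟩ := mem_levelGrp.1 γ.2
  have h0 : ∀ a b : Fin 2, a ≠ b → (q : ℤ) ∣ (γ : SL(2, ℤ)) a b := fun a b hab => by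
    rw [← ZMod.intCast_zmod_eq_zero_iff_dvd, ← modQ_apply]
    rcases mem_pmGrp.1 hq' with h | h <;> rw [h] <;> simp [Matrix.one_apply_ne hab]
  obtain ⟨b', hb⟩ := h0 0 1 (by decide)
  have hY := scale_factor (isIntMat_mapGL (γ : SL(2, ℤ))) hb
  refine mem_img_of_mem_heckeSet_one (mem_heckeSet_of_dvd (Nat.coprime_one_left _) hY ?_ ?_)
  · rw [Matrix.det_fin_two_of]
    linear_combination Gamma0.det_eq (γ : SL(2, ℤ)) + (γ : SL(2, ℤ)) 1 0 * hb
  · rw [Gamma0_mem, ZMod.intCast_zmod_eq_zero_iff_dvd] at hM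
    show ((q ^ 2 * M : ℕ) : ℤ) ∣ (q : ℤ) * (γ : SL(2, ℤ)) 1 0
    rw [show ((q ^ 2 * M : ℕ) : ℤ) = (q : ℤ) * ((q : ℤ) * (M : ℤ)) by push_cast; ring]
    exact mul_dvd_mul_left _
      (IsCoprime.mul_dvd (Nat.isCoprime_iff_coprime.2 hcop.out) (h0 1 0 (by decide)) hM)

/-- Rescaling. -/
def scale : (Additive (gammaH (q ^ 2 * M) (⊤ : Subgroup (ZMod (q ^ 2 * M))ˣ)) →+ A) →ₗ[R]
    LevelHom q M A :=
  opOf (admissible_scale (q := q) (M := M)) R

theorem uOp_scale (φ : Additive (gammaH (q ^ 2 * M) (⊤ : Subgroup (ZMod (q ^ 2 * M))ˣ)) →+ A) :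
    uOp P R (pmGrp q) (scale R φ) = scale R (hecke (q ^ 2 * M) ⊤ P.l R φ) := by
  set β : HIdx M P.l → GLR := fun i => scaleGL q * uRep P i * (scaleGL q)⁻¹
  have hβ : ∀ i, β i ∈ heckeSet (q ^ 2 * M) (⊤ : Subgroup (ZMod (q ^ 2 * M))ˣ) P.l := fun i => by
    obtain ⟨b', hb⟩ := dvd_uMat P (i := i) (a := 0) (b := 1) (by decide)
    refine mem_heckeSet_of_dvd ((coprime_l_mul P).coprime_dvd_right (dvd_mul_left M q)
      |>.mul_right (((coprime_l_mul P).coprime_dvd_right (dvd_mul_right q M)).pow_right 2) |>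
      fun h => by rwa [mul_comm] at h)
      (scale_factor (isIntMat_uRep P i) hb) ?_ ?_
    · rw [Matrix.det_fin_two_of, ← det_uMat P i, Matrix.det_fin_two]
      linear_combination uMat P i 1 0 * hb
    · show ((q ^ 2 * M : ℕ) : ℤ) ∣ (q : ℤ) * uMat P i 1 0
      rw [show ((q ^ 2 * M : ℕ) : ℤ) = (q : ℤ) * ((q : ℤ) * (M : ℤ)) by push_cast; ring]
      exact mul_dvd_mul_left _ (IsCoprime.mul_dvd (Nat.isCoprime_iff_coprime.2 hcop.out)
        (dvd_uMat P (by decide)) (dvd_uMat_lowerLeft P i))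
  have hinj : ∀ i j, β i * (β j)⁻¹ ∈ img (gammaH (q ^ 2 * M) ⊤) → i = j := fun i j hij => by
    obtain ⟨c, hc, hcg⟩ := hij
    have hc' := gammaH_le_Gamma0 hc
    rw [Gamma0_mem, ZMod.intCast_zmod_eq_zero_iff_dvd,
      show ((q ^ 2 * M : ℕ) : ℤ) = (q : ℤ) * ((q : ℤ) * (M : ℤ)) by push_cast; ring] at hc'
    obtain ⟨k, hk⟩ := hc'
    let c' : SL(2, ℤ) := ⟨!![c 0 0, (q : ℤ) * c 0 1; (q : ℤ) * (M : ℤ) * k, c 1 1], by
      rw [Matrix.det_fin_two_of]
      linear_combination Gamma0.det_eq c + c 0 1 * hk⟩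
    refine uRep_inj P i j (c := c') ?_ ?_
    · rw [Gamma0_mem, ZMod.intCast_zmod_eq_zero_iff_dvd]
      exact ⟨(q : ℤ) * k, show (q : ℤ) * (M : ℤ) * k = _ by ring⟩
    · have hs : scaleGL q * mapGL ℝ c' * (scaleGL q)⁻¹ = mapGL ℝ c := by
        refine (scale_factor (isIntMat_mapGL c') (b' := c 0 1) rfl).ext ?_
        convert isIntMat_mapGL c using 1
        rw [Matrix.eta_fin_two (c : Matrix (Fin 2) (Fin 2) ℤ), hk]
        simp [c', mul_assoc]
      rw [← hs] at hcg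
      refine (mul_left_cancel (a := scaleGL q) (mul_right_cancel (b := (scaleGL q)⁻¹) ?_)).symm
      rw [hcg]
      simp [β, mul_assoc]
  have hreps : IsReps (gammaH (q ^ 2 * M) ⊤) (heckeSet (q ^ 2 * M) ⊤ P.l) β :=
    isReps_hRep.of_card hβ hinj (card_hIdx_mul P dvd_rfl)
  obtain ⟨e, he⟩ := hreps.exists_equiv isReps_hRep
  rw [uOp, scale, opOf_comp, hecke, opOf_comp]
  exact LinearMap.congr_fun (opOf_congr _ _
    ((Equiv.punitProd (HIdx M P.l)).trans
      (e.trans (Equiv.prodPUnit (HIdx (q ^ 2 * M) P.l)).symm))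
    fun p => by
      have := he p.2
      simpa [β, mul_assoc] using this) φ

end Scale

end Fermat.Agent.RT.Lift.LowerSq

end
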