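import Fermat.Agent.RT.Lift.LowerSq.GroupAlg
import Fermat.Agent.RT.Lift.LowerSq.Transfer
import Fermat.Agent.Carayol.CombId
import Mathlib.RingTheory.IntegralDomain
import Mathlib.Data.Nat.Factorization.Basic

/-!
# The combination given by an element killing the functions on nonzero vectors

`SL₂(𝔽_q) × 𝔽_qˣ` acts on the nonzero vectors. An element of its integral group algebra killing
the functions on them gives an identity between values of functions on `GL₂(𝔽_q)` of the kind used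
in the integral study at `q`; such elements lift powers of the elements of `𝔽_p[SL₂(𝔽_q)]` killing
the functions on the projective line.
-/

set_option autoImplicit false

noncomputable section

open Matrix Fermat.Agent.Carayol
open scoped MatrixGroups

namespace Fermat.Agent.RT.Lift.LowerSq

/-- The nonzero vectors. -/
def RowVec (q : ℕ) : Type := {v : Fin 2 → ZMod q // v ≠ 0}

variable {q : ℕ} [Fact q.Prime]

instance : Fintype (RowVec q) := inferInstanceAs (Fintype {v : Fin 2 → ZMod q // v ≠ 0})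

omit [Fact q.Prime] in
theorem mulVec_coe_mul (g h : SL(2, ZMod q)) (v : Fin 2 → ZMod q) :
    (↑(g * h) : Matrix (Fin 2) (Fin 2) (ZMod q)) *ᵥ v =
      (g : Matrix (Fin 2) (Fin 2) (ZMod q)) *ᵥ ((h : Matrix (Fin 2) (Fin 2) (ZMod q)) *ᵥ v) :=
  (Matrix.mulVec_mulVec v _ _).symm

theorem mulVec_coe_one (v : Fin 2 → ZMod q) :
    (↑(1 : SL(2, ZMod q)) : Matrix (Fin 2) (Fin 2) (ZMod q)) *ᵥ v = v :=
  Matrix.one_mulVec v

theorem coe_inv_mulVec (g : SL(2, ZMod q)) (v : Fin 2 → ZMod q) :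
    (↑g⁻¹ : Matrix (Fin 2) (Fin 2) (ZMod q)) *ᵥ ((g : Matrix (Fin 2) (Fin 2) (ZMod q)) *ᵥ v)
      = v := by
  rw [← mulVec_coe_mul, inv_mul_cancel, mulVec_coe_one]

instance : MulAction (SL(2, ZMod q) × (ZMod q)ˣ) (RowVec q) where
  smul x v := ⟨(x.2 : ZMod q) • ((x.1 : Matrix (Fin 2) (Fin 2) (ZMod q)) *ᵥ v.1), fun h => v.2 (by
    have h' := (smul_eq_zero.1 h).resolve_left x.2.ne_zero
    rw [← coe_inv_mulVec x.1 v.1, h', Matrix.mulVec_zero])⟩
  one_smul v := Subtype.ext (by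
    show ((1 : (ZMod q)ˣ) : ZMod q) • ((1 : SL(2, ZMod q)) : Matrix _ _ (ZMod q)) *ᵥ v.1 = v.1
    rw [Units.val_one, one_smul, mulVec_coe_one])
  mul_smul x y v := Subtype.ext (by
    show ((x.2 * y.2 : (ZMod q)ˣ) : ZMod q) • (↑(x.1 * y.1) : Matrix (Fin 2) (Fin 2) (ZMod q)) *ᵥ v.1 =
      (x.2 : ZMod q) • (x.1 : Matrix (Fin 2) (Fin 2) (ZMod q)) *ᵥ
        ((y.2 : ZMod q) • (y.1 : Matrix (Fin 2) (Fin 2) (ZMod q)) *ᵥ v.1)
    rw [Units.val_mul, mulVec_coe_mul, Matrix.mulVec_smul, smul_smul])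

theorem coe_smul_rowVec (x : SL(2, ZMod q) × (ZMod q)ˣ) (v : RowVec q) :
    (x • v).1 = (x.2 : ZMod q) • ((x.1 : Matrix (Fin 2) (Fin 2) (ZMod q)) *ᵥ v.1) := rfl

/-- The first basis vector. -/
abbrev e₁ : Fin 2 → ZMod q := ![1, 0]

theorem exists_mulVec_e₁ {v : Fin 2 → ZMod q} (hv : v ≠ 0) :
    ∃ g : SL(2, ZMod q), (g : Matrix (Fin 2) (Fin 2) (ZMod q)) *ᵥ e₁ = v := by
  by_cases h : v 0 = 0
  · have h1 : v 1 ≠ 0 := fun h1 => hv (by ext i; fin_cases i <;> assumption)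
    refine ⟨⟨!![v 0, -(v 1)⁻¹; v 1, 0], by simp [Matrix.det_fin_two_of, h1]⟩, ?_⟩
    ext i
    fin_cases i <;> simp [Matrix.mulVec, dotProduct, Fin.sum_univ_two]
  · refine ⟨⟨!![v 0, 0; v 1, (v 0)⁻¹], by simp [Matrix.det_fin_two_of, h]⟩, ?_⟩
    ext i
    fin_cases i <;> simp [Matrix.mulVec, dotProduct, Fin.sum_univ_two]

/-- The line of a nonzero vector. -/
def toLine (v : RowVec q) : SL(2, ZMod q) ⧸ borel q :=
  ((exists_mulVec_e₁ v.2).choose : SL(2, ZMod q))

theorem mem_borel_of_mulVec {g : SL(2, ZMod q)} {c : ZMod q}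
    (h : (g : Matrix (Fin 2) (Fin 2) (ZMod q)) *ᵥ e₁ = c • e₁) : g ∈ borel q := by
  rw [mem_borel]
  simpa [Matrix.mulVec, dotProduct, Fin.sum_univ_two] using congrFun h 1

theorem mulVec_of_mem_borel {g : SL(2, ZMod q)} (h : g ∈ borel q) :
    (g : Matrix (Fin 2) (Fin 2) (ZMod q)) *ᵥ e₁ = g 0 0 • e₁ := by
  rw [mem_borel] at h
  ext i
  fin_cases i <;> simp [Matrix.mulVec, dotProduct, Fin.sum_univ_two, h]

theorem toLine_eq_iff {v w : RowVec q} {g g' : SL(2, ZMod q)}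
    (hg : (g : Matrix (Fin 2) (Fin 2) (ZMod q)) *ᵥ e₁ = v.1)
    (hg' : (g' : Matrix (Fin 2) (Fin 2) (ZMod q)) *ᵥ e₁ = w.1) :
    (g : SL(2, ZMod q) ⧸ borel q) = g' ↔ ∃ c : ZMod q, w.1 = c • v.1 := by
  rw [QuotientGroup.eq]
  constructor
  · intro h
    refine ⟨(g⁻¹ * g' : SL(2, ZMod q)) 0 0, ?_⟩
    rw [← hg, ← Matrix.mulVec_smul, ← mulVec_of_mem_borel h, ← mulVec_coe_mul,
      mul_inv_cancel_left, hg']
  · rintro ⟨c, hc⟩
    refine mem_borel_of_mulVec (c := c) ?_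
    rw [mulVec_coe_mul, hg', hc, Matrix.mulVec_smul, ← hg,
      coe_inv_mulVec]

theorem toLine_spec (v : RowVec q) :
    ((exists_mulVec_e₁ v.2).choose : Matrix (Fin 2) (Fin 2) (ZMod q)) *ᵥ e₁ = v.1 :=
  (exists_mulVec_e₁ v.2).choose_spec

theorem toLine_surjective : Function.Surjective (toLine (q := q)) := by
  intro x
  induction x using QuotientGroup.induction_on with | _ g => ?_
  refine ⟨⟨(g : Matrix (Fin 2) (Fin 2) (ZMod q)) *ᵥ e₁, fun h => ?_⟩, ?_⟩
  · have h' := coe_inv_mulVec g (e₁ : Fin 2 → ZMod q)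
    rw [h, Matrix.mulVec_zero] at h'
    simpa [e₁] using congrFun h' 0
  · exact (toLine_eq_iff (w := ⟨_, _⟩) (toLine_spec _) rfl).2 ⟨1, (one_smul _ _).symm⟩

theorem toLine_smul (x : SL(2, ZMod q) × (ZMod q)ˣ) (v : RowVec q) :
    toLine (x • v) = x.1 • toLine v := by
  set g := (exists_mulVec_e₁ v.2).choose
  have hg := toLine_spec v
  refine ((toLine_eq_iff (v := ⟨(x.1 : Matrix (Fin 2) (Fin 2) (ZMod q)) *ᵥ v.1, fun h => v.2 (by
    rw [← coe_inv_mulVec x.1 v.1, h, Matrix.mulVec_zero])⟩) (g := x.1 * g) ?_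
    (toLine_spec (x • v))).2 ⟨x.2, coe_smul_rowVec x v⟩).symm
  rw [mulVec_coe_mul, hg]

section Lift

variable (p : ℕ) [Fact p.Prime]

/-- A positive power of an element killing the functions on the projective line is the image of
the reduction of an integral element killing the functions on the nonzero vectors. -/
theorem exists_lift_borel {y : MonoidAlgebra (ZMod p) SL(2, ZMod q)}
    (hy : permRep (ZMod p) (SL(2, ZMod q) ⧸ borel q) y = 0) :
    ∃ (k : ℕ) (a : MonoidAlgebra ℤ (SL(2, ZMod q) × (ZMod q)ˣ)),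
      permRep ℤ (RowVec q) a = 0 ∧
        MonoidAlgebra.mapDomainRingHom (ZMod p)
          (MonoidHom.fst SL(2, ZMod q) (ZMod q)ˣ) (redMod p a) = y ^ k := by
  classical
  have : Fintype (SL(2, ZMod q) ⧸ borel q) := Fintype.ofFinite _
  let _ : MulAction (SL(2, ZMod q) × (ZMod q)ˣ) (SL(2, ZMod q) ⧸ borel q) :=
    MulAction.compHom _ (MonoidHom.fst SL(2, ZMod q) (ZMod q)ˣ)
  set P := MonoidAlgebra.mapDomainRingHom (ZMod p) (MonoidHom.fst SL(2, ZMod q) (ZMod q)ˣ)
  set y' := MonoidAlgebra.mapDomainRingHom (ZMod p) (MonoidHom.inl SL(2, ZMod q) (ZMod q)ˣ) y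
  have hy' : permRep (ZMod p) (SL(2, ZMod q) ⧸ borel q) y' = 0 := by
    rw [← hy]
    refine LinearMap.ext fun F => funext fun z => ?_
    simp only [y']
    clear hy y'
    induction y using MonoidAlgebra.induction_linear with
    | zero => simp
    | add u v hu hv => simp only [map_add, LinearMap.add_apply, Pi.add_apply, hu, hv]
    | single g r =>
      rw [MonoidAlgebra.mapDomainRingHom_apply, MonoidAlgebra.mapDomain_single, permRep_single,
        permRep_single]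
      rfl
  obtain ⟨gen, hgen⟩ := IsCyclic.exists_generator (α := (ZMod q)ˣ)
  obtain ⟨a, d, hd, hcard⟩ :=
    Nat.exists_eq_pow_mul_and_not_dvd (Nat.card_pos (α := (ZMod q)ˣ)).ne' p
      (Fact.out : p.Prime).ne_one
  have hc : ((1, gen) : SL(2, ZMod q) × (ZMod q)ˣ) ^ (p ^ a * d) = 1 :=
    Prod.ext (one_pow _) (by rw [Prod.pow_snd, ← hcard, pow_card_eq_one']; rfl)
  have hpow : ∀ j : ℕ, ((1, gen) : SL(2, ZMod q) × (ZMod q)ˣ) ^ j = (1, gen ^ j) := fun j =>
    Prod.ext (one_pow _) (Prod.pow_snd _ _)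
  have hX := exists_annihilator_cover (p := p) (X := RowVec q)
    (Y := SL(2, ZMod q) ⧸ borel q) toLine toLine_surjective toLine_smul (1, gen)
    (fun g => Prod.ext (by simp) (mul_comm _ _))
    (fun v w h => by
      obtain ⟨c, hc⟩ := (toLine_eq_iff (toLine_spec v) (toLine_spec w)).1 h
      have hc0 : c ≠ 0 := fun h0 => w.2 (by rw [hc, h0, zero_smul])
      obtain ⟨j, -, hj⟩ := (isOfFinOrder_of_finite gen).mem_zpowers_iff_mem_range_orderOf.1
        (hgen (Units.mk0 c hc0)) |> Finset.mem_image.1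
      refine ⟨j, Subtype.ext ?_⟩
      rw [hpow, coe_smul_rowVec, mulVec_coe_one, hj, Units.val_mk0,
        hc]) hc hy'
  have hd0 : (d : ZMod p) ≠ 0 := by rwa [Ne, ZMod.natCast_eq_zero_iff]
  set y₁ := y' ^ p ^ a * ∑ j ∈ Finset.range d, MonoidAlgebra.single ((1, gen) ^ (p ^ a * j)) 1
  have hP : P ((d : ZMod p)⁻¹ • y₁) = y ^ p ^ a := by
    have hs : ∀ (r : ZMod p) (z : MonoidAlgebra (ZMod p) (SL(2, ZMod q) × (ZMod q)ˣ)),
        P (r • z) = r • P z := fun r z => MonoidAlgebra.mapDomain_smul _ r z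
    have hinl : P y' = y := by
      simp only [P, y']
      rw [← RingHom.comp_apply, ← MonoidAlgebra.mapDomainRingHom_comp, MonoidHom.fst_comp_inl,
        MonoidAlgebra.mapDomainRingHom_id, RingHom.id_apply]
    rw [hs, map_mul, map_pow, hinl, map_sum]
    have hone : ∀ j : ℕ, P (MonoidAlgebra.single ((1, gen) ^ (p ^ a * j)) (1 : ZMod p)) = 1 :=
      fun j => by
        simp only [P, MonoidAlgebra.mapDomainRingHom_apply, MonoidAlgebra.mapDomain_single,
          MonoidHom.coe_fst]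
        rw [Prod.pow_fst, one_pow]
        rfl
    rw [Finset.sum_congr rfl fun j _ => hone j, Finset.sum_const, Finset.card_range,
      ← Nat.cast_smul_eq_nsmul (ZMod p), ← mul_smul_comm, smul_smul, inv_mul_cancel₀ hd0, one_smul,
      mul_one]
  obtain ⟨N, b, hb, hred⟩ := exists_lift_annihilator (p := p) (X := RowVec q)
    (y := (d : ZMod p)⁻¹ • y₁) (by rw [map_smul, hX, smul_zero])
  exact ⟨p ^ a * (N + 1), b, hb, by rw [hred, map_pow, hP, ← pow_mul]⟩

end Lift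

/-- `(g, c) ↦ c⁻¹ (gᵀ)⁻¹`. -/
def dualElt : SL(2, ZMod q) × (ZMod q)ˣ →* GL (Fin 2) (ZMod q) :=
  MonoidHom.mk' (fun x =>
    ⟨((x.2⁻¹ : (ZMod q)ˣ) : ZMod q) • (↑x.1⁻¹ : Matrix (Fin 2) (Fin 2) (ZMod q))ᵀ,
      (x.2 : ZMod q) • (x.1 : Matrix (Fin 2) (Fin 2) (ZMod q))ᵀ,
      by rw [smul_mul_smul_comm, ← Units.val_mul, inv_mul_cancel, Units.val_one, one_smul,
        ← Matrix.transpose_mul]
         exact (congrArg (fun g : SL(2, ZMod q) => (g : Matrix (Fin 2) (Fin 2) (ZMod q))ᵀ)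
          (mul_inv_cancel x.1)).trans Matrix.transpose_one,
      by rw [smul_mul_smul_comm, ← Units.val_mul, mul_inv_cancel, Units.val_one, one_smul,
        ← Matrix.transpose_mul]
         exact (congrArg (fun g : SL(2, ZMod q) => (g : Matrix (Fin 2) (Fin 2) (ZMod q))ᵀ)
          (inv_mul_cancel x.1)).trans Matrix.transpose_one⟩) fun x y => Units.ext (by
    show (((x.2 * y.2)⁻¹ : (ZMod q)ˣ) : ZMod q) •
        (↑(x.1 * y.1)⁻¹ : Matrix (Fin 2) (Fin 2) (ZMod q))ᵀ =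
      (((x.2⁻¹ : (ZMod q)ˣ) : ZMod q) • (↑x.1⁻¹ : Matrix (Fin 2) (Fin 2) (ZMod q))ᵀ) *
        (((y.2⁻¹ : (ZMod q)ˣ) : ZMod q) • (↑y.1⁻¹ : Matrix (Fin 2) (Fin 2) (ZMod q))ᵀ)
    rw [smul_mul_smul_comm, ← Units.val_mul, ← mul_inv, ← Matrix.transpose_mul,
      _root_.mul_inv_rev x.1]
    rfl)

theorem coe_dualElt (x : SL(2, ZMod q) × (ZMod q)ˣ) :
    (dualElt x : Matrix (Fin 2) (Fin 2) (ZMod q)) =
      ((x.2⁻¹ : (ZMod q)ˣ) : ZMod q) • (↑x.1⁻¹ : Matrix (Fin 2) (Fin 2) (ZMod q))ᵀ := rfl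

/-- A function invariant on the left under the elements congruent to one modulo a line, through
the orbit of a functional. -/
theorem exists_factor {M : Type} (Φ : GL (Fin 2) (ZMod q) → M)
    {v : Fin 2 → ZMod q} (hv : v ≠ 0)
    (hS : ∀ s g : GL (Fin 2) (ZMod q), (∀ w : Fin 2 → ZMod q, ∃ k : ZMod q,
      (s : Matrix (Fin 2) (Fin 2) (ZMod q)) *ᵥ w - w = k • v) → Φ (s * g) = Φ g) :
    ∃ (l : RowVec q) (F : RowVec q → M), Φ 1 = F l ∧
      ∀ x : SL(2, ZMod q) × (ZMod q)ˣ, Φ (dualElt x) = F (x⁻¹ • l) := by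
  classical
  obtain ⟨l, hl0, hl⟩ : ∃ l : RowVec q, l.1 ⬝ᵥ v = 0 ∧
      ∀ u : Fin 2 → ZMod q, l.1 ⬝ᵥ u = 0 → ∃ k : ZMod q, u = k • v := by
    refine ⟨⟨![-v 1, v 0], fun h => hv ?_⟩, by simp [dotProduct, Fin.sum_univ_two, mul_comm],
      fun u hu => ?_⟩
    · have h0 := congrFun h 0
      have h1 := congrFun h 1
      simp only [Matrix.cons_val_zero, Pi.zero_apply, neg_eq_zero, Matrix.cons_val_one] at h0 h1
      ext i
      fin_cases i <;> assumption
    · simp only [dotProduct, Fin.sum_univ_two, Matrix.cons_val_zero, Matrix.cons_val_one] at hu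
      rcases ne_or_eq (v 0) 0 with h | h
      · refine ⟨u 0 / v 0, ?_⟩
        ext i
        fin_cases i
        · simp [h]
        · simp only [Fin.mk_one, Pi.smul_apply, smul_eq_mul]
          field_simp
          linear_combination hu
      · have h1 : v 1 ≠ 0 := fun h1 => hv (by ext i; fin_cases i <;> assumption)
        refine ⟨u 1 / v 1, ?_⟩
        have hu0 : u 0 = 0 := by
          rw [h] at hu
          simpa [h1] using hu
        ext i
        fin_cases i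
        · simp [h, hu0]
        · simp [h1]
  let F : RowVec q → M := fun w =>
    if hw : ∃ g : GL (Fin 2) (ZMod q), l.1 ᵥ* (g : Matrix (Fin 2) (Fin 2) (ZMod q)) = w.1 then
      Φ hw.choose else Φ 1
  have hF : ∀ (g : GL (Fin 2) (ZMod q)) (w : RowVec q),
      l.1 ᵥ* (g : Matrix (Fin 2) (Fin 2) (ZMod q)) = w.1 → Φ g = F w := by
    intro g w hg
    have hw : ∃ g : GL (Fin 2) (ZMod q), l.1 ᵥ* (g : Matrix _ _ (ZMod q)) = w.1 := ⟨g, hg⟩
    simp only [F, dif_pos hw]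
    have hspec := hw.choose_spec
    generalize hw.choose = g' at hspec ⊢
    have hfix : l.1 ᵥ* ((g * g'⁻¹ : GL (Fin 2) (ZMod q)) : Matrix _ _ (ZMod q)) = l.1 := by
      rw [Units.val_mul, ← Matrix.vecMul_vecMul, hg, ← hspec, Matrix.vecMul_vecMul,
        ← Units.val_mul, mul_inv_cancel, Units.val_one, Matrix.vecMul_one]
    conv_lhs => rw [show g = g * g'⁻¹ * g' by group]
    refine hS _ _ fun u => hl _ ?_
    rw [dotProduct_sub, Matrix.dotProduct_mulVec, hfix, sub_self]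
  refine ⟨l, F, hF 1 l (by rw [Units.val_one, Matrix.vecMul_one]), fun x => hF _ _ ?_⟩
  rw [coe_dualElt, coe_smul_rowVec, Matrix.vecMul_smul, Matrix.vecMul_transpose]
  rfl

/-- The combination of an element killing the functions on nonzero vectors. -/
def killComb (a : MonoidAlgebra ℤ (SL(2, ZMod q) × (ZMod q)ˣ))
    (ha : permRep ℤ (RowVec q) a = 0) : CombId q where
  fix := ⊥
  coeffs g := ∑ x, if dualElt x = g then ((if x = 1 then 1 else 0) - a.coeff x) else 0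
  exp := 1
  exp_pos := one_pos
  hid M _ Φ _ v hv hS := by
    classical
    obtain ⟨i, hi⟩ := hv
    obtain ⟨l, F, h1, hF⟩ := exists_factor Φ (fun h => hi.ne_zero (congrFun h i)) hS
    simp only [Finset.sum_smul, ite_smul, zero_smul]
    rw [Finset.sum_comm]
    simp only [Finset.sum_ite_eq, Finset.mem_univ, if_true, sub_smul, hF, ite_smul, one_smul,
      zero_smul, Finset.sum_sub_distrib, Finset.sum_ite_eq', inv_one]
    rw [sum_smul_eq_zero ha F l, sub_zero, h1, Nat.cast_one, one_smul]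

theorem killComb_coeffs {a : MonoidAlgebra ℤ (SL(2, ZMod q) × (ZMod q)ˣ)}
    (ha : permRep ℤ (RowVec q) a = 0) {A : Type*} [AddCommGroup A]
    (f : GL (Fin 2) (ZMod q) → A) :
    ∑ g, (killComb a ha).coeffs g • f g = ∑ x, (1 - a).coeff x • f (dualElt x) := by
  classical
  simp only [killComb, Finset.sum_smul, ite_smul, zero_smul]
  rw [Finset.sum_comm]
  refine Finset.sum_congr rfl fun x _ => ?_
  rw [Finset.sum_ite_eq, if_pos (Finset.mem_univ _)]
  congr 1
  rw [MonoidAlgebra.coeff_sub, Finsupp.sub_apply, MonoidAlgebra.one_def,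
    MonoidAlgebra.coeff_single, Finsupp.single_apply]
  simp only [@eq_comm _ x]

end Fermat.Agent.RT.Lift.LowerSq

end
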